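import Fermat.Agent.MazR.PA

/-!
# Power series with integral coefficients, inside Laurent series
-/

set_option autoImplicit false
set_option linter.unusedSectionVars false

noncomputable section

namespace Fermat.Agent.MazR

open ModularCurve Fermat.Agent.ModFun Fermat.Agent.HeckeQ Fermat.Agent.GoodRed Fermat.Agent.AtP

local notation "ℒ" => LaurentSeries

section NN

variable {R : Type*} [CommRing R]

theorem ofPS_coeff (s : PowerSeries R) (n : ℤ) : (HahnSeries.ofPowerSeries ℤ R s).coeff n =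
    if n < 0 then 0 else PowerSeries.coeff n.natAbs s :=
  PowerSeries.coeff_coe s n

/-- power series, inside Laurent series -/
def nn (R : Type*) [CommRing R] : Subring (ℒ R) := (HahnSeries.ofPowerSeries ℤ R).range

theorem mem_nn {x : ℒ R} : x ∈ nn R ↔ ∀ n < 0, x.coeff n = 0 := by
  constructor
  · rintro ⟨s, rfl⟩ n hn
    rw [ofPS_coeff, if_pos hn]
  · intro h
    refine ⟨PowerSeries.mk fun n => x.coeff n, ?_⟩
    ext n
    rw [ofPS_coeff]
    split_ifs with hn
    · exact (h n hn).symm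
    · rw [PowerSeries.coeff_mk, Int.natAbs_of_nonneg (not_lt.mp hn)]

theorem C_mem_nn (c : R) : (HahnSeries.C c : ℒ R) ∈ nn R := by
  rw [mem_nn]
  intro n hn
  rw [HahnSeries.C_apply, HahnSeries.coeff_single_of_ne hn.ne]

theorem coeff_zero_mul {x y : ℒ R} (hx : x ∈ nn R) (hy : y ∈ nn R) :
    (x * y).coeff 0 = x.coeff 0 * y.coeff 0 := by
  obtain ⟨s, rfl⟩ := hx
  obtain ⟨t, rfl⟩ := hy
  rw [← map_mul, ofPS_coeff, ofPS_coeff, ofPS_coeff]
  simp

theorem qExpand_mem_nn (m : ℕ) [NeZero m] {x : ℒ R} (hx : x ∈ nn R) : qExpand R m x ∈ nn R := by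
  rw [mem_nn] at hx ⊢
  intro n hn
  by_cases h : (m : ℤ) ∣ n
  · obtain ⟨k, rfl⟩ := h
    rw [qExpand_coeff_mul]
    exact hx k (by
      by_contra hk
      push Not at hk
      have : (0 : ℤ) ≤ m * k := mul_nonneg (Int.natCast_nonneg _) hk
      omega)
  · exact qExpand_coeff_of_not_dvd _ _ h

theorem twist_mem_nn (u : Rˣ) {x : ℒ R} (hx : x ∈ nn R) : twist u x ∈ nn R := by
  rw [mem_nn] at hx ⊢
  intro n hn
  rw [twist_coeff, hx n hn, mul_zero]

theorem hW_mem_nn [IsDomain R] {q : ℕ} [NeZero q] [HasPrim R q] {x : ℒ R} (hx : x ∈ nn R) :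
    hW q x ∈ nn R := by
  have h1 : prodTwist q x ∈ nn R := prod_mem fun ξ _ => twist_mem_nn _ hx
  rw [← qExpand_hW, mem_nn] at h1
  rw [mem_nn]
  intro n hn
  have := h1 ((q : ℤ) * n) (by
    have : (0 : ℤ) < q := by exact_mod_cast Nat.pos_of_ne_zero (NeZero.ne q)
    nlinarith)
  rwa [qExpand_coeff_mul] at this

theorem qExpand_coeff_zero (m : ℕ) [NeZero m] (x : ℒ R) : (qExpand R m x).coeff 0 = x.coeff 0 := by
  have := qExpand_coeff_mul (R := R) m x 0
  rwa [mul_zero] at this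

end NN

variable {K κ : Type*} [Field K] [Field κ] {A : ValuationSubring K} {π : A →+* κ}

variable (A) in
/-- power series with coefficients in `A` -/
def PA : Subring (ℒ K) := ((HahnSeries.ofPowerSeries ℤ K).comp (PowerSeries.map A.subtype)).range

theorem mem_PA {x : ℒ K} : x ∈ PA A ↔ x ∈ nn K ∧ ∀ n, x.coeff n ∈ A := by
  constructor
  · rintro ⟨s, rfl⟩
    refine ⟨⟨_, rfl⟩, fun n => ?_⟩
    rw [RingHom.comp_apply, ofPS_coeff]
    split_ifs
    · exact zero_mem _
    · rw [PowerSeries.coeff_map]; exact (PowerSeries.coeff _ s).2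
  · rintro ⟨h1, h2⟩
    rw [mem_nn] at h1
    refine ⟨PowerSeries.mk fun n => ⟨x.coeff n, h2 n⟩, ?_⟩
    ext n
    rw [RingHom.comp_apply, ofPS_coeff]
    split_ifs with hn
    · exact (h1 n hn).symm
    · rw [PowerSeries.coeff_map, PowerSeries.coeff_mk]
      show x.coeff _ = _
      rw [Int.natAbs_of_nonneg (not_lt.mp hn)]

/-- series with coefficients in `A` come from `A` -/
theorem exists_coeffMap {x : ℒ K} (h : ∀ n, x.coeff n ∈ A) :
    ∃ f : ℒ A, coeffMap A.subtype f = x := by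
  refine ⟨⟨fun n => ⟨x.coeff n, h n⟩, ?_⟩, ?_⟩
  · refine x.isPWO_support.mono fun n hn => ?_
    rw [Function.mem_support] at hn
    rw [HahnSeries.mem_support]
    intro h0
    exact hn (Subtype.ext h0)
  · ext n
    rw [coeffMap_coeff]
    rfl

theorem coeffMap_coeff_mem (f : ℒ A) (n : ℤ) : (coeffMap A.subtype f).coeff n ∈ A := by
  rw [coeffMap_coeff]; exact (f.coeff n).2

theorem exists_of_PA {x : ℒ K} (h : x ∈ PA A) :
    ∃ f ∈ nn A, coeffMap A.subtype f = x := by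
  obtain ⟨h1, h2⟩ := mem_PA.mp h
  obtain ⟨f, rfl⟩ := exists_coeffMap h2
  refine ⟨f, ?_, rfl⟩
  rw [mem_nn] at h1 ⊢
  intro n hn
  have := h1 n hn
  rw [coeffMap_coeff] at this
  exact Subtype.ext this

theorem PA_of_nn {f : ℒ A} (hf : f ∈ nn A) : coeffMap A.subtype f ∈ PA A := by
  rw [mem_PA]
  refine ⟨?_, coeffMap_coeff_mem f⟩
  rw [mem_nn] at hf ⊢
  intro n hn
  rw [coeffMap_coeff, hf n hn, map_zero]

theorem C_mem_PA {c : K} (hc : c ∈ A) : (HahnSeries.C c : ℒ K) ∈ PA A := by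
  rw [mem_PA]
  refine ⟨C_mem_nn c, fun n => ?_⟩
  rw [HahnSeries.C_apply, HahnSeries.coeff_single]
  split_ifs
  · exact hc
  · exact zero_mem _

/-- units -/
theorem inv_mem_PA {x : ℒ K} (hx : x ∈ PA A) (h0 : x.coeff 0 ≠ 0) (h1 : (x.coeff 0)⁻¹ ∈ A) :
    x⁻¹ ∈ PA A := by
  obtain ⟨s, rfl⟩ := hx
  have hc : IsUnit (PowerSeries.constantCoeff s) := by
    have e : (((HahnSeries.ofPowerSeries ℤ K).comp (PowerSeries.map A.subtype)) s).coeff 0 =
        ((PowerSeries.constantCoeff s : A) : K) := by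
      rw [RingHom.comp_apply, ofPS_coeff]
      simp
    rw [e] at h0 h1
    exact IsUnit.of_mul_eq_one ⟨_, h1⟩ (Subtype.ext (mul_inv_cancel₀ h0))
  obtain ⟨u, hu⟩ := PowerSeries.isUnit_iff_constantCoeff.mpr hc
  refine ⟨((u⁻¹ : (PowerSeries A)ˣ) : PowerSeries A), ?_⟩
  refine eq_inv_of_mul_eq_one_left ?_
  rw [← map_mul, ← hu, Units.inv_mul, map_one]

theorem inv_mem_nn {x : ℒ K} (hx : x ∈ nn K) (h0 : x.coeff 0 ≠ 0) : x⁻¹ ∈ nn K := by
  obtain ⟨s, rfl⟩ := hx
  have hc : IsUnit (PowerSeries.constantCoeff s) := by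
    rw [ofPS_coeff] at h0
    simp at h0
    exact Ne.isUnit h0
  obtain ⟨u, hu⟩ := PowerSeries.isUnit_iff_constantCoeff.mpr hc
  refine ⟨((u⁻¹ : (PowerSeries K)ˣ) : PowerSeries K), ?_⟩
  refine eq_inv_of_mul_eq_one_left ?_
  rw [← map_mul, ← hu, Units.inv_mul, map_one]

theorem PA_le_nn : PA A ≤ nn K := fun _ h => (mem_PA.mp h).1

/-- complete integral closure -/
theorem cic [IsLocalHom π] (hr : RankOne π) {x d : ℒ K} (hx : x ∈ nn K) (hd0 : d ≠ 0)
    (h : ∀ m : ℕ, d * x ^ m ∈ PA A) : x ∈ PA A := by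
  have hd : d ∈ nn K := by
    have := h 0
    rw [pow_zero, mul_one] at this
    exact PA_le_nn this
  obtain ⟨s, rfl⟩ := hx
  obtain ⟨t, rfl⟩ := hd
  rw [mem_PA]
  refine ⟨⟨_, rfl⟩, fun n => ?_⟩
  rw [ofPS_coeff]
  split_ifs
  · exact zero_mem _
  · refine cic_ps hr (d := t) (fun h0 => hd0 (by rw [h0, map_zero])) _ s fun m i => ?_
    have h1 := (mem_PA.mp (h m)).2 (i : ℤ)
    rw [← map_pow, ← map_mul, ofPS_coeff, if_neg (by omega), Int.natAbs_natCast] at h1
    exact h1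

/-- integral fractions are in `PA` -/
theorem cic_frac [IsLocalHom π] (hr : RankOne π) {x : ℒ K} (hx : x ∈ nn K) {f g : ℒ A}
    (hg : g ≠ 0) (hfg : coeffMap A.subtype g * x = coeffMap A.subtype f)
    (hint : IsIntegral (PA A) x) : x ∈ PA A := by
  -- shift the denominator into `nn`
  obtain ⟨e, he⟩ : ∃ e : ℕ, ∀ n : ℤ, n < -(e : ℤ) → g.coeff n = 0 := by
    refine ⟨(g.order).natAbs, fun n hn => ?_⟩
    refine HahnSeries.coeff_eq_zero_of_lt_order ?_
    omega
  set b : ℒ K := HahnSeries.single (e : ℤ) (1 : K) * coeffMap A.subtype g with hb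
  have hcoeff : ∀ (y : ℒ K) (n : ℤ), (HahnSeries.single (e : ℤ) (1 : K) * y).coeff n =
      y.coeff (n - e) := by
    intro y n
    have := HahnSeries.coeff_single_mul_add (r := (1 : K)) (x := y) (a := n - e) (b := (e : ℤ))
    rw [sub_add_cancel, one_mul] at this
    exact this
  have hbPA : b ∈ PA A := by
    rw [mem_PA, mem_nn]
    refine ⟨fun n hn => ?_, fun n => ?_⟩
    · rw [hb, hcoeff, coeffMap_coeff, he _ (by omega), map_zero]
    · rw [hb, hcoeff]; exact coeffMap_coeff_mem _ _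
  have hb0 : b ≠ 0 := by
    rw [hb]
    refine mul_ne_zero (by simp) ?_
    intro h
    exact hg (coeffMap_subtype_injective (by rw [h, map_zero]))
  have hbx : b * x ∈ PA A := by
    have e1 : b * x = HahnSeries.single (e : ℤ) (1 : K) * coeffMap A.subtype f := by
      rw [hb, mul_assoc, hfg]
    rw [mem_PA]
    refine ⟨mul_mem (PA_le_nn hbPA) hx, fun n => ?_⟩
    rw [e1, hcoeff]; exact coeffMap_coeff_mem _ _
  -- powers are in a finitely generated module
  obtain ⟨P, hPm, hP⟩ := hint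
  set N := P.natDegree with hN
  have key : ∀ m : ℕ, ∃ c : ℕ → PA A, x ^ m = ∑ i ∈ Finset.range N, (c i : ℒ K) * x ^ i := by
    intro m
    have h1 := Polynomial.modByMonic_add_div (Polynomial.X ^ m : Polynomial (PA A)) P
    have h2 : Polynomial.eval₂ (algebraMap (PA A) (ℒ K)) x (Polynomial.X ^ m %ₘ P) = x ^ m := by
      have h3 := congrArg (Polynomial.eval₂ (algebraMap (PA A) (ℒ K)) x) h1
      rw [Polynomial.eval₂_add, Polynomial.eval₂_mul, hP, zero_mul, add_zero,
        Polynomial.eval₂_X_pow] at h3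
      exact h3
    refine ⟨fun i => (Polynomial.X ^ m %ₘ P).coeff i, ?_⟩
    rw [← h2]
    rcases Nat.eq_zero_or_pos N with h0 | h0
    · have h4 : P = 1 := by
        exact hPm.natDegree_eq_zero.mp (hN ▸ h0)
      rw [h4, Polynomial.modByMonic_one, Polynomial.eval₂_zero, h0, Finset.sum_range_zero]
    · have hPne : P ≠ 1 := by
        rintro h4
        rw [h4, Polynomial.natDegree_one] at hN
        omega
      rw [Polynomial.eval₂_eq_sum_range' _ (Polynomial.natDegree_modByMonic_lt _ hPm hPne)]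
      rfl
  refine cic hr hx (pow_ne_zero N hb0) fun m => ?_
  obtain ⟨c, hc⟩ := key m
  rw [hc, Finset.mul_sum]
  refine sum_mem fun i hi => ?_
  have hi' := Finset.mem_range.mp hi
  have e1 : b ^ N * ((c i : ℒ K) * x ^ i) = (c i : ℒ K) * b ^ (N - i) * (b * x) ^ i := by
    have h5 : b ^ N = b ^ (N - i) * b ^ i := by rw [← pow_add]; congr 1; omega
    rw [mul_pow b x i, h5]; ring
  rw [e1]
  exact mul_mem (mul_mem (c i).2 (pow_mem hbPA _)) (pow_mem hbx _)

/-- `x ^ n` integral implies `x` integral -/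
theorem cic_pow [IsLocalHom π] (hr : RankOne π) {x : ℒ K} (hx : x ∈ nn K) {f g : ℒ A}
    (hg : g ≠ 0) (hfg : coeffMap A.subtype g * x = coeffMap A.subtype f) {n : ℕ} (hn : 0 < n)
    (h : x ^ n ∈ PA A) : x ∈ PA A := by
  refine cic_frac hr hx hg hfg ?_
  refine ⟨Polynomial.X ^ n - Polynomial.C (⟨x ^ n, h⟩ : PA A),
    Polynomial.monic_X_pow_sub_C _ hn.ne', ?_⟩
  rw [Polynomial.eval₂_sub, Polynomial.eval₂_X_pow, Polynomial.eval₂_C]
  exact sub_self _

end Fermat.Agent.MazR
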