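import Fermat.Agent.MazR.PA2

/-!
# Gauss lemma, roots, and the contraction for power series with integral coefficients
-/

set_option autoImplicit false
set_option linter.unusedSectionVars false

noncomputable section

namespace Fermat.Agent.MazR

open ModularCurve Fermat.Agent.ModFun Fermat.Agent.HeckeQ Fermat.Agent.GoodRed Fermat.Agent.AtP

local notation "ℒ" => LaurentSeries

variable {K κ : Type*} [Field K] [Field κ] {A : ValuationSubring K} {π : A →+* κ}

/-- the residual step: `f2 * y` divisible by `δ` implies `y` divisible by `δ` -/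
theorem dvd_of_dvd [IsLocalHom π] {δ : A} {f2 y f1 : ℒ A} {m : ℤ} (hm : π (f2.coeff m) ≠ 0)
    (hlt : ∀ i < m, δ ∣ f2.coeff i) (h : f2 * y = HahnSeries.C δ * f1) :
    ∃ y', y = HahnSeries.C δ * y' := by
  classical
  apply exists_C_mul
  set φ := Ideal.Quotient.mk (Ideal.span {δ}) with hφ
  have hφ0 : ∀ x : A, φ x = 0 ↔ δ ∣ x := by
    intro x
    rw [hφ, Ideal.Quotient.eq_zero_iff_mem, Ideal.mem_span_singleton]
  have hY : coeffMap φ y = 0 := by
    by_contra hne
    have hnt : Nontrivial (A ⧸ Ideal.span {δ}) := by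
      by_contra hnt
      rw [not_nontrivial_iff_subsingleton] at hnt
      apply hne
      ext n
      exact Subsingleton.elim _ _
    have hu : IsUnit (φ (f2.coeff m)) := by
      have : IsUnit (f2.coeff m) := (isUnit_map_iff π _).mp (Ne.isUnit hm)
      exact this.map φ
    have hF0 : (coeffMap φ f2).coeff m ≠ 0 := by rw [coeffMap_coeff]; exact hu.ne_zero
    have hFne : coeffMap φ f2 ≠ 0 := by
      intro h0
      rw [h0] at hF0
      exact hF0 rfl
    have hord : (coeffMap φ f2).order = m := by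
      apply le_antisymm
      · exact HahnSeries.order_le_of_coeff_ne_zero hF0
      · by_contra hlt'
        push Not at hlt'
        have h1 := hlt _ hlt'
        have h2 : (coeffMap φ f2).coeff (coeffMap φ f2).order ≠ 0 := by
          rw [Ne, HahnSeries.coeff_order_eq_zero]
          exact hFne
        apply h2
        rw [coeffMap_coeff, hφ0]
        exact h1
    have h3 := HahnSeries.coeff_mul_order_add_order (coeffMap φ f2) (coeffMap φ y)
    rw [← map_mul, h, map_mul] at h3
    have h4 : coeffMap φ (HahnSeries.C δ) = 0 := by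
      ext n
      rw [coeffMap_coeff, HahnSeries.C_apply, HahnSeries.coeff_single]
      split_ifs
      · rw [(hφ0 δ).mpr dvd_rfl]; rfl
      · rw [map_zero]; rfl
    rw [h4, zero_mul, HahnSeries.coeff_zero] at h3
    have h5 : (coeffMap φ f2).leadingCoeff = φ (f2.coeff m) := by
      rw [HahnSeries.leadingCoeff_eq, hord, coeffMap_coeff]
    rw [h5] at h3
    have h6 : (coeffMap φ y).leadingCoeff = 0 := (hu.mul_right_eq_zero).mp h3.symm
    exact (HahnSeries.leadingCoeff_ne_zero.mpr hne) h6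
  intro n
  rw [← hφ0]
  have := congrArg (fun z => z.coeff n) hY
  simpa using this

/-- the coefficients below the first unit coefficient have a common nonunit divisor -/
theorem exists_eps_below [IsLocalHom π] {a0 : A} (ha0 : a0 ≠ 0) (ha0π : π a0 = 0) {f2 : ℒ A}
    (hf2 : coeffMap π f2 ≠ 0) : ∃ (m : ℤ) (ε : A), π (f2.coeff m) ≠ 0 ∧ ε ≠ 0 ∧ π ε = 0 ∧
      ∀ i < m, ε ∣ f2.coeff i := by
  classical
  set m := (coeffMap π f2).order with hm
  have h1 : π (f2.coeff m) ≠ 0 := by
    rw [← coeffMap_coeff, hm, Ne, HahnSeries.coeff_order_eq_zero]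
    exact hf2
  have h2 : ∀ i < m, π (f2.coeff i) = 0 := by
    intro i hi
    rw [← coeffMap_coeff]
    exact HahnSeries.coeff_eq_zero_of_lt_order hi
  -- finitely many indices
  have h3 : ∀ s : Finset ℤ, (∀ i ∈ s, π (f2.coeff i) = 0) → ∃ ε : A, ε ≠ 0 ∧ π ε = 0 ∧
      ∀ i ∈ s, ε ∣ f2.coeff i := by
    intro s
    induction s using Finset.induction_on with
    | empty => exact fun _ => ⟨a0, ha0, ha0π, by simp⟩
    | insert i s hi ih =>
      intro hs
      obtain ⟨ε, h4, h5, h6⟩ := ih fun j hj => hs j (Finset.mem_insert_of_mem hj)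
      by_cases hz : f2.coeff i = 0
      · refine ⟨ε, h4, h5, fun j hj => ?_⟩
        rcases Finset.mem_insert.mp hj with rfl | hj
        · rw [hz]; exact dvd_zero _
        · exact h6 j hj
      · rcases ValuationRing.dvd_total ε (f2.coeff i) with h | h
        · refine ⟨ε, h4, h5, fun j hj => ?_⟩
          rcases Finset.mem_insert.mp hj with rfl | hj
          · exact h
          · exact h6 j hj
        · refine ⟨f2.coeff i, hz, hs i (Finset.mem_insert_self _ _), fun j hj => ?_⟩
          rcases Finset.mem_insert.mp hj with rfl | hj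
          · exact dvd_rfl
          · exact h.trans (h6 j hj)
  obtain ⟨ε, h4, h5, h6⟩ := h3 (Finset.Ico f2.order m) fun i hi => h2 i (Finset.mem_Ico.mp hi).2
  refine ⟨m, ε, h1, h4, h5, fun i hi => ?_⟩
  by_cases h7 : f2.order ≤ i
  · exact h6 i (Finset.mem_Ico.mpr ⟨h7, hi⟩)
  · rw [HahnSeries.coeff_eq_zero_of_lt_order (not_le.mp h7)]
    exact dvd_zero _

/-- **Gauss lemma** -/
theorem gauss [IsLocalHom π] (hr : RankOne π) {a0 : A} (ha0 : a0 ≠ 0) (ha0π : π a0 = 0)
    {x : ℒ K} {f1 f2 : ℒ A} (hf2 : coeffMap π f2 ≠ 0)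
    (hx : coeffMap A.subtype f2 * x = coeffMap A.subtype f1) {d : K} (hd : d ≠ 0)
    (h : ∀ n, d * x.coeff n ∈ A) : ∀ n, x.coeff n ∈ A := by
  obtain ⟨m, ε, hm, hε0, hεπ, hlt⟩ := exists_eps_below (π := π) ha0 ha0π hf2
  -- reduce to `d ∈ A`
  have main : ∀ n : ℕ, ∀ d : A, d ≠ 0 → d ∣ ε ^ n → (∀ i, (d : K) * x.coeff i ∈ A) →
      ∀ i, x.coeff i ∈ A := by
    intro n
    induction n with
    | zero =>
      intro d hd0 hd h i
      rw [pow_zero] at hd
      obtain ⟨e, he⟩ := hd
      have h1 := mul_mem e.2 (h i)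
      have h2 : (d : K) * e = 1 := (congrArg (Subtype.val : A → K) he).symm
      rwa [← mul_assoc, mul_comm (e : K), h2, one_mul] at h1
    | succ n ih =>
      intro d hd0 hd h
      obtain ⟨y, hy⟩ := exists_coeffMap (A := A) (x := HahnSeries.C (d : K) * x) (fun i => by
        rw [HahnSeries.C_mul_eq_smul, HahnSeries.coeff_smul, smul_eq_mul]; exact h i)
      have hrel : f2 * y = HahnSeries.C d * f1 := by
        apply coeffMap_subtype_injective
        have hC : coeffMap A.subtype (HahnSeries.C d) = HahnSeries.C (d : K) := by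
          rw [HahnSeries.C_apply, coeffMap_single]; rfl
        rw [map_mul, map_mul, hy, hC, ← hx]
        ring
      rcases ValuationRing.dvd_total d ε with hdε | hdε
      · obtain ⟨y', hy'⟩ := dvd_of_dvd (π := π) hm (fun i hi => hdε.trans (hlt i hi)) hrel
        have hdK : (HahnSeries.C (d : K) : ℒ K) ≠ 0 := by
          simpa using fun h0 => hd0 (Subtype.ext h0)
        have h1 : coeffMap A.subtype y' = x := by
          apply mul_left_cancel₀ hdK
          rw [← hy, hy', map_mul]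
          congr 1
          rw [HahnSeries.C_apply, HahnSeries.C_apply, coeffMap_single]; rfl
        intro i
        rw [← h1]
        exact coeffMap_coeff_mem _ _
      · obtain ⟨d', hd'⟩ := hdε
        obtain ⟨y', hy'⟩ := dvd_of_dvd (π := π) (f1 := HahnSeries.C d' * f1) hm hlt (by
          rw [hrel, hd', map_mul, mul_assoc])
        have hεK : (ε : K) ≠ 0 := fun h0 => hε0 (Subtype.ext h0)
        refine ih d' (fun h0 => hd0 (by rw [hd', h0, mul_zero])) ?_ ?_
        · rw [hd', pow_succ', ] at hd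
          exact (mul_dvd_mul_iff_left hε0).mp hd
        · intro i
          have h1 : (ε : K) * ((d' : K) * x.coeff i) = (ε : K) * ((y'.coeff i : A) : K) := by
            have h2 := congrArg (fun z => z.coeff i) hy
            simp only [coeffMap_coeff, HahnSeries.C_mul_eq_smul, HahnSeries.coeff_smul,
              smul_eq_mul] at h2
            have h3 : (d : K) = (ε : K) * d' := congrArg (Subtype.val : A → K) hd'
            rw [← mul_assoc, ← h3, ← h2, hy', HahnSeries.C_mul_eq_smul, HahnSeries.coeff_smul,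
              smul_eq_mul]
            rfl
          rw [mul_left_cancel₀ hεK h1]
          exact (y'.coeff i).2
  obtain ⟨n, hn⟩ := hr ε hε0 hεπ d⁻¹
  obtain ⟨n', hn'⟩ := hr ε hε0 hεπ d
  -- use `ε ^ n' * d`... `d' := ε ^ n * d⁻¹ ∈ A`
  have h1 : ∀ i, ((ε ^ n : A) : K) * x.coeff i ∈ A := by
    intro i
    have := mul_mem hn (h i)
    have e : (ε : K) ^ n * d⁻¹ * (d * x.coeff i) = (ε : K) ^ n * x.coeff i := by
      field_simp
    rwa [e] at this
  exact main n (ε ^ n) (pow_ne_zero n hε0) dvd_rfl h1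

/-- bounded and integral for the Gauss norm implies integral coefficients -/
theorem gauss_PA [IsLocalHom π] (hr : RankOne π) {a0 : A} (ha0 : a0 ≠ 0) (ha0π : π a0 = 0)
    {x : ℒ K} (hx : x ∈ nn K) {y : ℒ κ} (hxy : LR π x y) {d : K} (hd : d ≠ 0)
    (h : HahnSeries.C d * x ∈ PA A) : x ∈ PA A := by
  obtain ⟨f, g, hg, h1, -⟩ := hxy
  rw [mem_PA]
  refine ⟨hx, gauss hr ha0 ha0π hg h1 hd fun n => ?_⟩
  have := (mem_PA.mp h).2 n
  rwa [HahnSeries.C_mul_eq_smul, HahnSeries.coeff_smul, smul_eq_mul] at this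

/-- roots -/
theorem root_PA {n : ℕ} (hn : (n : K) ≠ 0) {w y : ℒ K} (hw : w ∈ nn K) (hw0 : w.coeff 0 = 1)
    (hy : y ∈ PA A) (h : w ^ n = 1 + HahnSeries.C ((n : K) ^ 2) * y) : w ∈ PA A := by
  obtain ⟨s, rfl⟩ := hw
  obtain ⟨t, rfl⟩ := hy
  rw [mem_PA]
  refine ⟨⟨_, rfl⟩, fun i => ?_⟩
  rw [ofPS_coeff] at hw0 ⊢
  split_ifs
  · exact zero_mem _
  · refine root_ps hn (w := s) (y := PowerSeries.map A.subtype t) ?_ ?_ ?_ _
    · simpa using hw0
    · intro i
      rw [PowerSeries.coeff_map]; exact (PowerSeries.coeff i t).2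
    · apply HahnSeries.ofPowerSeries_injective (Γ := ℤ)
      rw [map_pow, h, map_add, map_mul, map_one, HahnSeries.ofPowerSeries_C]
      rfl

/-- a fixed point of `V` modulo integral units is integral -/
theorem fixV_PA (m : ℕ) [NeZero m] (hm : 2 ≤ m) {w z : ℒ K} (hw : w ∈ nn K) (hw0 : w.coeff 0 = 1)
    (hz : z ∈ PA A) (h : w = qExpand K m w * z) : w ∈ PA A := by
  rw [mem_PA]
  refine ⟨hw, ?_⟩
  have key : ∀ N : ℕ, ∀ n : ℤ, n < N → w.coeff n ∈ A := by
    intro N
    induction N with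
    | zero =>
      intro n hn
      rw [mem_nn.mp hw n (by simpa using hn)]; exact zero_mem _
    | succ N ih =>
      intro n hn
      rcases lt_trichotomy n 0 with hneg | h0 | hpos
      · rw [mem_nn.mp hw n hneg]; exact zero_mem _
      · rw [h0, hw0]; exact one_mem _
      rw [h, HahnSeries.coeff_mul]
      refine sum_mem fun p hp => mul_mem ?_ ((mem_PA.mp hz).2 _)
      rw [Finset.mem_addAntidiagonal] at hp
      obtain ⟨h1, h2, h3⟩ := hp
      have hp2 : 0 ≤ p.2 := by
        by_contra hneg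
        exact h2 (mem_nn.mp (PA_le_nn hz) _ (not_le.mp hneg))
      by_cases hd : (m : ℤ) ∣ p.1
      · obtain ⟨k, hk⟩ := hd
        rw [hk, qExpand_coeff_mul]
        refine ih k ?_
        have hm' : (2 : ℤ) ≤ m := by exact_mod_cast hm
        by_contra hcon
        push Not at hcon
        push_cast at hn
        have h5 : (N : ℤ) ≤ k := hcon
        have h6 : p.1 ≤ N := by omega
        have h7 : 0 ≤ k := le_trans (Int.natCast_nonneg N) h5
        have h8 : (2 : ℤ) * k ≤ m * k := mul_le_mul_of_nonneg_right hm' h7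
        have h9 : k = 0 := by omega
        have h10 : (N : ℤ) = 0 := by omega
        omega
      · rw [qExpand_coeff_of_not_dvd _ _ hd]; exact zero_mem _
  intro n
  exact key (n.toNat + 1) n (by omega)

theorem qExpand_mem_PA (m : ℕ) [NeZero m] {x : ℒ K} (hx : x ∈ PA A) : qExpand K m x ∈ PA A := by
  rw [mem_PA] at hx ⊢
  refine ⟨qExpand_mem_nn m hx.1, fun n => ?_⟩
  by_cases h : (m : ℤ) ∣ n
  · obtain ⟨k, rfl⟩ := h
    rw [qExpand_coeff_mul]; exact hx.2 k
  · rw [qExpand_coeff_of_not_dvd _ _ h]; exact zero_mem _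

section U

variable {q : ℕ} [hq : Fact q.Prime] [NeZero q] [HasPrim A q] [HasPrim K q]

theorem hW_mem_PA {x : ℒ K} (hx : x ∈ PA A) : hW q x ∈ PA A := by
  obtain ⟨f, hf, rfl⟩ := exists_of_PA hx
  rw [← coeffMap_hW q A.subtype Subtype.val_injective]
  exact PA_of_nn (hW_mem_nn hf)

theorem Uend_pow_mem_PA (m : ℕ) {x : ℒ K} (hx : x ∈ PA A) : (Uend K q ^ m) x ∈ PA A := by
  induction m with
  | zero => simpa using hx
  | succ m ih => rw [Uend_pow_succ]; exact hW_mem_PA ih

theorem iter_U {ζ : Aˣ} (hζ : IsPrimitiveRoot ζ q) {ε c : A} (h1 : ε ∣ 1 - (ζ : A))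
    (h2 : ε ∣ q) (h3 : ε ∣ c) (f : ℒ A) (m : ℕ) :
    ∃ g : ℒ A, (Uend K q ^ m) (coeffMap A.subtype (1 + HahnSeries.C c * f)) =
      coeffMap A.subtype (1 + HahnSeries.C (c * ε ^ m) * g) := by
  induction m with
  | zero => exact ⟨f, by rw [pow_zero, pow_zero, mul_one]; rfl⟩
  | succ m ih =>
    obtain ⟨g, hg⟩ := ih
    rw [Uend_pow_succ, hg, ← coeffMap_hW q A.subtype Subtype.val_injective]
    have k3 : c * ε ^ (m + 1) ∣ (c * ε ^ m) ^ q := by
      rw [pow_succ, ← mul_assoc]
      obtain ⟨k, hk⟩ : ∃ k, q = k + 2 := ⟨q - 2, by have := hq.out.two_le; omega⟩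
      rw [hk, pow_succ (c * ε ^ m) (k + 1), mul_comm ((c * ε ^ m) ^ (k + 1))]
      refine mul_dvd_mul_left _ ?_
      rw [pow_succ]
      exact Dvd.dvd.mul_left (h3.trans (Dvd.intro _ rfl)) _
    obtain ⟨g', hg'⟩ := hW_perturb hq.out hζ (c := c * ε ^ m) (c' := c * ε ^ (m + 1)) (by
      rw [pow_succ, ← mul_assoc]
      exact mul_dvd_mul_left _ h1) (by
      rw [pow_succ, ← mul_assoc, mul_comm (q : A)]
      exact mul_dvd_mul_left _ h2) k3 g 1
    exact ⟨g', by rw [hg', hW_one]⟩

/-- **Contraction**: iterates of `U` on power series congruent to one are congruent to one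
modulo any given constant -/
theorem contr_PA [IsLocalHom π] [CharP κ q] [CharZero K] (hr : GoodRed.RankOne π) {c : A}
    (hc0 : c ≠ 0) (hc : π c = 0) {f : ℒ A} {α : A} (hα : α ≠ 0) :
    ∃ (m : ℕ) (g : ℒ A), (Uend K q ^ m) (coeffMap A.subtype (1 + HahnSeries.C c * f)) =
      coeffMap A.subtype (1 + HahnSeries.C α * g) := by
  obtain ⟨ζ, hζ⟩ := (inferInstance : HasPrim A q).ex
  have hζ1 : (1 : A) - ζ ≠ 0 := by
    intro h0
    have h1 : ζ = 1 := Units.ext (by rw [Units.val_one]; exact (sub_eq_zero.mp h0).symm)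
    exact hζ.ne_one hq.out.one_lt h1
  have hζ1' : π (1 - (ζ : A)) = 0 := by
    have h1 := map_root_eq_one q π (ξ := ζ) hζ.pow_eq_one
    have h2 := congrArg Units.val h1
    rw [Units.coe_map, Units.val_one] at h2
    rw [map_sub, map_one, sub_eq_zero]
    exact h2.symm
  have hq0 : (q : A) ≠ 0 := by
    intro h0
    have : ((q : A) : K) = 0 := by rw [h0]; rfl
    have h2 : (q : K) = 0 := by simpa using this
    exact hq.out.ne_zero (by exact_mod_cast h2)
  have hqπ : π (q : A) = 0 := by rw [map_natCast]; exact CharP.cast_eq_zero κ q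
  obtain ⟨ε, hε0, hεπ, h1, h2, h3⟩ := exists_eps hζ1 hζ1' hq0 hqπ hc0 hc
  obtain ⟨m, hm⟩ := hr ε hε0 hεπ ((c : K) / α)
  obtain ⟨g, hg⟩ := iter_U (K := K) hζ h1 h2 h3 f m
  have hα' : (α : K) ≠ 0 := fun h => hα (Subtype.ext h)
  have hdiv : α ∣ c * ε ^ m := by
    refine ⟨⟨_, hm⟩, Subtype.ext ?_⟩
    show (c : K) * (ε : K) ^ m = (α : K) * ((ε : K) ^ m * ((c : K) / α))
    field_simp
  obtain ⟨b, hb⟩ := hdiv
  refine ⟨m, HahnSeries.C b * g, ?_⟩
  rw [hg, hb, map_mul, mul_assoc]

end U

end Fermat.Agent.MazR
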