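import Fermat.Agent.MazR.Dec1
import Fermat.Agent.GoodRed.Inst

/-!
# Separability of Laurent series algebraic over modular function fields
-/

set_option autoImplicit false
set_option linter.unusedSectionVars false
set_option linter.style.haveILetI false
set_option synthInstance.maxHeartbeats 400000

noncomputable section

namespace Fermat.Agent.MazR

open Polynomial AlgebraicCurve Fermat.Agent.Curves Module IntermediateField ModularCurve
open Fermat.Agent.GoodRed
open Fermat.Agent.GenusX0 (je transcendental_je)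

local notation "ℒ" => LaurentSeries

variable {κ : Type*} [Field κ] [IsAlgClosed κ] (M : ℕ)

theorem exists_sep_poly (hM : (M : κ) ≠ 0) {y : ℒ κ}
    (hy : IsIntegral (modularFunctionFieldFullC κ M) y) {S : Subfield (ℒ κ)}
    (hj : jqModC κ ∈ S) (hC : ∀ c : κ, (HahnSeries.C c : ℒ κ) ∈ S) :
    ∃ P : Polynomial S, P.Separable ∧ aeval y P = 0 := by
  haveI := isFunctionField_fullC κ M hM
  let E' := IntermediateField.adjoin (modularFunctionFieldFullC κ M) ({y} : Set (ℒ κ))
  haveI : FiniteDimensional (modularFunctionFieldFullC κ M) E' :=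
    IntermediateField.adjoin.finiteDimensional hy
  haveI : IsFunctionField κ E' := IsFunctionField.of_finite κ (modularFunctionFieldFullC κ M) E'
  let t : E' := algebraMap (modularFunctionFieldFullC κ M) E' (je κ M)
  have htval : (t : ℒ κ) = jqModC κ := rfl
  have ht : Transcendental κ t := by
    rw [transcendental_algebraMap_iff (algebraMap (modularFunctionFieldFullC κ M) E').injective]
    exact transcendental_je
  have hCe : ∀ c : κ, algebraMap E' (ℒ κ) (algebraMap κ E' c) = HahnSeries.C c := by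
    intro c
    rw [ModFun.C_eq_algebraMap]
    rfl
  have hsep : Algebra.IsSeparable κ⟮t⟯ E' :=
    isSeparable_of_derivation ht (GenusX0.thetaDer
      (algebraMap E' (ℒ κ)) (RingHom.id κ) (fun c => hCe c)) (thetaFun_ne_zero_of_coeff (by
          show (jqModC κ).coeff (-1) ≠ 0
          rw [coeff_jqModC_neg_one]
          exact one_ne_zero))
  let y' : E' := ⟨y, IntermediateField.mem_adjoin_simple_self _ y⟩
  have hy' : IsSeparable κ⟮t⟯ y' := Algebra.IsSeparable.isSeparable κ⟮t⟯ y'
  -- elements of `κ(t)` are in `S`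
  let T : IntermediateField κ E' := (S.comap (algebraMap E' (ℒ κ))).toIntermediateField
    (fun c => by
      show algebraMap E' (ℒ κ) (algebraMap κ E' c) ∈ S
      rw [hCe]; exact hC c)
  have hT : κ⟮t⟯ ≤ T := by
    rw [IntermediateField.adjoin_simple_le_iff]
    exact hj
  let g : κ⟮t⟯ →+* S := ((algebraMap E' (ℒ κ)).comp (algebraMap κ⟮t⟯ E')).codRestrict S
    (fun x => hT x.2)
  refine ⟨(minpoly κ⟮t⟯ y').map g, Polynomial.Separable.map hy', ?_⟩
  have h1 := minpoly.aeval κ⟮t⟯ y'
  have h2 := congrArg (algebraMap E' (ℒ κ)) h1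
  rw [map_zero, aeval_def, hom_eval₂] at h2
  rw [aeval_def, eval₂_map]
  exact h2

/-- separability over subfields containing `j` -/
theorem sep_main (hM : (M : κ) ≠ 0) {p : ℕ} [Fact p.Prime] [CharP κ p]
    (hfin : ∀ c : κ, ∃ m : ℕ, 0 < m ∧ c ^ p ^ m = c)
    {R : Subfield (ℒ κ)} (hj : jqModC κ ∈ R) (hR : ∀ x ∈ R, x ∈ modularFunctionFieldFullC κ M)
    {y : ℒ κ} (hy : IsIntegral R y) : (minpoly R y).Separable := by
  have hy1 : IsIntegral (modularFunctionFieldFullC κ M) y := by
    obtain ⟨P, hPm, hP⟩ := hy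
    let g : R →+* modularFunctionFieldFullC κ M :=
      (R.subtype).codRestrict (modularFunctionFieldFullC κ M) fun x => hR _ x.2
    refine ⟨P.map g, hPm.map g, ?_⟩
    rw [eval₂_map]
    exact hP
  let S := IntermediateField.adjoin R (Set.range fun c : κ => (HahnSeries.C c : ℒ κ))
  have hCsep : ∀ c : κ, IsSeparable R (HahnSeries.C c : ℒ κ) := by
    intro c
    obtain ⟨m, hm, hc⟩ := hfin c
    have hq : ((p ^ m : ℕ) : R) = 0 := by
      have : ((p : ℕ) : ℒ κ) = 0 := by
        rw [← map_natCast (HahnSeries.C : κ →+* ℒ κ), CharP.cast_eq_zero, map_zero]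
      have h2 : ((p : ℕ) : R) = 0 := Subtype.ext (by simpa using this)
      rw [Nat.cast_pow, h2, zero_pow hm.ne']
    have h1 : (X ^ (p ^ m) - X : Polynomial R).Separable := by
      refine Polynomial.separable_def _ |>.mpr ?_
      rw [derivative_sub, derivative_X_pow, derivative_X, hq, map_zero, zero_mul, zero_sub]
      exact isCoprime_one_right.neg_right
    refine h1.of_dvd (minpoly.dvd R _ ?_)
    rw [map_sub, map_pow, aeval_X, ← map_pow, hc, sub_self]
  haveI : Algebra.IsSeparable R S := by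
    rw [IntermediateField.isSeparable_adjoin_iff_isSeparable]
    rintro _ ⟨c, rfl⟩
    exact hCsep c
  obtain ⟨P, hPs, hP⟩ := exists_sep_poly M hM hy1 (S := S.toSubfield)
    (IntermediateField.algebraMap_mem S ⟨_, hj⟩)
    (fun c => IntermediateField.subset_adjoin R _ ⟨c, rfl⟩)
  have h1 : IsSeparable S y := hPs.of_dvd (minpoly.dvd S y hP)
  exact IsSeparable.of_algebra_isSeparable_of_isSeparable R h1

/-- purely inseparable descent -/
theorem pow_mem_descend (hM : (M : κ) ≠ 0) {p : ℕ} [hp : Fact p.Prime] [CharP κ p] {m : ℕ} {y : ℒ κ}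
    (hy : y ^ p ^ m ∈ modularFunctionFieldFullC κ M) : y ∈ modularFunctionFieldFullC κ M := by
  haveI : ExpChar (ℒ κ) p := by
    haveI : CharP (ℒ κ) p := charP_of_injective_ringHom
      (f := (HahnSeries.C : κ →+* ℒ κ)) HahnSeries.C_injective p
    exact ExpChar.prime hp.out
  have hq0 : p ^ m ≠ 0 := pow_ne_zero _ hp.out.ne_zero
  have hint1 : IsIntegral (modularFunctionFieldFullC κ M) y := by
    refine ⟨X ^ (p ^ m) - Polynomial.C (⟨y ^ p ^ m, hy⟩ : modularFunctionFieldFullC κ M),
      monic_X_pow_sub_C _ hq0, ?_⟩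
    rw [eval₂_sub, eval₂_X_pow, eval₂_C]
    exact sub_self _
  obtain ⟨F, hF⟩ : ∃ F : Subfield (ℒ κ), ∀ x, x ∈ F ↔ x ∈ modularFunctionFieldFullC κ M :=
    ⟨(modularFunctionFieldFullC κ M).toSubfield, fun x => Iff.rfl⟩
  rw [← hF] at hy ⊢
  have hint : IsIntegral F y := by
    refine ⟨X ^ (p ^ m) - Polynomial.C (⟨y ^ p ^ m, hy⟩ : F), monic_X_pow_sub_C _ hq0, ?_⟩
    rw [eval₂_sub, eval₂_X_pow, eval₂_C]
    exact sub_self _
  obtain ⟨P, hPs, hP⟩ := exists_sep_poly M hM (y := y) hint1 (S := F)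
    ((hF _).mpr (je κ M).2)
    (fun c => by
      rw [hF, ModFun.C_eq_algebraMap]
      exact IntermediateField.algebraMap_mem _ _)
  have hs : (minpoly F y).Separable := hPs.of_dvd (minpoly.dvd F y hP)
  have hmap : ((X : F[X]) ^ (p ^ m) - Polynomial.C (⟨y ^ p ^ m, hy⟩ : F)).map
      (algebraMap F (ℒ κ)) = (X - Polynomial.C y) ^ (p ^ m) := by
    rw [Polynomial.map_sub, Polynomial.map_pow, map_X, map_C, sub_pow_expChar_pow, ← Polynomial.C_pow]
    rfl
  refine lin hint hs (p := X ^ (p ^ m) - Polynomial.C (⟨y ^ p ^ m, hy⟩ : F))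
    (X_pow_sub_C_ne_zero (Nat.pos_of_ne_zero hq0) _) ?_ ?_ ?_
  · rw [map_sub, map_pow, aeval_X, aeval_C]
    exact sub_self _
  · rw [hmap]
    exact (Splits.X_sub_C _).pow _
  · intro z hz
    right
    rw [map_sub, map_pow, aeval_X, aeval_C, sub_eq_zero] at hz
    have h3 : z ^ p ^ m = y ^ p ^ m := hz
    rw [← iterateFrobenius_def, ← iterateFrobenius_def] at h3
    exact (iterateFrobenius (ℒ κ) p m).injective h3

end Fermat.Agent.MazR
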