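import Fermat.Agent.MazR.Dec4
import Fermat.Agent.MazR.PA3
import Fermat.Agent.MazR.Sep2
import Fermat.Agent.Maz.Defs

/-!
# Interface: the decomposition group theorem for Laurent series
-/

set_option autoImplicit false
set_option linter.unusedSectionVars false

noncomputable section

namespace Fermat.Agent.MazR

open ModularCurve AlgebraicCurve Fermat.Agent.GoodRed IsLocalRing Fermat.Agent.Maz
open scoped Pointwise

local notation "Qbar" => AlgebraicClosure ℚ
local notation "GQ" => Qbar ≃ₐ[ℚ] Qbar
local notation "ℒ" => LaurentSeries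

/-- **[DECL]**: if `w` is a power series with integral coefficients and constant term one whose
`r ^ k`-th power is a modular function then `σ w / w ^ c` is a limit of modular functions -/
def DecStatement : Prop := ∀ (r : ℕ) [Fact r.Prime] (A : ValuationSubring Qbar),
  A.LiesOverPrime r → ∀ M : ℕ, ((M : ℕ) : ResidueField A) ≠ 0 → ∀ (k : ℕ) (w : ℒ Qbar),
  w ∈ PA A → w.coeff 0 = 1 → w ^ r ^ k ∈ modularFunctionFieldFullC Qbar M →
  ∀ σ ∈ A.inertiaSubgroupIn ℚ, ∀ c : ℕ, Cyc r k σ c → ∀ α : A, α ≠ 0 →
    ∃ g ∈ modularFunctionFieldFullC Qbar M, ∃ y : ℒ (ResidueField A),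
      LR (residue A) (HahnSeries.C (α : Qbar)⁻¹ *
        (coeffMap (σ : Qbar →+* Qbar) w / w ^ c - g)) y

end Fermat.Agent.MazR
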