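import Fermat.Agent.MazR.Fin1

/-!
# Limits of modular functions with modular powers
-/

set_option autoImplicit false
set_option linter.unusedSectionVars false
set_option linter.style.haveILetI false
set_option synthInstance.maxHeartbeats 400000

noncomputable section

namespace Fermat.Agent.MazR

open Polynomial AlgebraicCurve Fermat.Agent.Curves Module IntermediateField ModularCurve
open Fermat.Agent.GoodRed Fermat.Agent.TorLift Fermat.Agent.Models Fermat.Agent.SSMod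
open Fermat.Agent.AtP Fermat.Agent.HeckeQ Fermat.Agent.ModFun IsLocalRing Fermat.Agent.Maz

local notation "ℒ" => LaurentSeries
local notation "Qbar" => AlgebraicClosure ℚ
local notation "GQ" => Qbar ≃ₐ[ℚ] Qbar

variable {N M : ℕ} [NeZero N] [NeZero M] {A : ValuationSubring Qbar} {r : ℕ}

set_option maxHeartbeats 1600000 in
theorem mem_of_approx (hr : r.Prime) (hA : A.LiesOverPrime r)
    {hπ : Function.Surjective (residue A)} {hMK : (M : Qbar) ≠ 0}
    {hMκ : (M : ResidueField A) ≠ 0}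
    [IsFunctionField Qbar (modularFunctionFieldFullC Qbar M)]
    [IsFunctionField (ResidueField A) (modularFunctionFieldFullC (ResidueField A) M)]
    {T : modularFunctionFieldFullC Qbar M}
    {𝔭 : Place (ResidueField A) (modularFunctionFieldFullC (ResidueField A) M)}
    (D : AtInf hπ hMK hMκ T 𝔭) (hS' : Surj (one (cGood (residue A) M hπ hMK hMκ)) T⁻¹)
    {a0 : A} (ha0 : a0 ≠ 0) (ha0π : residue A a0 = 0) {n : ℕ} (hn : n ≠ 0) {v : ℒ Qbar}
    (hvn : v ^ n ∈ modularFunctionFieldFullC Qbar M)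
    (hdvd : ∀ P : Place Qbar (modularFunctionFieldFullC Qbar M), (n : ℤ) ∣ P.ord ⟨v ^ n, hvn⟩)
    {vb : ℒ (ResidueField A)} (hvb : vb ≠ 0) (hv : LR (residue A) v vb) {g : ℒ Qbar}
    (hg : g ∈ modularFunctionFieldFullC Qbar M) {y : ℒ (ResidueField A)}
    (hy : LR (residue A) (HahnSeries.C ((n : Qbar) ^ 2 * a0)⁻¹ * (v - g)) y) :
    v ∈ modularFunctionFieldFullC Qbar M := by
  have hnK : (n : Qbar) ≠ 0 := Nat.cast_ne_zero.mpr hn
  have ha0K : (a0 : Qbar) ≠ 0 := fun h => ha0 (Subtype.ext h)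
  set α : Qbar := (n : Qbar) ^ 2 * a0 with hα
  have hα0 : α ≠ 0 := mul_ne_zero (pow_ne_zero 2 hnK) ha0K
  have hαA : α ∈ A := mul_mem (pow_mem (natCast_mem A n) 2) a0.2
  have hπα : residue A ⟨α, hαA⟩ = 0 := by
    have : (⟨α, hαA⟩ : A) = (n : A) ^ 2 * a0 := Subtype.ext (by
      show α = (((n : A) ^ 2 * a0 : A) : Qbar)
      rw [hα]; push_cast; rfl)
    rw [this, map_mul, ha0π, mul_zero]
  have hCα : LR (residue A) (HahnSeries.C α : ℒ Qbar) 0 := by
    have := LR.C (π := residue A) ⟨α, hαA⟩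
    rwa [hπα, map_zero] at this
  have hCα0 : (HahnSeries.C α : ℒ Qbar) ≠ 0 := by simpa using hα0
  have hCi : (HahnSeries.C α⁻¹ : ℒ Qbar) = (HahnSeries.C α)⁻¹ := map_inv₀ _ _
  set X0 : ℒ Qbar := HahnSeries.C α⁻¹ * (v - g) with hX0
  have hv_eq : v = g + HahnSeries.C α * X0 := by
    rw [hX0, hCi, ← mul_assoc, mul_inv_cancel₀ hCα0, one_mul]; ring
  -- the reduction of `g`
  have hgLR : LR (residue A) g vb := by
    have h1 := hv.add (hCα.mul hy).neg
    rw [zero_mul, neg_zero, add_zero] at h1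
    have e : v + -(HahnSeries.C α * X0) = g := by
      rw [hv_eq]; ring
    rwa [e] at h1
  have hg0 : g ≠ 0 := by
    rintro rfl
    exact hvb (hgLR.unique (LR.zero _))
  set X : ℒ Qbar := X0 * g⁻¹ with hX
  have hXLR : LR (residue A) X (y * vb⁻¹) := hy.mul (hgLR.inv hvb)
  have hvg : v * g⁻¹ = 1 + HahnSeries.C α * X := by
    rw [hX, hv_eq]
    field_simp
  obtain ⟨z, hz⟩ := LR_one_add_pow hα0 hXLR ⟨0, hCα⟩ n
  rw [← hvg] at hz
  set u : modularFunctionFieldFullC Qbar M := ⟨v ^ n, hvn⟩ * (⟨g, hg⟩⁻¹) ^ n with hu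
  have huL : (u : ℒ Qbar) = (v * g⁻¹) ^ n := by
    rw [mul_pow]; rfl
  set Z : modularFunctionFieldFullC Qbar M := algebraMap Qbar _ α⁻¹ * (u - 1) with hZ
  have hZL : (Z : ℒ Qbar) = HahnSeries.C α⁻¹ * ((v * g⁻¹) ^ n - 1) := by
    rw [← huL, ModFun.C_eq_algebraMap]; rfl
  have hzM : z ∈ modularFunctionFieldFullC (ResidueField A) M := by
    refine red_mem_N (residue A) M hπ hMK hMκ Z.2 ?_
    rw [hZL]
    exact hz
  have hZO : Z ∈ (cGood (residue A) M hπ hMK hMκ).O := by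
    refine (cGood_r_eq (residue A) M (x := Z) (y := ⟨z, hzM⟩) ?_).1
    rw [hZL]
    exact hz
  have hαF : algebraMap Qbar (modularFunctionFieldFullC Qbar M) α ≠ 0 := by simpa using hα0
  have hnear : Near (cGood (residue A) M hπ hMK hMκ) α u := by
    refine ⟨Z, hZO, ?_⟩
    rw [hZ, map_inv₀, ← mul_assoc, mul_inv_cancel₀ hαF, one_mul]; ring
  have hg0' : (⟨g, hg⟩ : modularFunctionFieldFullC Qbar M) ≠ 0 :=
    fun h => hg0 (congrArg (Subtype.val : modularFunctionFieldFullC Qbar M → ℒ Qbar) h)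
  have hv0 : v ≠ 0 := by
    rintro rfl
    exact hvb (hv.unique (LR.zero _))
  have hvn0 : (⟨v ^ n, hvn⟩ : modularFunctionFieldFullC Qbar M) ≠ 0 :=
    fun h => pow_ne_zero n hv0 (congrArg (Subtype.val : modularFunctionFieldFullC Qbar M → ℒ Qbar) h)
  obtain ⟨f, hf⟩ := rigid_F (rankOne_Qbar hr hA) D hS' hn ha0 ha0π (u := u) hnear (fun P => by
    rw [hu, P.ord_mul hvn0 (pow_ne_zero n (inv_ne_zero hg0')), Fermat.Agent.Curves.ord_pow]
    exact dvd_add (hdvd P) (dvd_mul_right _ _))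
  refine mem_of_pow_eq (Nat.pos_of_ne_zero hn) (v := v) (g := (f : ℒ Qbar) * g)
    (mul_mem f.2 hg) ?_ ?_
  · refine mul_ne_zero (fun h => ?_) hg0
    have h1 : (u : ℒ Qbar) = 0 := by
      rw [hf]
      show (f : ℒ Qbar) ^ n = 0
      rw [h, zero_pow hn]
    rw [huL] at h1
    exact pow_ne_zero n (mul_ne_zero hv0 (inv_ne_zero hg0)) h1
  · have h1 : (v * g⁻¹) ^ n = (f : ℒ Qbar) ^ n := by
      rw [← huL, hf]; rfl
    rw [mul_pow, ← h1, mul_pow, inv_pow, mul_assoc, inv_mul_cancel₀ (pow_ne_zero n hg0), mul_one]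

end Fermat.Agent.MazR
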