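import Fermat.Agent.MazR.Ord
import Fermat.Agent.MazR.Fin2

/-!
# (A12): inertia at `r` acts on the multiplicative part through the cyclotomic character
-/

set_option autoImplicit false
set_option linter.unusedSectionVars false
set_option linter.style.haveILetI false
set_option synthInstance.maxHeartbeats 400000

noncomputable section

namespace Fermat.Agent.MazR

open Polynomial AlgebraicCurve Fermat.Agent.Curves Module IntermediateField ModularCurve
open Fermat.Agent.GoodRed Fermat.Agent.TorLift Fermat.Agent.Models Fermat.Agent.SSMod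
open Fermat.Agent.AtP Fermat.Agent.HeckeQ Fermat.Agent.ModFun IsLocalRing Fermat.Agent.Maz
open scoped Pointwise

local notation "ℒ" => LaurentSeries
local notation "Qbar" => AlgebraicClosure ℚ
local notation "GQ" => Qbar ≃ₐ[ℚ] Qbar

variable {N M : ℕ} [NeZero N] [NeZero M] {A : ValuationSubring Qbar} {r : ℕ}

theorem ord_transport {E E' : IntermediateField Qbar (ℒ Qbar)} (h : E = E') {m : ℤ} {u : ℒ Qbar}
    (hu : u ∈ E) (hu' : u ∈ E') (hdiv : ∀ P : Place Qbar E, m ∣ P.ord ⟨u, hu⟩)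
    (P : Place Qbar E') : m ∣ P.ord ⟨u, hu'⟩ := by
  subst h
  exact hdiv P

theorem sigma_mem (σ : GQ) {u : ℒ Qbar} (hu : u ∈ modularFunctionFieldFullC Qbar M) :
    coeffMap (σ : Qbar →+* Qbar) u ∈ modularFunctionFieldFullC Qbar M := by
  have := mem_full (gact M σ • (⟨u, mem_bar hu⟩ : modularFunctionFieldBar M))
  exact this

theorem ord_sigma (σ : GQ) {m : ℤ} {u : ℒ Qbar} (hu : u ∈ modularFunctionFieldFullC Qbar M)
    (hdiv : ∀ P : Place Qbar (modularFunctionFieldFullC Qbar M), m ∣ P.ord ⟨u, hu⟩)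
    (P : Place Qbar (modularFunctionFieldFullC Qbar M)) :
    m ∣ P.ord ⟨coeffMap (σ : Qbar →+* Qbar) u, sigma_mem σ hu⟩ := by
  have h1 := ord_transport (Fermat.Agent.Curves.laurentBaseChange_eq Qbar M).symm hu (mem_bar hu)
    hdiv
  refine ord_transport (Fermat.Agent.Curves.laurentBaseChange_eq Qbar M)
    (SetLike.coe_mem (gact M σ • (⟨u, mem_bar hu⟩ : modularFunctionFieldBar M))) _ ?_ P
  intro P'
  have h := SemilinearAut.ord_smul (gact M σ) ((gact M σ)⁻¹ • P')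
    (⟨u, mem_bar hu⟩ : modularFunctionFieldBar M)
  rw [smul_inv_smul] at h
  have h2 := h1 ((gact M σ)⁻¹ • P')
  rw [← h] at h2
  exact h2

theorem Rep.dvd (hNM : N ∣ M) {n : ℕ} {x : JZero N} {w : ℒ Qbar} (h : Rep N M A n x w)
    [IsFunctionField Qbar (modularFunctionFieldFullC Qbar M)]
    (P : Place Qbar (modularFunctionFieldFullC Qbar M)) :
    (n : ℤ) ∣ P.ord ⟨w ^ n, h.mem hNM⟩ := by
  obtain ⟨Dv, f, g, -, hf, hD, hg, hg0, e⟩ := h.ex
  have hdvd : ∀ P : Place Qbar (modularFunctionFieldBar N), (n : ℤ) ∣ P.ord f := by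
    intro P
    rw [← divisorOf_apply, hD, Finsupp.smul_apply, nsmul_eq_mul]
    exact dvd_mul_right _ _
  have h1 := ord_level' (Fermat.Agent.Curves.laurentBaseChange_eq Qbar N) hNM f.2
    (mem_level hNM f) hdvd P
  have e1 : (⟨w ^ n, h.mem hNM⟩ : modularFunctionFieldFullC Qbar M) =
      ⟨f, mem_level hNM f⟩ * ⟨g, hg⟩ ^ n := Subtype.ext e
  have hf0 : (⟨f, mem_level hNM f⟩ : modularFunctionFieldFullC Qbar M) ≠ 0 := fun h0 =>
    hf (Subtype.ext (congrArg (Subtype.val : modularFunctionFieldFullC Qbar M → ℒ Qbar) h0))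
  have hg0' : (⟨g, hg⟩ : modularFunctionFieldFullC Qbar M) ≠ 0 := fun h0 =>
    hg0 (congrArg (Subtype.val : modularFunctionFieldFullC Qbar M → ℒ Qbar) h0)
  rw [e1, P.ord_mul hf0 (pow_ne_zero n hg0'), Fermat.Agent.Curves.ord_pow]
  exact dvd_add h1 (dvd_mul_right _ _)

theorem coeffMap_ne {σ : GQ} {u : ℒ Qbar} (hu : u ≠ 0) : coeffMap (σ : Qbar →+* Qbar) u ≠ 0 := by
  intro h
  apply hu
  have h1 : coeffMap (σ : Qbar →+* Qbar) u = coeffMap (σ : Qbar →+* Qbar) 0 := by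
    rw [h, map_zero]
  ext m
  have h2 := congrArg (fun y : ℒ Qbar => y.coeff m) h1
  simp only [coeffMap_coeff] at h2
  exact σ.injective h2

theorem LR_sigma {σ : GQ} (hσ : σ ∈ A.inertiaSubgroupIn ℚ) {w : ℒ Qbar}
    {wb : ℒ (ResidueField A)} (h : LR (residue A) w wb) :
    LR (residue A) (coeffMap (σ : Qbar →+* Qbar) w) wb := by
  obtain ⟨hdec, hact⟩ := actK_inertia hσ
  have h2 : Rd A (coeffMap (σ : Qbar →+* Qbar) w)
      (coeffMap (actK σ hdec : _ →+* ResidueField A) wb) := Rd.gal h σ hdec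
  have e1 : coeffMap (actK σ hdec : _ →+* ResidueField A) wb = wb := by
    ext n
    simp only [coeffMap_coeff]
    exact hact _
  rwa [e1] at h2

theorem LR_pow {K κ : Type*} [Field K] [Field κ] {A : ValuationSubring K} {π : A →+* κ}
    {a : ℒ K} {b : ℒ κ} (hab : LR π a b) (m : ℕ) : LR π (a ^ m) (b ^ m) := by
  induction m with
  | zero => rw [pow_zero, pow_zero]; exact LR.one _
  | succ m ih => rw [pow_succ, pow_succ]; exact ih.mul hab

theorem exists_red {w : ℒ Qbar} (hw : w ∈ PA A) (h1 : w.coeff 0 = 1) :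
    ∃ wb : ℒ (ResidueField A), wb ≠ 0 ∧ LR (residue A) w wb := by
  obtain ⟨F, hF, hFe⟩ := exists_of_PA hw
  refine ⟨coeffMap (residue A) F, ?_, by rw [← hFe]; exact LR.of F⟩
  intro h0
  have h2 : (coeffMap A.subtype F).coeff 0 = 1 := by rw [hFe, h1]
  rw [coeffMap_coeff] at h2
  have h3 : F.coeff 0 = 1 := Subtype.ext h2
  have h4 : (coeffMap (residue A) F).coeff 0 = 1 := by rw [coeffMap_coeff, h3, map_one]
  rw [h0] at h4
  exact zero_ne_one h4

set_option maxHeartbeats 1600000 in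
/-- `σ w / w ^ c` is a modular function -/
theorem v_mem (hdec : DecStatement) (hr : r.Prime) (hA : A.LiesOverPrime r)
    (hrM : ¬ r ∣ M) (hNM : N ∣ M) {hπ : Function.Surjective (residue A)} {hMK : (M : Qbar) ≠ 0}
    {hMκ : (M : ResidueField A) ≠ 0}
    [IsFunctionField Qbar (modularFunctionFieldFullC Qbar M)]
    [IsFunctionField (ResidueField A) (modularFunctionFieldFullC (ResidueField A) M)]
    {T : modularFunctionFieldFullC Qbar M}
    {𝔭 : Place (ResidueField A) (modularFunctionFieldFullC (ResidueField A) M)}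
    (D : AtInf hπ hMK hMκ T 𝔭) (hS' : Surj (one (cGood (residue A) M hπ hMK hMκ)) T⁻¹)
    {a0 : A} (ha0 : a0 ≠ 0) (ha0π : residue A a0 = 0) {k : ℕ} {x : JZero N} {w : ℒ Qbar}
    (hw : Rep N M A (r ^ k) x w) (hwPA : w ∈ PA A) {σ : GQ} (hσ : σ ∈ A.inertiaSubgroupIn ℚ)
    {c : ℕ} (hc : Cyc r k σ c) :
    coeffMap (σ : Qbar →+* Qbar) w * (w ^ c)⁻¹ ∈ modularFunctionFieldFullC Qbar M := by
  haveI : Fact r.Prime := ⟨hr⟩
  set n := r ^ k with hn
  have hn0 : n ≠ 0 := pow_ne_zero _ hr.ne_zero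
  have hnA : (n : A) ≠ 0 := by
    intro h
    have h1 := congrArg (Subtype.val : A → Qbar) h
    have h2 : ((n : A) : Qbar) = n := by push_cast; rfl
    rw [h2] at h1
    exact hn0 (by exact_mod_cast h1)
  obtain ⟨g, hg, y, hy⟩ := hdec r A hA M hMκ k w hwPA hw.one (hw.mem hNM) σ hσ c hc
    ((n : A) ^ 2 * a0) (mul_ne_zero (pow_ne_zero 2 hnA) ha0)
  have eα : (((n : A) ^ 2 * a0 : A) : Qbar) = (n : Qbar) ^ 2 * a0 := by push_cast; rfl
  rw [eα, div_eq_mul_inv] at hy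
  obtain ⟨wb, hwb, hwLR⟩ := exists_red hwPA hw.one
  have hv : LR (residue A) (coeffMap (σ : Qbar →+* Qbar) w * (w ^ c)⁻¹) (wb * (wb ^ c)⁻¹) :=
    (LR_sigma hσ hwLR).mul ((LR_pow hwLR c).inv (pow_ne_zero c hwb))
  have hvb : wb * (wb ^ c)⁻¹ ≠ 0 := mul_ne_zero hwb (inv_ne_zero (pow_ne_zero c hwb))
  have hmem := hw.mem hNM
  have e1 : (coeffMap (σ : Qbar →+* Qbar) w * (w ^ c)⁻¹) ^ n =
      coeffMap (σ : Qbar →+* Qbar) (w ^ n) * ((w ^ n) ^ c)⁻¹ := by
    rw [mul_pow, inv_pow, map_pow, ← pow_mul, ← pow_mul, mul_comm c n]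
  have hvn : (coeffMap (σ : Qbar →+* Qbar) w * (w ^ c)⁻¹) ^ n ∈
      modularFunctionFieldFullC Qbar M := by
    rw [e1]
    exact mul_mem (sigma_mem σ hmem) (inv_mem (pow_mem hmem c))
  refine mem_of_approx hr hA D hS' ha0 ha0π hn0 hvn ?_ hvb hv hg hy
  intro P
  have e2 : (⟨(coeffMap (σ : Qbar →+* Qbar) w * (w ^ c)⁻¹) ^ n, hvn⟩ :
      modularFunctionFieldFullC Qbar M) = ⟨coeffMap (σ : Qbar →+* Qbar) (w ^ n), sigma_mem σ hmem⟩ *
        (⟨w ^ n, hmem⟩⁻¹) ^ c := Subtype.ext (e1.trans (by rw [← inv_pow]; rfl))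
  have hw0 : (⟨w ^ n, hmem⟩ : modularFunctionFieldFullC Qbar M) ≠ 0 := fun h0 =>
    pow_ne_zero n hw.ne (congrArg (Subtype.val : modularFunctionFieldFullC Qbar M → ℒ Qbar) h0)
  have hσ0 : (⟨coeffMap (σ : Qbar →+* Qbar) (w ^ n), sigma_mem σ hmem⟩ :
      modularFunctionFieldFullC Qbar M) ≠ 0 := fun h0 =>
    coeffMap_ne (pow_ne_zero n hw.ne)
      (congrArg (Subtype.val : modularFunctionFieldFullC Qbar M → ℒ Qbar) h0)
  rw [e2, P.ord_mul hσ0 (pow_ne_zero c (inv_ne_zero hw0)), Fermat.Agent.Curves.ord_pow, P.ord_inv]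
  refine dvd_add (ord_sigma σ hmem (hw.dvd hNM) P) (Dvd.dvd.mul_left ?_ _)
  rw [dvd_neg]
  exact hw.dvd hNM P

/-- from the modularity of `σ w / w ^ c` to the Galois action -/
theorem sigma_eq {n : ℕ} (hn : n ≠ 0)
    (hdesc : ∀ z ∈ modularFunctionFieldFullC Qbar M, z ^ n ∈ modularFunctionFieldFullC Qbar N →
      z ∈ modularFunctionFieldFullC Qbar N) {x : JZero N} {w : ℒ Qbar}
    (hw : Rep N M A n x w) {σ : GQ} {c : ℕ}
    (hv : coeffMap (σ : Qbar →+* Qbar) w * (w ^ c)⁻¹ ∈ modularFunctionFieldFullC Qbar M) :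
    σ • x = c • x := by
  obtain ⟨Dv, f, g, hx, hf, hD, hg, hg0, e⟩ := hw.ex
  have hf0 : (f : ℒ Qbar) ≠ 0 := fun h => hf (Subtype.ext h)
  have hσg : coeffMap (σ : Qbar →+* Qbar) g ≠ 0 := coeffMap_ne hg0
  have hσf : coeffMap (σ : Qbar →+* Qbar) (f : ℒ Qbar) ≠ 0 := coeffMap_ne hf0
  set z : ℒ Qbar := coeffMap (σ : Qbar →+* Qbar) w * (w ^ c)⁻¹ *
    (coeffMap (σ : Qbar →+* Qbar) g * (g ^ c)⁻¹)⁻¹ with hz
  have hzM : z ∈ modularFunctionFieldFullC Qbar M :=
    mul_mem hv (inv_mem (mul_mem (sigma_mem σ hg) (inv_mem (pow_mem hg c))))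
  have hzn : z ^ n = coeffMap (σ : Qbar →+* Qbar) (f : ℒ Qbar) * ((f : ℒ Qbar) ^ c)⁻¹ := by
    have e1 : coeffMap (σ : Qbar →+* Qbar) w ^ n = coeffMap (σ : Qbar →+* Qbar) (f : ℒ Qbar) *
        coeffMap (σ : Qbar →+* Qbar) g ^ n := by
      rw [← map_pow, e, map_mul, map_pow]
    have e2 : (w ^ c) ^ n = (f : ℒ Qbar) ^ c * (g ^ c) ^ n := by
      rw [← pow_mul, mul_comm c n, pow_mul, e, mul_pow, ← pow_mul, ← pow_mul, mul_comm n c]
    rw [hz, mul_pow, mul_pow, e1, inv_pow, e2, inv_pow, mul_pow, inv_pow]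
    have h1 := pow_ne_zero n hσg
    have h2 := pow_ne_zero n (pow_ne_zero c hg0)
    have h3 := pow_ne_zero c hf0
    field_simp
  have hznN : z ^ n ∈ modularFunctionFieldFullC Qbar N := by
    rw [hzn]
    exact mul_mem (sigma_mem σ (mem_full f)) (inv_mem (pow_mem (mem_full f) c))
  have hzN := mem_bar (hdesc z hzM hznN)
  set Z : modularFunctionFieldBar N := ⟨z, hzN⟩ with hZ
  have hz0 : z ≠ 0 := by
    intro h
    rw [h, zero_pow hn] at hzn
    exact mul_ne_zero hσf (inv_ne_zero (pow_ne_zero c hf0)) hzn.symm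
  have hZ0 : Z ≠ 0 := fun h =>
    hz0 (congrArg (Subtype.val : modularFunctionFieldBar N → ℒ Qbar) h)
  have hfe : gact N σ • f = Z ^ n * f ^ c := by
    apply Subtype.ext
    show coeffMap (σ : Qbar →+* Qbar) (f : ℒ Qbar) = z ^ n * (f : ℒ Qbar) ^ c
    rw [hzn, mul_assoc, inv_mul_cancel₀ (pow_ne_zero c hf0), mul_one]
  have hdiv : divisorOf (k := Qbar) Z =
      (gact N σ • (Dv : Divisor Qbar (modularFunctionFieldBar N))) -
        c • (Dv : Divisor Qbar (modularFunctionFieldBar N)) := by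
    have h1 : gact N σ • (n • (Dv : Divisor Qbar (modularFunctionFieldBar N))) =
        n • divisorOf (k := Qbar) Z + c • (n • (Dv : Divisor Qbar (modularFunctionFieldBar N))) := by
      rw [← hD, smul_divisorOf, hfe, GoodRed.divisorOf_mul (pow_ne_zero n hZ0) (pow_ne_zero c hf),
        GoodRed.divisorOf_pow, GoodRed.divisorOf_pow]
    ext P
    have h2 := DFunLike.congr_fun h1 P
    have h3 : (gact N σ • (n • (Dv : Divisor Qbar (modularFunctionFieldBar N)))) P =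
        n * (gact N σ • (Dv : Divisor Qbar (modularFunctionFieldBar N))) P := by
      rw [SemilinearAut.divisor_smul_apply, SemilinearAut.divisor_smul_apply, Finsupp.smul_apply,
        nsmul_eq_mul]
    rw [h3, Finsupp.add_apply, Finsupp.smul_apply, Finsupp.smul_apply, Finsupp.smul_apply,
      nsmul_eq_mul, nsmul_eq_mul, nsmul_eq_mul] at h2
    rw [Finsupp.sub_apply, Finsupp.smul_apply, nsmul_eq_mul]
    have hn' : (n : ℤ) ≠ 0 := by exact_mod_cast hn
    apply mul_left_cancel₀ hn'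
    linarith
  rw [← hx, S37.gal_mk]
  have hc : c • (Pic0.mk Dv : JZero N) = Pic0.mk (c • Dv) := rfl
  rw [hc, mk_eq_iff]
  exact ⟨Z, hZ0, hdiv⟩

set_option maxHeartbeats 1600000 in
/-- **(A12)** -/
theorem a12_of (hdec : DecStatement) : Maz.A12 := by
  intro N _ _ r hr A K hK k E hE hEK hET hET0 σ hσ c hc x hx
  haveI : Fact r.Prime := ⟨hr⟩
  haveI : NeZero r := ⟨hr.ne_zero⟩
  obtain ⟨_, hA, hrN, -⟩ := id hK
  haveI := FrobDens.charP_residueField A hr hA
  obtain ⟨M, hM0, hNM, hrM, hInf, hdesc⟩ := exists_level hr hA hrN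
  have hMK : (M : Qbar) ≠ 0 := by exact_mod_cast hM0.ne
  have hMκ : (M : ResidueField A) ≠ 0 := residue_ne_zero hr hA hrM
  haveI := isFunctionField_fullC Qbar M hMK
  haveI := isFunctionField_fullC (ResidueField A) M hMκ
  obtain ⟨T, 𝔭, D, hS'⟩ := exists_atInf' (hπ := residue_surjective) (hNK := hMK) (hNκ := hMκ) hInf
  have ha0 : ((r : A)) ≠ 0 := by
    intro h
    have h1 := congrArg (Subtype.val : A → Qbar) h
    have h2 : ((r : A) : Qbar) = r := by push_cast; rfl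
    rw [h2] at h1
    exact hr.ne_zero (by exact_mod_cast h1)
  have ha0π : residue A ((r : A)) = 0 := by
    rw [map_natCast]
    exact CharP.cast_eq_zero _ r
  have hn0 : r ^ k ≠ 0 := pow_ne_zero _ hr.ne_zero
  obtain ⟨w, hw⟩ := Rep.exists (A := A) hr hA hNM D ha0 ha0π (Nat.pos_of_ne_zero hn0) (hE x hx)
  have hwPA : w ∈ PA A := rep_PA hr hA hrN hrM hNM D ha0 ha0π hK hE hEK hET hET0 hx hw
  have hv := v_mem hdec hr hA hrM hNM D hS' ha0 ha0π hw hwPA hσ hc
  exact sigma_eq hn0 (fun z hz hzn => hdesc _ (Nat.pos_of_ne_zero hn0) z hz hzn) hw hv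

end Fermat.Agent.MazR
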