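import Fermat.Agent.MazR.A12
import Fermat.Agent.MazHD.DL4

/-!
# (A12), unconditional
-/

set_option autoImplicit false

namespace Fermat.Agent.MazR

theorem a12 : Maz.A12 := a12_of MazHD.decStatement

end Fermat.Agent.MazR
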