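import Mathlib

/-!
# The ordinary part: abstract argument
-/

set_option autoImplicit false

namespace Fermat.Agent.MazR

theorem ord_part {E H : Type*} [AddCommGroup E] [Finite E] [AddCommGroup H] (T : E →+ E)
    (hT : Function.Injective T) {r k : ℕ} (hE : ∀ x : E, r ^ k • x = 0) (ψ : E →+ H)
    (U V : H →+ H) (hUV : ∀ h, U (V h) = r • h) (hψT : ∀ x, ψ (T x) = U (ψ x) + V (ψ x))
    (hU : ∀ x, ∃ J : ℕ, (U : H → H)^[J] (ψ x) = 0)
    (hV : ∀ (x : E) (m : ℕ), 0 < m → (V : H → H)^[m] (ψ x) = ψ x → ψ x = 0) (x : E) : ψ x = 0 := by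
  classical
  -- `T` has finite order
  obtain ⟨m, hm, hTm⟩ : ∃ m : ℕ, 0 < m ∧ ∀ x, (T : E → E)^[m] x = x := by
    have hbij : Function.Bijective T := ⟨hT, Finite.injective_iff_surjective.mp hT⟩
    let e : Equiv.Perm E := Equiv.ofBijective T hbij
    obtain ⟨m, hm, h⟩ := isOfFinOrder_iff_pow_eq_one.mp (isOfFinOrder_of_finite e)
    refine ⟨m, hm, fun x => ?_⟩
    have h1 := DFunLike.congr_fun h x
    rw [Equiv.Perm.coe_one, id] at h1
    rw [← Equiv.Perm.iterate_eq_pow] at h1
    exact h1
  have hTmj : ∀ j : ℕ, ∀ x, (T : E → E)^[m * j] x = x := by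
    intro j x
    rw [Function.iterate_mul]
    have : (T : E → E)^[m] = id := funext hTm
    rw [this, Function.iterate_id]; rfl
  have main : ∀ i : ℕ, ∀ x : E, r ^ i • x = 0 → ψ x = 0 := by
    intro i
    induction i with
    | zero => intro x hx; rw [pow_zero, one_smul] at hx; rw [hx, map_zero]
    | succ i ih =>
      -- `r ψ = 0`
      have hrψ : ∀ x : E, r ^ (i + 1) • x = 0 → r • ψ x = 0 := by
        intro x hx
        rw [← map_nsmul]
        exact ih _ (by rwa [← mul_smul, ← pow_succ])
      have hTx : ∀ x : E, r ^ (i + 1) • x = 0 → r ^ (i + 1) • T x = 0 := by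
        intro x hx
        rw [← map_nsmul, hx, map_zero]
      have hU2 : ∀ x : E, r ^ (i + 1) • x = 0 → U (U (ψ x)) = U (ψ (T x)) := by
        intro x hx
        have h1 := congrArg U (hψT x)
        rw [map_add, hUV, hrψ x hx, add_zero] at h1
        exact h1.symm
      have hUj : ∀ j : ℕ, ∀ x : E, r ^ (i + 1) • x = 0 →
          (U : H → H)^[j + 1] (ψ x) = U (ψ ((T : E → E)^[j] x)) := by
        intro j
        induction j with
        | zero => intro x _; rfl
        | succ j ihj =>
          intro x hx
          have hx' : r ^ (i + 1) • (T : E → E)^[j] x = 0 := by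
            clear ihj
            induction j with
            | zero => exact hx
            | succ j ihj' => rw [Function.iterate_succ_apply']; exact hTx _ ihj'
          rw [Function.iterate_succ_apply', ihj x hx, hU2 _ hx', Function.iterate_succ_apply']
      have hU0 : ∀ x : E, r ^ (i + 1) • x = 0 → U (ψ x) = 0 := by
        intro x hx
        obtain ⟨J, hJ⟩ := hU x
        have h1 := hUj (m * J) x hx
        rw [hTmj] at h1
        rw [← h1]
        have h2 : m * J + 1 = (m * J + 1 - J) + J := by
          have : J ≤ m * J := Nat.le_mul_of_pos_left J hm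
          omega
        rw [h2, Function.iterate_add_apply, hJ]
        have h3 : ∀ n : ℕ, (U : H → H)^[n] 0 = 0 := by
          intro n
          induction n with
          | zero => rfl
          | succ n ihn => rw [Function.iterate_succ_apply', ihn, map_zero]
        exact h3 _
      have hV1 : ∀ x : E, r ^ (i + 1) • x = 0 → V (ψ x) = ψ (T x) := by
        intro x hx
        rw [hψT, hU0 x hx, zero_add]
      intro x hx
      refine hV x m hm ?_
      have h1 : ∀ j : ℕ, (V : H → H)^[j] (ψ x) = ψ ((T : E → E)^[j] x) ∧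
          r ^ (i + 1) • (T : E → E)^[j] x = 0 := by
        intro j
        induction j with
        | zero => exact ⟨rfl, hx⟩
        | succ j ihj =>
          rw [Function.iterate_succ_apply', Function.iterate_succ_apply', ihj.1]
          exact ⟨hV1 _ ihj.2, hTx _ ihj.2⟩
      rw [(h1 m).1, hTm]
  exact main k x (hE x)

end Fermat.Agent.MazR
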