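import Mathlib

/-!
# Discretely valued fields with a residue map
-/

set_option autoImplicit false
set_option linter.unusedSectionVars false

noncomputable section

namespace Fermat.Agent.MazR

open Polynomial

/-- A discretely valued field with a (not necessarily surjective) residue map. -/
structure DRes (Ω Λ : Type*) [Field Ω] [Field Λ] where
  O : ValuationSubring Ω
  res : O →+* Λ
  res_ne_zero_iff : ∀ x : O, res x ≠ 0 ↔ (x : Ω) ≠ 0 ∧ (x : Ω)⁻¹ ∈ O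
  ϖ : Ω
  ϖ_ne : ϖ ≠ 0
  ϖ_mem : ϖ ∈ O
  ϖ_res : res ⟨ϖ, ϖ_mem⟩ = 0
  scale' : ∀ x : Ω, x ≠ 0 → ∃ (m : ℤ) (h : ϖ ^ m * x ∈ O), res ⟨_, h⟩ ≠ 0

namespace DRes

variable {Ω Λ : Type*} [Field Ω] [Field Λ] (C : DRes Ω Λ)

open Classical in
/-- The residue map as a total function. -/
def r (x : Ω) : Λ := if h : x ∈ C.O then C.res ⟨x, h⟩ else 0

variable {C}

theorem r_of_mem {x : Ω} (h : x ∈ C.O) : C.r x = C.res ⟨x, h⟩ := dif_pos h

theorem mem_of_r_ne_zero {x : Ω} (h : C.r x ≠ 0) : x ∈ C.O := by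
  by_contra h'
  exact h (dif_neg h')

@[simp]
theorem r_zero : C.r 0 = 0 := by
  rw [r_of_mem (zero_mem _)]; exact map_zero C.res

@[simp]
theorem r_one : C.r 1 = 1 := by
  rw [r_of_mem (one_mem _)]; exact map_one C.res

theorem r_add {x y : Ω} (hx : x ∈ C.O) (hy : y ∈ C.O) : C.r (x + y) = C.r x + C.r y := by
  rw [r_of_mem hx, r_of_mem hy, r_of_mem (add_mem hx hy), ← map_add]; rfl

theorem r_mul {x y : Ω} (hx : x ∈ C.O) (hy : y ∈ C.O) : C.r (x * y) = C.r x * C.r y := by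
  rw [r_of_mem hx, r_of_mem hy, r_of_mem (mul_mem hx hy), ← map_mul]; rfl

theorem r_neg {x : Ω} (hx : x ∈ C.O) : C.r (-x) = -C.r x := by
  rw [r_of_mem hx, r_of_mem (neg_mem hx), ← map_neg]; rfl

theorem r_sub {x y : Ω} (hx : x ∈ C.O) (hy : y ∈ C.O) : C.r (x - y) = C.r x - C.r y := by
  rw [r_of_mem hx, r_of_mem hy, r_of_mem (sub_mem hx hy), ← map_sub]; rfl

theorem r_pow {x : Ω} (hx : x ∈ C.O) (n : ℕ) : C.r (x ^ n) = C.r x ^ n := by
  rw [r_of_mem hx, r_of_mem (pow_mem hx n), ← map_pow]; rfl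

theorem ne_zero_of_r {x : Ω} (h : C.r x ≠ 0) : x ≠ 0 := by
  rintro rfl; exact h r_zero

theorem r_ne_zero_iff {x : Ω} (hx : x ≠ 0) : C.r x ≠ 0 ↔ x ∈ C.O ∧ x⁻¹ ∈ C.O := by
  constructor
  · intro h
    have h1 := mem_of_r_ne_zero h
    rw [r_of_mem h1, C.res_ne_zero_iff] at h
    exact ⟨h1, h.2⟩
  · rintro ⟨h1, h2⟩
    rw [r_of_mem h1, C.res_ne_zero_iff]
    exact ⟨hx, h2⟩

theorem inv_mem_of_r {x : Ω} (h : C.r x ≠ 0) : x⁻¹ ∈ C.O :=
  ((r_ne_zero_iff (ne_zero_of_r h)).mp h).2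

theorem r_inv {x : Ω} (h : C.r x ≠ 0) : C.r x⁻¹ = (C.r x)⁻¹ := by
  have h1 := mem_of_r_ne_zero h
  have h2 := inv_mem_of_r h
  refine eq_inv_of_mul_eq_one_left ?_
  rw [← r_mul h2 h1, inv_mul_cancel₀ (ne_zero_of_r h), r_one]

theorem r_mul_ne_zero {x y : Ω} (hx : C.r x ≠ 0) (hy : C.r y ≠ 0) : C.r (x * y) ≠ 0 := by
  rw [r_mul (mem_of_r_ne_zero hx) (mem_of_r_ne_zero hy)]; exact mul_ne_zero hx hy

theorem r_pow_ne_zero {x : Ω} (hx : C.r x ≠ 0) (n : ℕ) : C.r (x ^ n) ≠ 0 := by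
  rw [r_pow (mem_of_r_ne_zero hx)]; exact pow_ne_zero _ hx

theorem r_div {x y : Ω} (hx : x ∈ C.O) (hy : C.r y ≠ 0) : C.r (x / y) = C.r x / C.r y := by
  rw [div_eq_mul_inv, r_mul hx (inv_mem_of_r hy), r_inv hy, div_eq_mul_inv]

variable (C) in
theorem r_ϖ : C.r C.ϖ = 0 := by rw [r_of_mem C.ϖ_mem, C.ϖ_res]

variable (C) in
theorem scale {x : Ω} (hx : x ≠ 0) : ∃ m : ℤ, C.r (C.ϖ ^ m * x) ≠ 0 := by
  obtain ⟨m, h, h'⟩ := C.scale' x hx
  exact ⟨m, by rwa [r_of_mem h]⟩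

/-- an element of the valuation ring with zero residue is divisible by `ϖ` -/
theorem r_pow_ϖ {m : ℕ} (hm : m ≠ 0) : C.r (C.ϖ ^ m) = 0 := by
  rw [r_pow C.ϖ_mem, C.r_ϖ, zero_pow hm]

theorem ϖ_zpow_mem {m : ℤ} (hm : 0 ≤ m) : C.ϖ ^ m ∈ C.O := by
  lift m to ℕ using hm
  rw [zpow_natCast]; exact pow_mem C.ϖ_mem m

theorem r_ϖ_zpow {m : ℤ} (hm : 0 < m) : C.r (C.ϖ ^ m) = 0 := by
  lift m to ℕ using hm.le
  rw [zpow_natCast]; exact r_pow_ϖ (by omega)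

/-- the normalised valuation -/
def v (C : DRes Ω Λ) (x : Ω) : ℤ := by
  classical
  exact if hx : x ≠ 0 then -(C.scale hx).choose else 0

theorem v_spec {x : Ω} (hx : x ≠ 0) : C.r (C.ϖ ^ (-(C.v x)) * x) ≠ 0 := by
  have h : C.v x = -(C.scale hx).choose := dif_pos hx
  rw [h, neg_neg]
  exact (C.scale hx).choose_spec

theorem eq_of_units {u u' : Ω} {m : ℤ} (hu : C.r u ≠ 0) (hu' : C.r u' ≠ 0)
    (h : C.ϖ ^ m * u = u') : m = 0 := by
  rcases lt_trichotomy m 0 with hm | hm | hm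
  · exfalso
    have h1 : u = C.ϖ ^ (-m) * u' := by
      rw [← h, ← mul_assoc, ← zpow_add₀ C.ϖ_ne, neg_add_cancel, zpow_zero, one_mul]
    apply hu
    rw [h1, r_mul (ϖ_zpow_mem (by omega)) (mem_of_r_ne_zero hu'), r_ϖ_zpow (by omega), zero_mul]
  · exact hm
  · exfalso
    apply hu'
    rw [← h, r_mul (ϖ_zpow_mem hm.le) (mem_of_r_ne_zero hu), r_ϖ_zpow hm, zero_mul]

theorem v_eq {x u : Ω} {m : ℤ} (hu : C.r u ≠ 0) (h : x = C.ϖ ^ m * u) : C.v x = m := by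
  have hx : x ≠ 0 := by rw [h]; exact mul_ne_zero (zpow_ne_zero _ C.ϖ_ne) (ne_zero_of_r hu)
  have h1 := v_spec (C := C) hx
  have h2 : C.ϖ ^ (m - C.v x) * u = C.ϖ ^ (-(C.v x)) * x := by
    rw [sub_eq_add_neg, add_comm, zpow_add₀ C.ϖ_ne, mul_assoc, ← h]
  have := eq_of_units hu h1 h2
  omega

theorem exists_unit {x : Ω} (hx : x ≠ 0) : ∃ u, C.r u ≠ 0 ∧ x = C.ϖ ^ (C.v x) * u :=
  ⟨C.ϖ ^ (-(C.v x)) * x, v_spec hx, by
    rw [← mul_assoc, ← zpow_add₀ C.ϖ_ne, add_neg_cancel, zpow_zero, one_mul]⟩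

theorem v_mul {x y : Ω} (hx : x ≠ 0) (hy : y ≠ 0) : C.v (x * y) = C.v x + C.v y := by
  obtain ⟨u, hu, h1⟩ := exists_unit (C := C) hx
  obtain ⟨u', hu', h2⟩ := exists_unit (C := C) hy
  refine v_eq (r_mul_ne_zero hu hu') ?_
  rw [zpow_add₀ C.ϖ_ne]
  nth_rewrite 1 [h1]
  nth_rewrite 1 [h2]
  ring

theorem mem_iff {x : Ω} (hx : x ≠ 0) : x ∈ C.O ↔ 0 ≤ C.v x := by
  obtain ⟨u, hu, h1⟩ := exists_unit (C := C) hx
  constructor
  · intro h
    by_contra hv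
    push Not at hv
    have h2 : C.ϖ ^ (-(C.v x)) * x = u := by
      nth_rewrite 2 [h1]
      rw [← mul_assoc, ← zpow_add₀ C.ϖ_ne, neg_add_cancel, zpow_zero, one_mul]
    apply hu
    rw [← h2, r_mul (ϖ_zpow_mem (by omega)) h, r_ϖ_zpow (by omega), zero_mul]
  · intro h
    rw [h1]
    exact mul_mem (ϖ_zpow_mem h) (mem_of_r_ne_zero hu)

theorem r_ne_iff {x : Ω} (hx : x ≠ 0) : C.r x ≠ 0 ↔ C.v x = 0 := by
  constructor
  · intro h
    exact v_eq (m := 0) h (by rw [zpow_zero, one_mul])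
  · intro h
    have := v_spec (C := C) hx
    rwa [h, neg_zero, zpow_zero, one_mul] at this

theorem v_ϖ : C.v C.ϖ = 1 := v_eq (C := C) (u := 1) (by rw [r_one]; exact one_ne_zero)
  (by rw [zpow_one, mul_one])

theorem v_pow {x : Ω} (hx : x ≠ 0) (n : ℕ) : C.v (x ^ n) = n * C.v x := by
  induction n with
  | zero =>
    rw [pow_zero, Nat.cast_zero, zero_mul]
    exact v_eq (C := C) (u := 1) (m := 0) (by rw [r_one]; exact one_ne_zero) (by simp)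
  | succ n ih => rw [pow_succ, v_mul (pow_ne_zero n hx) hx, ih]; push_cast; ring

theorem v_inv {x : Ω} (hx : x ≠ 0) : C.v x⁻¹ = -C.v x := by
  have h := v_mul (C := C) hx (inv_ne_zero hx)
  rw [mul_inv_cancel₀ hx] at h
  have h1 : C.v (1 : Ω) = 0 := by
    have := v_pow (C := C) hx 0
    rwa [pow_zero, Nat.cast_zero, zero_mul] at this
  omega

/-- an integral element with zero residue is `ϖ` times an integral element -/
theorem div_ϖ {x : Ω} (hx : x ∈ C.O) (h : C.r x = 0) : x / C.ϖ ∈ C.O := by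
  rcases eq_or_ne x 0 with rfl | hx0
  · rw [zero_div]; exact zero_mem _
  have h1 := (mem_iff hx0).mp hx
  have h2 : C.v x ≠ 0 := fun h3 => (r_ne_iff hx0).mpr h3 h
  rw [div_eq_mul_inv]
  have h3 := v_mul (C := C) hx0 (inv_ne_zero C.ϖ_ne)
  rw [v_inv C.ϖ_ne, v_ϖ] at h3
  rw [mem_iff (mul_ne_zero hx0 (inv_ne_zero C.ϖ_ne)), h3]
  omega

theorem r_eq_iff {x y : Ω} (hx : x ∈ C.O) (hy : y ∈ C.O) : C.r x = C.r y ↔ (x - y) / C.ϖ ∈ C.O := by
  constructor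
  · intro h
    exact div_ϖ (sub_mem hx hy) (by rw [r_sub hx hy, h, sub_self])
  · intro h
    have h1 : x - y = C.ϖ * ((x - y) / C.ϖ) := by rw [mul_div_cancel₀ _ C.ϖ_ne]
    have h2 := r_mul (C := C) C.ϖ_mem h
    rw [← h1, C.r_ϖ, zero_mul, r_sub hx hy] at h2
    exact sub_eq_zero.mp h2

end DRes

end Fermat.Agent.MazR
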