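import Fermat.Agent.MazR.DRes

/-!
# Residue fields and separability
-/

set_option autoImplicit false
set_option linter.unusedSectionVars false

noncomputable section

namespace Fermat.Agent.MazR

open Polynomial DRes

variable {Ω Λ : Type*} [Field Ω] [Field Λ]

/-- the residue field of a subfield -/
def resF (C : DRes Ω Λ) (S : Subfield Ω) : Subfield Λ where
  carrier := {y | ∃ x ∈ S, x ∈ C.O ∧ C.r x = y}
  mul_mem' := by
    rintro _ _ ⟨x, hx, hO, rfl⟩ ⟨y, hy, hO', rfl⟩
    exact ⟨x * y, mul_mem hx hy, mul_mem hO hO', r_mul hO hO'⟩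
  one_mem' := ⟨1, one_mem _, one_mem _, r_one⟩
  add_mem' := by
    rintro _ _ ⟨x, hx, hO, rfl⟩ ⟨y, hy, hO', rfl⟩
    exact ⟨x + y, add_mem hx hy, add_mem hO hO', r_add hO hO'⟩
  zero_mem' := ⟨0, zero_mem _, zero_mem _, r_zero⟩
  neg_mem' := by
    rintro _ ⟨x, hx, hO, rfl⟩
    exact ⟨-x, neg_mem hx, neg_mem hO, r_neg hO⟩
  inv_mem' := by
    rintro _ ⟨x, hx, hO, rfl⟩
    by_cases h : C.r x = 0
    · rw [h, inv_zero]
      exact ⟨0, zero_mem _, zero_mem _, r_zero⟩
    · exact ⟨x⁻¹, inv_mem hx, inv_mem_of_r h, r_inv h⟩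

theorem mem_resF {C : DRes Ω Λ} {S : Subfield Ω} {y : Λ} :
    y ∈ resF C S ↔ ∃ x ∈ S, x ∈ C.O ∧ C.r x = y := Iff.rfl

theorem resF_mono {C : DRes Ω Λ} {S S' : Subfield Ω} (h : S ≤ S') : resF C S ≤ resF C S' := by
  rintro _ ⟨x, hx, hO, rfl⟩
  exact ⟨x, h hx, hO, rfl⟩

/-- elements whose minimal polynomial is separable with a single nonzero root are rational -/
theorem lin {K : Subfield Λ} {y : Λ} (hi : IsIntegral K y) (hs : (minpoly K y).Separable)
    {p : K[X]} (hp0 : p ≠ 0) (hpy : aeval y p = 0) (hsp : (p.map (algebraMap K Λ)).Splits)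
    (hr : ∀ z : Λ, aeval z p = 0 → z = 0 ∨ z = y) : y ∈ K := by
  rcases eq_or_ne y 0 with rfl | hy
  · exact zero_mem _
  have hd : minpoly K y ∣ p := minpoly.dvd K y hpy
  have hd' : (minpoly K y).map (algebraMap K Λ) ∣ p.map (algebraMap K Λ) := Polynomial.map_dvd _ hd
  have hp0' : p.map (algebraMap K Λ) ≠ 0 := (Polynomial.map_ne_zero_iff (algebraMap K Λ).injective).mpr hp0
  have hsp' : ((minpoly K y).map (algebraMap K Λ)).Splits := hsp.of_dvd hp0' hd'
  have hm0 : (minpoly K y).map (algebraMap K Λ) ≠ 0 :=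
    (Polynomial.map_ne_zero_iff (algebraMap K Λ).injective).mpr (minpoly.ne_zero hi)
  -- all roots are `y`
  have h1 : ∀ z ∈ ((minpoly K y).map (algebraMap K Λ)).roots, z = y := by
    intro z hz
    rw [Polynomial.mem_roots hm0, IsRoot.def, eval_map_algebraMap] at hz
    have h2 : aeval z p = 0 := by
      obtain ⟨q, hq⟩ := hd
      rw [hq, map_mul, hz, zero_mul]
    rcases hr z h2 with h3 | h3
    · exfalso
      rw [h3] at hz
      have h4 : (minpoly K y).coeff 0 = 0 := by
        have h5 : aeval (0 : Λ) (minpoly K y) = algebraMap K Λ ((minpoly K y).coeff 0) := by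
          rw [← Polynomial.coeff_zero_eq_aeval_zero']
        rw [h5] at hz
        exact (map_eq_zero _).mp hz
      exact hy ((minpoly.coeff_zero_eq_zero hi).mp h4)
    · exact h3
  have hnd : ((minpoly K y).map (algebraMap K Λ)).roots.Nodup :=
    Polynomial.nodup_roots (hs.map)
  have hcard : Multiset.card ((minpoly K y).map (algebraMap K Λ)).roots ≤ 1 := by
    classical
    have h2 : ((minpoly K y).map (algebraMap K Λ)).roots ≤ {y} := by
      rw [Multiset.le_iff_subset hnd]
      intro z hz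
      rw [Multiset.mem_singleton]
      exact h1 z hz
    have := Multiset.card_le_card h2
    simpa using this
  have hdeg : (minpoly K y).natDegree ≤ 1 := by
    rw [← natDegree_map (algebraMap K Λ), hsp'.natDegree_eq_card_roots]
    exact hcard
  have hpos : 0 < (minpoly K y).natDegree := minpoly.natDegree_pos hi
  have hone : (minpoly K y).degree = 1 := by
    rw [degree_eq_natDegree (minpoly.ne_zero hi), le_antisymm hdeg hpos]
    rfl
  obtain ⟨c, hc⟩ := minpoly.mem_range_of_degree_eq_one K y hone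
  rw [← hc]
  exact c.2

variable {F : Type*} [Field F] [Algebra F Ω] (C : DRes Ω Λ)

/-- the base subfield -/
def base (F Ω : Type*) [Field F] [Field Ω] [Algebra F Ω] : Subfield Ω := (algebraMap F Ω).fieldRange

theorem mem_base {x : Ω} : x ∈ base F Ω ↔ ∃ a : F, algebraMap F Ω a = x := RingHom.mem_fieldRange

/-- residues of algebraic elements are algebraic -/
theorem isIntegral_res {ϖF : F} (hϖ : algebraMap F Ω ϖF = C.ϖ) {u : Ω} (hu : u ∈ C.O)
    (ha : IsAlgebraic F u) : IsIntegral (resF C (base F Ω)) (C.r u) := by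
  obtain ⟨p, hp0, hp⟩ := ha
  have hϖF : ϖF ≠ 0 := by
    rintro rfl
    rw [map_zero] at hϖ
    exact C.ϖ_ne hϖ.symm
  have hsup : p.support.Nonempty := Polynomial.support_nonempty.mpr hp0
  obtain ⟨i0, hi0, hmin⟩ := p.support.exists_min_image (fun i => C.v (algebraMap F Ω (p.coeff i)))
    hsup
  set m := C.v (algebraMap F Ω (p.coeff i0)) with hm
  set q : F[X] := Polynomial.C (ϖF ^ (-m)) * p with hq
  have hqc : ∀ i, q.coeff i = ϖF ^ (-m) * p.coeff i := fun i => by rw [hq, coeff_C_mul]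
  have hne : ∀ i, p.coeff i ≠ 0 → algebraMap F Ω (p.coeff i) ≠ 0 := fun i h => by simpa using h
  have hqO : ∀ i, algebraMap F Ω (q.coeff i) ∈ C.O := by
    intro i
    rw [hqc, map_mul, map_zpow₀, hϖ]
    by_cases h : p.coeff i = 0
    · rw [h, map_zero, mul_zero]; exact zero_mem _
    · rw [mem_iff (mul_ne_zero (zpow_ne_zero _ C.ϖ_ne) (hne i h))]
      obtain ⟨w, hw, e⟩ := exists_unit (C := C) (hne i h)
      have h2 : C.v (C.ϖ ^ (-m) * algebraMap F Ω (p.coeff i)) =
          -m + C.v (algebraMap F Ω (p.coeff i)) := by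
        refine v_eq hw ?_
        rw [zpow_add₀ C.ϖ_ne, mul_assoc, ← e]
      rw [h2]
      have := hmin i (Polynomial.mem_support_iff.mpr h)
      omega
  have hq0 : C.r (algebraMap F Ω (q.coeff i0)) ≠ 0 := by
    have h := Polynomial.mem_support_iff.mp hi0
    rw [hqc, map_mul, map_zpow₀, hϖ]
    exact v_spec (hne i0 h)
  -- the reduced polynomial
  have hqu : ∑ i ∈ q.support, algebraMap F Ω (q.coeff i) * u ^ i = 0 := by
    have h1 : aeval u q = 0 := by rw [hq, map_mul, hp, mul_zero]
    rw [aeval_eq_sum_range' (n := q.natDegree + 1) (Nat.lt_succ_self _)] at h1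
    rw [← h1]
    have : q.support ⊆ Finset.range (q.natDegree + 1) := supp_subset_range_natDegree_succ
    rw [Finset.sum_subset this]
    · exact Finset.sum_congr rfl fun i _ => by rw [Algebra.smul_def]
    · intro i _ hi
      rw [Polynomial.notMem_support_iff.mp hi, map_zero, zero_mul]
  let c : ℕ → resF C (base F Ω) := fun i =>
    ⟨C.r (algebraMap F Ω (q.coeff i)), _, mem_base.mpr ⟨_, rfl⟩, hqO i, rfl⟩
  let Q : (resF C (base F Ω))[X] := ∑ i ∈ q.support, Polynomial.C (c i) * X ^ i
  have hQ : ∀ i, Q.coeff i = if i ∈ q.support then c i else 0 := by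
    intro i
    simp only [Q, finsetSum_coeff, coeff_C_mul, coeff_X_pow]
    rw [← Finset.sum_ite_eq]
    refine Finset.sum_congr rfl fun j _ => ?_
    split_ifs <;> simp
  have hi0q : i0 ∈ q.support := by
    rw [Polynomial.mem_support_iff]
    intro h
    rw [h, map_zero] at hq0
    exact hq0 r_zero
  have hQ0 : Q ≠ 0 := by
    intro h
    have h1 := hQ i0
    rw [if_pos hi0q, h, coeff_zero] at h1
    exact hq0 (congrArg Subtype.val h1.symm)
  have hQu : aeval (C.r u) Q = 0 := by
    have h1 : aeval (C.r u) Q = ∑ i ∈ q.support, C.r (algebraMap F Ω (q.coeff i)) * C.r u ^ i := by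
      simp only [Q, map_sum, map_mul, aeval_C, map_pow, aeval_X]
      rfl
    rw [h1]
    have h2 : ∀ i ∈ q.support, C.r (algebraMap F Ω (q.coeff i)) * C.r u ^ i =
        C.r (algebraMap F Ω (q.coeff i) * u ^ i) := fun i _ => by
      rw [r_mul (hqO i) (pow_mem hu i), r_pow hu]
    rw [Finset.sum_congr rfl h2]
    have h3 : ∀ s : Finset ℕ, ∑ i ∈ s, algebraMap F Ω (q.coeff i) * u ^ i ∈ C.O ∧
        C.r (∑ i ∈ s, algebraMap F Ω (q.coeff i) * u ^ i) =
        ∑ i ∈ s, C.r (algebraMap F Ω (q.coeff i) * u ^ i) := by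
      classical
      intro s
      induction s using Finset.induction_on with
      | empty => simp
      | insert a s ha ih =>
        have h4 : algebraMap F Ω (q.coeff a) * u ^ a ∈ C.O := mul_mem (hqO a) (pow_mem hu a)
        rw [Finset.sum_insert ha, Finset.sum_insert ha, r_add h4 ih.1, ih.2]
        exact ⟨add_mem h4 ih.1, rfl⟩
    rw [← (h3 q.support).2, hqu, r_zero]
  exact isAlgebraic_iff_isIntegral.mp ⟨Q, hQ0, hQu⟩

end Fermat.Agent.MazR
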