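import Fermat.Agent.MazR.Dec1

/-!
# Inertia is trivial in Kummer extensions generated by units with separable residues
-/

set_option autoImplicit false
set_option linter.unusedSectionVars false

noncomputable section

namespace Fermat.Agent.MazR

open Polynomial DRes

variable {Ω Λ : Type*} [Field Ω] [Field Λ] {F : Type*} [Field F] [Algebra F Ω] (C : DRes Ω Λ)

theorem sep_mono {K K' : Subfield Λ} (h : K ≤ K') {y : Λ} (hi : IsIntegral K y)
    (hs : (minpoly K y).Separable) : IsIntegral K' y ∧ (minpoly K' y).Separable := by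
  letI : Algebra K K' := (Subfield.inclusion h).toAlgebra
  haveI : IsScalarTower K K' Λ := IsScalarTower.of_algebraMap_eq fun x => rfl
  exact ⟨hi.tower_top, hs.map.of_dvd (minpoly.dvd_map_of_isScalarTower K K' y)⟩

/-- the fixed subfield of an automorphism of an intermediate field -/
def fixS (L : IntermediateField F Ω) (τ : L ≃ₐ[F] L) : Subfield Ω where
  carrier := {x | ∃ y : L, (y : Ω) = x ∧ τ y = y}
  mul_mem' := by
    rintro _ _ ⟨y, rfl, hy⟩ ⟨z, rfl, hz⟩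
    exact ⟨y * z, rfl, by rw [map_mul, hy, hz]⟩
  one_mem' := ⟨1, rfl, map_one τ⟩
  add_mem' := by
    rintro _ _ ⟨y, rfl, hy⟩ ⟨z, rfl, hz⟩
    exact ⟨y + z, rfl, by rw [map_add, hy, hz]⟩
  zero_mem' := ⟨0, rfl, map_zero τ⟩
  neg_mem' := by
    rintro _ ⟨y, rfl, hy⟩
    exact ⟨-y, rfl, by rw [map_neg, hy]⟩
  inv_mem' := by
    rintro _ ⟨y, rfl, hy⟩
    exact ⟨y⁻¹, rfl, by rw [map_inv₀, hy]⟩

theorem base_le_fixS (L : IntermediateField F Ω) (τ : L ≃ₐ[F] L) : base F Ω ≤ fixS L τ := by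
  intro x hx
  obtain ⟨a, rfl⟩ := mem_base.mp hx
  exact ⟨algebraMap F L a, rfl, τ.commutes a⟩

theorem root_mem {n : ℕ} (hn : n ≠ 0) {z : Ω} (hz : z ^ n = 1) : z ∈ C.O := by
  rcases eq_or_ne z 0 with rfl | hz0
  · exact zero_mem _
  have h := v_pow (C := C) hz0 n
  rw [hz] at h
  have h1 : C.v (1 : Ω) = 0 := by
    have := v_pow (C := C) hz0 0
    rwa [pow_zero, Nat.cast_zero, zero_mul] at this
  rw [h1] at h
  rw [mem_iff hz0]
  have h2 : C.v z = 0 := by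
    rcases mul_eq_zero.mp h.symm with h3 | h3
    · exact absurd (by exact_mod_cast h3) hn
    · exact h3
  omega

/-- `p` is divisible by `(1 - ζ) ^ (p - 1)` -/
theorem prime_eq {p : ℕ} (hp : p.Prime) {ζ : Ω} (hζ : IsPrimitiveRoot ζ p) {a : Ω} {m : ℕ}
    (h : (ζ - 1) / a ^ m ∈ C.O) (ha : a ≠ 0) :
    ∃ t ∈ C.O, (p : Ω) = a ^ (m * (p - 1)) * t := by
  obtain ⟨n, rfl⟩ : ∃ n, p = n + 1 := ⟨p - 1, (Nat.succ_pred_eq_of_pos hp.pos).symm⟩
  have h1 := hζ.prod_one_sub_pow_eq_order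
  have hζO : ζ ∈ C.O := root_mem C hp.ne_zero hζ.pow_eq_one
  have h2 : ∀ k ∈ Finset.range n, 1 - ζ ^ (k + 1) =
      a ^ m * ((-((ζ - 1) / a ^ m)) * ∑ j ∈ Finset.range (k + 1), ζ ^ j) := by
    intro k _
    have h3 := mul_neg_geom_sum ζ (k + 1)
    have ham := pow_ne_zero m ha
    rw [← h3]
    field_simp
    ring
  rw [Finset.prod_congr rfl h2, Finset.prod_mul_distrib, Finset.prod_const, Finset.card_range,
    ← pow_mul] at h1
  refine ⟨∏ k ∈ Finset.range n, ((-((ζ - 1) / a ^ m)) * ∑ j ∈ Finset.range (k + 1), ζ ^ j),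
    prod_mem fun k _ => mul_mem (neg_mem h) (sum_mem fun j _ => pow_mem hζO j), ?_⟩
  rw [Nat.add_sub_cancel, Nat.cast_add, Nat.cast_one, ← h1]

theorem inertia_trivial {ϖF : F} (hϖ : algebraMap F Ω ϖF = C.ϖ)
    (hsep : ∀ y : Λ, IsIntegral (resF C (base F Ω)) y →
      (minpoly (resF C (base F Ω)) y).Separable)
    {p : ℕ} [hp : Fact p.Prime] [CharP Λ p]
    (L : IntermediateField F Ω) [Algebra.IsAlgebraic F L] (τ : L ≃ₐ[F] L)
    (hτO : ∀ x : L, (x : Ω) ∈ C.O → ((τ x : L) : Ω) ∈ C.O)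
    (hτr : ∀ x : L, (x : Ω) ∈ C.O → C.r ((τ x : L) : Ω) = C.r (x : Ω))
    {y0 : L} (hy0 : C.r (y0 : Ω) ≠ 0) {ζ : F} (hζ : IsPrimitiveRoot ζ p)
    (hτy : τ y0 = algebraMap F L ζ * y0) : False := by
  have hζΩ : IsPrimitiveRoot (algebraMap F Ω ζ) p := hζ.map_of_injective (algebraMap F Ω).injective
  have hζ1 : algebraMap F Ω ζ - 1 ≠ 0 := by
    rw [sub_ne_zero]
    exact hζΩ.ne_one hp.out.one_lt
  have hy0O := mem_of_r_ne_zero hy0
  have hy0ne : (y0 : Ω) ≠ 0 := ne_zero_of_r hy0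
  set ϖL : L := algebraMap F L ϖF with hϖL
  have hϖc : (ϖL : Ω) = C.ϖ := hϖ
  have hϖL0 : ϖL ≠ 0 := by
    intro h
    rw [h] at hϖc
    exact C.ϖ_ne hϖc.symm
  have hτϖ : τ ϖL = ϖL := τ.commutes ϖF
  let P : ℕ → Prop := fun m => ∃ y : L, τ y = y ∧ (y : Ω) ∈ C.O ∧
    (((y0 - y) / ϖL ^ m : L) : Ω) ∈ C.O
  -- bound
  have hbd : ∀ m, P m → (algebraMap F Ω ζ - 1) / C.ϖ ^ (m + 1) ∈ C.O := by
    rintro m ⟨y, hy, hyO, hu⟩
    set u : L := (y0 - y) / ϖL ^ m with hudef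
    have h1 : τ u - u = (algebraMap F L ζ - 1) * y0 / ϖL ^ m := by
      rw [hudef, map_div₀, map_sub, map_pow, hτϖ, hτy, hy]
      ring
    have h2 : ((τ u - u : L) : Ω) ∈ C.O := sub_mem (hτO u hu) hu
    have h3 : C.r ((τ u - u : L) : Ω) = 0 := by
      have : ((τ u - u : L) : Ω) = ((τ u : L) : Ω) - (u : Ω) := rfl
      rw [this, r_sub (hτO u hu) hu, hτr u hu, sub_self]
    have h4 := mul_mem (div_ϖ h2 h3) (inv_mem_of_r hy0)
    rw [h1] at h4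
    have h5 : (((algebraMap F L ζ - 1) * y0 / ϖL ^ m : L) : Ω) / C.ϖ * (y0 : Ω)⁻¹ =
        (algebraMap F Ω ζ - 1) / C.ϖ ^ (m + 1) := by
      have : (((algebraMap F L ζ - 1) * y0 / ϖL ^ m : L) : Ω) =
          (algebraMap F Ω ζ - 1) * (y0 : Ω) / C.ϖ ^ m := by
        rw [← hϖc]; rfl
      rw [this]
      have := C.ϖ_ne
      field_simp
      ring
    rwa [h5] at h4
  obtain ⟨m, hm, hm'⟩ : ∃ m, P m ∧ ¬ P (m + 1) := by
    by_contra hcon
    push Not at hcon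
    have hall : ∀ m, P m := by
      intro m
      induction m with
      | zero => exact ⟨0, map_zero τ, zero_mem _, by simpa using hy0O⟩
      | succ m ih => exact hcon m ih
    have h1 := hbd _ (hall (C.v (algebraMap F Ω ζ - 1)).toNat)
    have h2 : (algebraMap F Ω ζ - 1) / C.ϖ ^ ((C.v (algebraMap F Ω ζ - 1)).toNat + 1) ≠ 0 :=
      div_ne_zero hζ1 (pow_ne_zero _ C.ϖ_ne)
    rw [mem_iff h2, div_eq_mul_inv, v_mul hζ1 (inv_ne_zero (pow_ne_zero _ C.ϖ_ne)),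
      v_inv (pow_ne_zero _ C.ϖ_ne), v_pow C.ϖ_ne, v_ϖ] at h1
    push_cast at h1
    omega
  have hdiv := hbd m hm
  obtain ⟨y, hy, hyO, hu⟩ := hm
  set u : L := (y0 - y) / ϖL ^ m with hudef
  obtain ⟨t, ht, hpt⟩ := prime_eq C hp.out hζΩ hdiv C.ϖ_ne
  -- the `p`-th power
  have hy0e : y0 = y + ϖL ^ m * u := by
    rw [hudef, mul_div_cancel₀ _ (pow_ne_zero m hϖL0)]
    ring
  obtain ⟨q, hq⟩ := exists_add_pow_prime_eq hp.out (⟨(y : Ω), hyO⟩ : C.O)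
    (⟨C.ϖ ^ m, pow_mem C.ϖ_mem m⟩ * ⟨(u : Ω), hu⟩ : C.O)
  have hq' : (y0 : Ω) ^ p = (y : Ω) ^ p + (C.ϖ ^ m * (u : Ω)) ^ p +
      (p : Ω) * (y : Ω) * (C.ϖ ^ m * (u : Ω)) * (q : Ω) := by
    have h1 := congrArg (fun x : C.O => (x : Ω)) hq
    have h2 : (y0 : Ω) = (y : Ω) + C.ϖ ^ m * (u : Ω) := by
      nth_rewrite 1 [hy0e]
      rw [← hϖc]; rfl
    rw [h2]
    simpa using h1
  set z : L := (y0 ^ p - y ^ p) / ϖL ^ (m * p) with hz
  have hze : (z : Ω) = (u : Ω) ^ p + C.ϖ * (C.ϖ ^ (p - 2) * t * (y : Ω) * (u : Ω) * (q : Ω)) := by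
    have h1 : (z : Ω) = ((y0 : Ω) ^ p - (y : Ω) ^ p) / C.ϖ ^ (m * p) := by
      rw [hz, ← hϖc]; rfl
    obtain ⟨n, hn⟩ : ∃ n, p = n + 2 := ⟨p - 2, by have := hp.out.two_le; omega⟩
    have hϖ0 := C.ϖ_ne
    rw [h1, hq', hpt, div_eq_iff (pow_ne_zero _ hϖ0), mul_pow, ← pow_mul, hn,
      show n + 2 - 1 = n + 1 by omega, show n + 2 - 2 = n by omega]
    ring
  have hwO : C.ϖ ^ (p - 2) * t * (y : Ω) * (u : Ω) * (q : Ω) ∈ C.O :=
    mul_mem (mul_mem (mul_mem (mul_mem (pow_mem C.ϖ_mem _) ht) hyO) hu) q.2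
  have hzO : (z : Ω) ∈ C.O := by
    rw [hze]
    exact add_mem (pow_mem hu p) (mul_mem C.ϖ_mem hwO)
  have hzr : C.r (z : Ω) = C.r (u : Ω) ^ p := by
    rw [hze, r_add (pow_mem hu p) (mul_mem C.ϖ_mem hwO), r_mul C.ϖ_mem hwO, C.r_ϖ, zero_mul,
      add_zero, r_pow hu]
  have hτz : τ z = z := by
    rw [hz, map_div₀, map_sub, map_pow, map_pow, map_pow, hτϖ, hτy, hy, mul_pow, ← map_pow,
      hζ.pow_eq_one, map_one, one_mul]
  -- separability
  have hint : IsIntegral (resF C (base F Ω)) (C.r (u : Ω)) :=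
    isIntegral_res C hϖ hu (by
      have := Algebra.IsAlgebraic.isAlgebraic (R := F) u
      exact this.algebraMap (A := Ω))
  obtain ⟨hint', hsep'⟩ := sep_mono (resF_mono (C := C) (base_le_fixS L τ)) hint (hsep _ hint)
  have hup : C.r (u : Ω) ^ p ∈ resF C (fixS L τ) := ⟨z, ⟨z, rfl, hτz⟩, hzO, hzr⟩
  haveI : ExpChar Λ p := ExpChar.prime hp.out
  have hmem : C.r (u : Ω) ∈ resF C (fixS L τ) := by
    have hmap : ((X : (resF C (fixS L τ))[X]) ^ p -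
        Polynomial.C (⟨C.r (u : Ω) ^ p, hup⟩ : resF C (fixS L τ))).map
        (algebraMap _ Λ) = (X - Polynomial.C (C.r (u : Ω))) ^ p := by
      rw [Polynomial.map_sub, Polynomial.map_pow, map_X, map_C, sub_pow_char, ← Polynomial.C_pow]
      rfl
    refine lin hint' hsep' (p := X ^ p -
        Polynomial.C (⟨C.r (u : Ω) ^ p, hup⟩ : resF C (fixS L τ)))
      (X_pow_sub_C_ne_zero hp.out.pos _) ?_ ?_ ?_
    · rw [map_sub, map_pow, aeval_X, aeval_C]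
      exact sub_self _
    · rw [hmap]
      exact (Splits.X_sub_C _).pow p
    · intro z' hz'
      right
      rw [map_sub, map_pow, aeval_X, aeval_C, sub_eq_zero] at hz'
      exact frobenius_inj Λ p hz'
  obtain ⟨_, ⟨y', rfl, hy'⟩, hy'O, hy'r⟩ := hmem
  apply hm'
  refine ⟨y + ϖL ^ m * y', ?_, ?_, ?_⟩
  · rw [map_add, map_mul, map_pow, hτϖ, hy, hy']
  · have : ((y + ϖL ^ m * y' : L) : Ω) = (y : Ω) + C.ϖ ^ m * (y' : Ω) := by rw [← hϖc]; rfl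
    rw [this]
    exact add_mem hyO (mul_mem (pow_mem C.ϖ_mem m) hy'O)
  · have h1 := (r_eq_iff hu hy'O).mp hy'r.symm
    have h2 : (((y0 - (y + ϖL ^ m * y')) / ϖL ^ (m + 1) : L) : Ω) = ((u : Ω) - (y' : Ω)) / C.ϖ := by
      have h3 : ((y0 - (y + ϖL ^ m * y')) / ϖL ^ (m + 1) : L) = (u - y') / ϖL := by
        rw [hudef, pow_succ]
        field_simp
        ring
      rw [h3, ← hϖc]; rfl
    rwa [h2]

end Fermat.Agent.MazR
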