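import Fermat.Agent.MazR.Dec2

/-!
# Elements fixed by the decomposition group have rational residues
-/

set_option autoImplicit false
set_option linter.unusedSectionVars false

noncomputable section

namespace Fermat.Agent.MazR

open Polynomial DRes

variable {Ω Λ : Type*} [Field Ω] [Field Λ] {F : Type*} [Field F] [Algebra F Ω] (C : DRes Ω Λ)

/-- the automorphism preserves the valuation ring -/
def Pres (L : IntermediateField F Ω) (τ : L ≃ₐ[F] L) : Prop :=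
  ∀ x : L, (x : Ω) ∈ C.O ↔ ((τ x : L) : Ω) ∈ C.O

theorem aux_e {b : Ω} (hϖ : True) : (1 + C.ϖ * b ^ 2)⁻¹ ∈ C.O ∧
    (b ∈ C.O → C.r (1 + C.ϖ * b ^ 2)⁻¹ = 1) ∧ (b ∉ C.O → C.r (1 + C.ϖ * b ^ 2)⁻¹ = 0) := by
  by_cases hb : b ∈ C.O
  · have h1 : C.ϖ * b ^ 2 ∈ C.O := mul_mem C.ϖ_mem (pow_mem hb 2)
    have h2 : C.r (1 + C.ϖ * b ^ 2) = 1 := by
      rw [r_add (one_mem _) h1, r_one, r_mul C.ϖ_mem (pow_mem hb 2), C.r_ϖ, zero_mul, add_zero]
    have h3 : C.r (1 + C.ϖ * b ^ 2) ≠ 0 := by rw [h2]; exact one_ne_zero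
    exact ⟨inv_mem_of_r h3, fun _ => by rw [r_inv h3, h2, inv_one], fun h => absurd hb h⟩
  · have hb0 : b ≠ 0 := by rintro rfl; exact hb (zero_mem _)
    have hv : C.v b < 0 := by
      by_contra h
      exact hb ((mem_iff hb0).mpr (not_lt.mp h))
    set c := C.ϖ * b ^ 2 with hc
    have hc0 : c ≠ 0 := mul_ne_zero C.ϖ_ne (pow_ne_zero 2 hb0)
    have hvc : C.v c = 1 + 2 * C.v b := by
      rw [hc, v_mul C.ϖ_ne (pow_ne_zero 2 hb0), v_ϖ, v_pow hb0]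
      push_cast; ring
    have hci : c⁻¹ ∈ C.O := by rw [mem_iff (inv_ne_zero hc0), v_inv hc0]; omega
    have hcr : C.r c⁻¹ = 0 := by
      by_contra h
      rw [← ne_eq, r_ne_iff (inv_ne_zero hc0), v_inv hc0] at h
      omega
    have h2 : C.r (1 + c⁻¹) = 1 := by rw [r_add (one_mem _) hci, r_one, hcr, add_zero]
    have h3 : C.r (1 + c⁻¹) ≠ 0 := by rw [h2]; exact one_ne_zero
    have e : (1 + c)⁻¹ = c⁻¹ * (1 + c⁻¹)⁻¹ := by
      rw [← mul_inv]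
      congr 1
      rw [mul_add, mul_one, mul_inv_cancel₀ hc0, add_comm]
    rw [e]
    refine ⟨mul_mem hci (inv_mem_of_r h3), fun h => absurd h hb, fun _ => ?_⟩
    rw [r_mul hci (inv_mem_of_r h3), hcr, zero_mul]

theorem exists_bad (L : IntermediateField F Ω) {τ : L ≃ₐ[F] L} {ϖF : F}
    (hϖ : algebraMap F Ω ϖF = C.ϖ) (h : ¬ Pres C L τ) :
    ∃ a : L, (a : Ω) ∈ C.O ∧ ((τ a : L) : Ω) ∉ C.O := by
  unfold Pres at h
  push Not at h
  obtain ⟨x, hx⟩ := h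
  rcases hx with ⟨h1, h2⟩ | ⟨h1, h2⟩
  · exact ⟨x, h1, h2⟩
  · have hx0 : (x : Ω) ≠ 0 := by intro h; rw [h] at h1; exact h1 (zero_mem _)
    have hxL : x ≠ 0 := fun h => hx0 (by rw [h]; rfl)
    have hτ0 : ((τ x : L) : Ω) ≠ 0 := by
      intro h
      have : τ x = 0 := Subtype.ext h
      exact hxL ((map_eq_zero τ).mp this)
    have hv1 : C.v (x : Ω) < 0 := by
      by_contra h
      exact h1 ((mem_iff hx0).mpr (not_lt.mp h))
    have hv2 : 0 ≤ C.v ((τ x : L) : Ω) := (mem_iff hτ0).mp h2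
    refine ⟨(algebraMap F L ϖF * x)⁻¹, ?_, ?_⟩
    · have e : (((algebraMap F L ϖF * x)⁻¹ : L) : Ω) = (C.ϖ * (x : Ω))⁻¹ := by rw [← hϖ]; rfl
      rw [e, mem_iff (inv_ne_zero (mul_ne_zero C.ϖ_ne hx0)), v_inv (mul_ne_zero C.ϖ_ne hx0),
        v_mul C.ϖ_ne hx0, v_ϖ]
      omega
    · have e : ((τ ((algebraMap F L ϖF * x)⁻¹) : L) : Ω) = (C.ϖ * ((τ x : L) : Ω))⁻¹ := by
        rw [map_inv₀, map_mul, τ.commutes, ← hϖ]; rfl
      rw [e, mem_iff (inv_ne_zero (mul_ne_zero C.ϖ_ne hτ0)), v_inv (mul_ne_zero C.ϖ_ne hτ0),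
        v_mul C.ϖ_ne hτ0, v_ϖ]
      omega

theorem r_prod' {ι : Type*} (s : Finset ι) (f : ι → Ω) (hf : ∀ i ∈ s, f i ∈ C.O) :
    C.r (∏ i ∈ s, f i) = ∏ i ∈ s, C.r (f i) := by
  classical
  induction s using Finset.induction_on with
  | empty => simp [r_one]
  | insert a s ha ih =>
    rw [Finset.prod_insert ha, Finset.prod_insert ha, r_mul (hf a (Finset.mem_insert_self _ _))
      (prod_mem fun i hi => hf i (Finset.mem_insert_of_mem hi)),
      ih fun i hi => hf i (Finset.mem_insert_of_mem hi)]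

/-- an element separating the decomposition group -/
theorem exists_e (L : IntermediateField F Ω) [FiniteDimensional F L] {ϖF : F}
    (hϖ : algebraMap F Ω ϖF = C.ϖ) : ∃ e : L, e ≠ 0 ∧ ∀ τ : L ≃ₐ[F] L,
      ((τ e : L) : Ω) ∈ C.O ∧ (Pres C L τ → C.r ((τ e : L) : Ω) = 1) ∧
      (¬ Pres C L τ → C.r ((τ e : L) : Ω) = 0) := by
  classical
  have hch : ∀ τ : L ≃ₐ[F] L, ∃ a : L, (a : Ω) ∈ C.O ∧ (¬ Pres C L τ → ((τ a : L) : Ω) ∉ C.O) := by
    intro τ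
    by_cases h : Pres C L τ
    · exact ⟨0, zero_mem _, fun h' => absurd h h'⟩
    · obtain ⟨a, h1, h2⟩ := exists_bad C L hϖ h
      exact ⟨a, h1, fun _ => h2⟩
  choose a ha ha' using hch
  let ϖL : L := algebraMap F L ϖF
  have hc : ∀ τ τ' : L ≃ₐ[F] L, ((τ' ((1 + ϖL * a τ ^ 2)⁻¹) : L) : Ω) =
      (1 + C.ϖ * ((τ' (a τ) : L) : Ω) ^ 2)⁻¹ := by
    intro τ τ'
    rw [map_inv₀, map_add, map_one, map_mul, map_pow, τ'.commutes, ← hϖ]; rfl
  have hprod : ∀ τ' : L ≃ₐ[F] L, ((τ' (∏ τ : L ≃ₐ[F] L, (1 + ϖL * a τ ^ 2)⁻¹) : L) : Ω) =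
      ∏ τ : L ≃ₐ[F] L, (1 + C.ϖ * ((τ' (a τ) : L) : Ω) ^ 2)⁻¹ := by
    intro τ'
    rw [map_prod, ← Finset.prod_congr rfl fun τ _ => hc τ τ']
    exact map_prod L.val _ _
  refine ⟨∏ τ : L ≃ₐ[F] L, (1 + ϖL * a τ ^ 2)⁻¹, ?_, fun τ' => ⟨?_, ?_, ?_⟩⟩
  · rw [Finset.prod_ne_zero_iff]
    intro τ _ h0
    have h1 := (aux_e C (b := ((a τ : L) : Ω)) trivial).2.1 (ha τ)
    have h2 : (((1 + ϖL * a τ ^ 2)⁻¹ : L) : Ω) = (1 + C.ϖ * ((a τ : L) : Ω) ^ 2)⁻¹ := by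
      rw [← hϖ]; rfl
    rw [h0] at h2
    rw [← h2] at h1
    exact zero_ne_one ((r_zero (C := C)).symm.trans h1)
  · rw [hprod]
    exact prod_mem fun τ _ => (aux_e C trivial).1
  · intro hP
    rw [hprod, r_prod' C _ _ fun τ _ => (aux_e C trivial).1]
    exact Finset.prod_eq_one fun τ _ => (aux_e C trivial).2.1 ((hP _).mp (ha τ))
  · intro hP
    rw [hprod, r_prod' C _ _ fun τ _ => (aux_e C trivial).1]
    exact Finset.prod_eq_zero (Finset.mem_univ τ') ((aux_e C trivial).2.2 (ha' τ' hP))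

theorem fixed_res {ϖF : F} (hϖ : algebraMap F Ω ϖF = C.ϖ)
    (hsep : ∀ y : Λ, IsIntegral (resF C (base F Ω)) y →
      (minpoly (resF C (base F Ω)) y).Separable)
    (L : IntermediateField F Ω) [FiniteDimensional F L] [IsGalois F L] {x : L}
    (hxO : (x : Ω) ∈ C.O) (hfix : ∀ τ : L ≃ₐ[F] L, Pres C L τ → τ x = x) :
    C.r (x : Ω) ∈ resF C (base F Ω) := by
  classical
  rcases eq_or_ne x 0 with rfl | hx0
  · have : C.r ((0 : L) : Ω) = 0 := r_zero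
    rw [this]; exact zero_mem _
  obtain ⟨e, he0, he⟩ := exists_e C L hϖ
  have hinj : ∀ (τ : L ≃ₐ[F] L) {z : L}, z ≠ 0 → ((τ z : L) : Ω) ≠ 0 := by
    intro τ z hz h
    exact hz ((map_eq_zero τ).mp (Subtype.ext h))
  -- large power
  obtain ⟨M, hM⟩ : ∃ M : ℕ, ∀ τ : L ≃ₐ[F] L, -(M : ℤ) < C.v ((τ x : L) : Ω) := by
    refine ⟨(∑ τ : L ≃ₐ[F] L, (C.v ((τ x : L) : Ω)).natAbs) + 1, fun τ => ?_⟩
    have h1 : (C.v ((τ x : L) : Ω)).natAbs ≤ ∑ τ : L ≃ₐ[F] L, (C.v ((τ x : L) : Ω)).natAbs :=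
      Finset.single_le_sum (f := fun τ : L ≃ₐ[F] L => (C.v ((τ x : L) : Ω)).natAbs)
        (fun _ _ => Nat.zero_le _) (Finset.mem_univ τ)
    omega
  set y : L := x * e ^ M with hy
  have hτy : ∀ τ : L ≃ₐ[F] L, ((τ y : L) : Ω) = ((τ x : L) : Ω) * ((τ e : L) : Ω) ^ M := by
    intro τ
    rw [hy, map_mul, map_pow]; rfl
  have hyP : ∀ τ : L ≃ₐ[F] L, Pres C L τ → ((τ y : L) : Ω) ∈ C.O ∧
      C.r ((τ y : L) : Ω) = C.r (x : Ω) := by
    intro τ hτ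
    have h1 : ((τ x : L) : Ω) ∈ C.O := (hτ x).mp hxO
    rw [hτy]
    refine ⟨mul_mem h1 (pow_mem (he τ).1 M), ?_⟩
    rw [r_mul h1 (pow_mem (he τ).1 M), r_pow (he τ).1, (he τ).2.1 hτ, one_pow, mul_one,
      hfix τ hτ]
  have hyN : ∀ τ : L ≃ₐ[F] L, ¬ Pres C L τ → ((τ y : L) : Ω) ∈ C.O ∧
      C.r ((τ y : L) : Ω) = 0 := by
    intro τ hτ
    have h1 := hinj τ hx0
    have h2 := hinj τ he0
    have h3 : 0 < C.v ((τ e : L) : Ω) := by
      have h4 := (mem_iff h2).mp (he τ).1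
      have h5 : C.v ((τ e : L) : Ω) ≠ 0 := fun h => (r_ne_iff h2).mpr h ((he τ).2.2 hτ)
      omega
    have h4 := hM τ
    have h5 : 0 < C.v ((τ y : L) : Ω) := by
      rw [hτy, v_mul h1 (pow_ne_zero _ h2), v_pow h2]
      nlinarith
    have h6 : ((τ y : L) : Ω) ≠ 0 := by rw [hτy]; exact mul_ne_zero h1 (pow_ne_zero _ h2)
    refine ⟨(mem_iff h6).mpr h5.le, ?_⟩
    by_contra h7
    have := (r_ne_iff h6).mp h7
    omega
  have hyO : ∀ τ : L ≃ₐ[F] L, ((τ y : L) : Ω) ∈ C.O := fun τ => by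
    by_cases h : Pres C L τ
    · exact (hyP τ h).1
    · exact (hyN τ h).1
  let PO : Polynomial C.O := ∏ τ : L ≃ₐ[F] L, (X - Polynomial.C (⟨((τ y : L) : Ω), hyO τ⟩ : C.O))
  let PL : Polynomial L := ∏ τ : L ≃ₐ[F] L, (X - Polynomial.C (τ y))
  have hPOL : PO.map C.O.subtype = PL.map L.val.toRingHom := by
    simp only [PO, PL, Polynomial.map_prod, Polynomial.map_sub, map_X, map_C]
    rfl
  have hfixL : ∀ i, PL.coeff i ∈ Set.range (algebraMap F L) := by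
    intro i
    rw [IsGalois.mem_range_algebraMap_iff_fixed]
    intro σ
    have h1 : PL.map ((σ : L ≃ₐ[F] L) : L →+* L) = PL := by
      simp only [PL, Polynomial.map_prod, Polynomial.map_sub, map_X, map_C]
      exact Fintype.prod_equiv (Equiv.mulLeft σ) _ _ fun τ => rfl
    have h2 := congrArg (fun p : Polynomial L => p.coeff i) h1
    simp only [coeff_map] at h2
    exact h2
  have hcoef : ∀ i, C.res (PO.coeff i) ∈ resF C (base F Ω) := by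
    intro i
    obtain ⟨a, ha⟩ := hfixL i
    have h1 := congrArg (fun p : Polynomial Ω => p.coeff i) hPOL
    simp only [coeff_map] at h1
    have h2 : ((PO.coeff i : C.O) : Ω) = algebraMap F Ω a := by
      refine Eq.trans h1 ?_
      rw [← ha]; rfl
    exact ⟨_, mem_base.mpr ⟨a, h2.symm⟩, (PO.coeff i).2, by rw [r_of_mem (PO.coeff i).2]⟩
  obtain ⟨Q, hQ⟩ : ∃ Q : Polynomial (resF C (base F Ω)),
      Q.map (algebraMap (resF C (base F Ω)) Λ) = PO.map C.res := by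
    rw [← Polynomial.mem_lifts, Polynomial.lifts_iff_coeff_lifts]
    intro i
    rw [coeff_map]
    exact ⟨⟨_, hcoef i⟩, rfl⟩
  have hPr : PO.map C.res = ∏ τ : L ≃ₐ[F] L, (X - Polynomial.C (C.r ((τ y : L) : Ω))) := by
    simp only [PO, Polynomial.map_prod, Polynomial.map_sub, map_X, map_C]
    exact Finset.prod_congr rfl fun τ _ => by rw [r_of_mem (hyO τ)]
  have hint := isIntegral_res C hϖ hxO (by
      have := Algebra.IsAlgebraic.isAlgebraic (R := F) x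
      exact this.algebraMap (A := Ω))
  have hP1 : Pres C L 1 := fun z => Iff.rfl
  have hev : ∀ z : Λ, aeval z Q = ∏ τ : L ≃ₐ[F] L, (z - C.r ((τ y : L) : Ω)) := by
    intro z
    rw [← eval_map_algebraMap, hQ, hPr, eval_prod]
    exact Finset.prod_congr rfl fun τ _ => by rw [eval_sub, eval_X, eval_C]
  have hQ0 : Q ≠ 0 := by
    rintro rfl
    rw [Polynomial.map_zero] at hQ
    have : (PO.map C.res).Monic := by
      rw [hPr]
      exact monic_prod_of_monic _ _ fun τ _ => monic_X_sub_C _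
    rw [← hQ] at this
    exact this.ne_zero rfl
  refine lin hint (hsep _ hint) hQ0 ?_ ?_ ?_
  · rw [hev]
    refine Finset.prod_eq_zero (Finset.mem_univ 1) ?_
    rw [(hyP 1 hP1).2, sub_self]
  · rw [hQ, hPr]
    exact Splits.prod fun τ _ => Splits.X_sub_C _
  · intro z hz
    rw [hev, Finset.prod_eq_zero_iff] at hz
    obtain ⟨τ, -, hτ⟩ := hz
    rw [sub_eq_zero] at hτ
    by_cases h : Pres C L τ
    · right; rw [hτ, (hyP τ h).2]
    · left; rw [hτ, (hyN τ h).2]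

end Fermat.Agent.MazR
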