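import Fermat.Agent.MazR.Dec3

/-!
# The decomposition group theorem
-/

set_option autoImplicit false
set_option linter.unusedSectionVars false

noncomputable section

namespace Fermat.Agent.MazR

open Polynomial DRes

variable {Ω Λ : Type*} [Field Ω] [Field Λ] {F : Type*} [Field F] [Algebra F Ω]

/-- a field generated by radicals is Galois -/
theorem galois_adjoin [CharZero F] {n : ℕ} (hn : 0 < n) {ζ : F} (hζ : IsPrimitiveRoot ζ n)
    {W : Set Ω} (hWb : ∀ y ∈ W, y ^ n ∈ base F Ω) :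
    IsGalois F (IntermediateField.adjoin F W) := by
  set L := IntermediateField.adjoin F W with hL
  have hint : ∀ y ∈ W, IsIntegral F y := by
    intro y hy
    obtain ⟨a, ha⟩ := mem_base.mp (hWb y hy)
    exact ⟨X ^ n - Polynomial.C a, monic_X_pow_sub_C a hn.ne', by
      rw [← aeval_def, map_sub, map_pow, aeval_X, aeval_C, ha, sub_self]⟩
  haveI : Algebra.IsAlgebraic F L := IntermediateField.isAlgebraic_adjoin hint
  haveI : Normal F L := by
    refine ⟨fun x => ?_⟩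
    rw [show minpoly F x = minpoly F (x : Ω) from IntermediateField.minpoly_eq x]
    refine IntermediateField.splits_of_mem_adjoin F Ω (L := L) (S := W) (fun y hy => ⟨hint y hy, ?_⟩) x.2
    obtain ⟨a, ha⟩ := mem_base.mp (hWb y hy)
    have hyL : y ∈ L := IntermediateField.subset_adjoin F W hy
    have h1 : (X ^ n - Polynomial.C (algebraMap F L a)).Splits :=
      X_pow_sub_C_splits_of_isPrimitiveRoot
        (hζ.map_of_injective (algebraMap F L).injective) (α := (⟨y, hyL⟩ : L))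
        (Subtype.ext ha.symm)
    have h2 : minpoly F y ∣ X ^ n - Polynomial.C a := minpoly.dvd F y (by
      rw [map_sub, map_pow, aeval_X, aeval_C, ha, sub_self])
    have h3 : (X ^ n - Polynomial.C a).map (algebraMap F L) =
        X ^ n - Polynomial.C (algebraMap F L a) := by
      rw [Polynomial.map_sub, Polynomial.map_pow, map_X, map_C]
    refine h1.of_dvd (X_pow_sub_C_ne_zero hn _) ?_
    rw [← h3]
    exact Polynomial.map_dvd _ h2
  exact ⟨⟩

variable (C : DRes Ω Λ)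

section

variable {σ : Ω ≃+* Ω} (hσF : ∀ a : F, ∃ b : F, σ (algebraMap F Ω a) = algebraMap F Ω b)
  (hσF' : ∀ a : F, ∃ b : F, σ.symm (algebraMap F Ω a) = algebraMap F Ω b)
  {W : Set Ω} (hW : ∀ y ∈ W, σ y ∈ W) (hW' : ∀ y ∈ W, σ.symm y ∈ W)

include hσF hW in
theorem map_adjoin : ∀ x ∈ IntermediateField.adjoin F W, σ x ∈ IntermediateField.adjoin F W := by
  intro x hx
  induction hx using IntermediateField.adjoin_induction with
  | mem y hy => exact IntermediateField.subset_adjoin F W (hW y hy)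
  | algebraMap a =>
    obtain ⟨b, hb⟩ := hσF a
    rw [hb]
    exact IntermediateField.algebraMap_mem _ b
  | add x y _ _ hx hy => rw [map_add]; exact add_mem hx hy
  | inv x _ hx => rw [map_inv₀]; exact inv_mem hx
  | mul x y _ _ hx hy => rw [map_mul]; exact mul_mem hx hy

/-- the restriction of `σ` -/
def resAut (σ : Ω ≃+* Ω) (L : IntermediateField F Ω) (h1 : ∀ x ∈ L, σ x ∈ L)
    (h2 : ∀ x ∈ L, σ.symm x ∈ L) : L ≃+* L where
  toFun x := ⟨σ x, h1 _ x.2⟩
  invFun x := ⟨σ.symm x, h2 _ x.2⟩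
  left_inv x := Subtype.ext (σ.symm_apply_apply _)
  right_inv x := Subtype.ext (σ.apply_symm_apply _)
  map_mul' x y := Subtype.ext (map_mul σ _ _)
  map_add' x y := Subtype.ext (map_add σ _ _)

/-- the commutator -/
def comm (σ : Ω ≃+* Ω) (L : IntermediateField F Ω) (h1 : ∀ x ∈ L, σ x ∈ L)
    (h2 : ∀ x ∈ L, σ.symm x ∈ L)
    (hσF' : ∀ a : F, ∃ b : F, σ.symm (algebraMap F Ω a) = algebraMap F Ω b)
    (τ : L ≃ₐ[F] L) : L ≃ₐ[F] L :=
  AlgEquiv.ofRingEquiv (f := ((τ.symm.toRingEquiv.trans (resAut σ L h1 h2).symm).trans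
    τ.toRingEquiv).trans (resAut σ L h1 h2)) (fun a => by
      obtain ⟨b, hb⟩ := hσF' a
      have e1 : (resAut σ L h1 h2).symm (algebraMap F L a) = algebraMap F L b := Subtype.ext hb
      have e2 : (resAut σ L h1 h2) (algebraMap F L b) = algebraMap F L a := by
        rw [← e1, RingEquiv.apply_symm_apply]
      show (resAut σ L h1 h2) (τ ((resAut σ L h1 h2).symm (τ.symm (algebraMap F L a)))) = _
      rw [AlgEquiv.commutes, e1, AlgEquiv.commutes, e2])

theorem comm_apply (σ : Ω ≃+* Ω) (L : IntermediateField F Ω) (h1 : ∀ x ∈ L, σ x ∈ L)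
    (h2 : ∀ x ∈ L, σ.symm x ∈ L)
    (hσF' : ∀ a : F, ∃ b : F, σ.symm (algebraMap F Ω a) = algebraMap F Ω b)
    (τ : L ≃ₐ[F] L) (x : L) : comm σ L h1 h2 hσF' τ (τ (resAut σ L h1 h2 x)) =
      resAut σ L h1 h2 (τ x) := by
  show (resAut σ L h1 h2) (τ ((resAut σ L h1 h2).symm (τ.symm (τ (resAut σ L h1 h2 x))))) = _
  rw [AlgEquiv.symm_apply_apply, RingEquiv.symm_apply_apply]

theorem comm_apply' (σ : Ω ≃+* Ω) (L : IntermediateField F Ω) (h1 : ∀ x ∈ L, σ x ∈ L)
    (h2 : ∀ x ∈ L, σ.symm x ∈ L)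
    (hσF' : ∀ a : F, ∃ b : F, σ.symm (algebraMap F Ω a) = algebraMap F Ω b)
    (τ : L ≃ₐ[F] L) (x : L) : comm σ L h1 h2 hσF' τ x =
      resAut σ L h1 h2 (τ ((resAut σ L h1 h2).symm (τ.symm x))) := rfl

end

/-- an automorphism acting trivially on the residues fixes the radicals -/
theorem fix_radical {ϖF : F} (hϖ : algebraMap F Ω ϖF = C.ϖ)
    (hsep : ∀ y : Λ, IsIntegral (resF C (base F Ω)) y →
      (minpoly (resF C (base F Ω)) y).Separable)
    {p : ℕ} [hp : Fact p.Prime] [CharP Λ p]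
    (L : IntermediateField F Ω) [Algebra.IsAlgebraic F L] (γ : L ≃ₐ[F] L)
    (hγO : ∀ x : L, (x : Ω) ∈ C.O → ((γ x : L) : Ω) ∈ C.O ∧ C.r ((γ x : L) : Ω) = C.r (x : Ω))
    {k : ℕ} {y : L} (hy : C.r (y : Ω) ≠ 0) {z : F} (hz : z ^ p ^ k = 1)
    (hγy : γ y = algebraMap F L z * y) : z = 1 := by
  by_contra hz1
  -- the order of `z`
  have hfin : IsOfFinOrder z := isOfFinOrder_iff_pow_eq_one.mpr
    ⟨p ^ k, pow_pos hp.out.pos k, hz⟩
  have hord : orderOf z ∣ p ^ k := orderOf_dvd_of_pow_eq_one hz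
  obtain ⟨i, hi, hoi⟩ := (Nat.dvd_prime_pow hp.out).mp hord
  have hi0 : i ≠ 0 := by
    rintro rfl
    rw [pow_zero, orderOf_eq_one_iff] at hoi
    exact hz1 hoi
  obtain ⟨j, rfl⟩ : ∃ j, i = j + 1 := ⟨i - 1, by omega⟩
  have hprim : IsPrimitiveRoot (z ^ p ^ j) p := by
    have h1 : IsPrimitiveRoot z (p ^ j * p) := by
      rw [← pow_succ, ← hoi]; exact IsPrimitiveRoot.orderOf z
    exact h1.pow (Nat.mul_pos (pow_pos hp.out.pos j) hp.out.pos) rfl
  have hpow : ∀ m : ℕ, ∀ x : L, (x : Ω) ∈ C.O → (((γ ^ m) x : L) : Ω) ∈ C.O ∧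
      C.r (((γ ^ m) x : L) : Ω) = C.r (x : Ω) := by
    intro m
    induction m with
    | zero => intro x hx; exact ⟨hx, rfl⟩
    | succ m ih =>
      intro x hx
      rw [pow_succ', AlgEquiv.mul_apply]
      obtain ⟨h1, h2⟩ := ih x hx
      obtain ⟨h3, h4⟩ := hγO _ h1
      exact ⟨h3, h4.trans h2⟩
  have hpy : ∀ m : ℕ, (γ ^ m) y = algebraMap F L (z ^ m) * y := by
    intro m
    induction m with
    | zero => rw [pow_zero, pow_zero, map_one, one_mul]; rfl
    | succ m ih =>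
      rw [pow_succ', AlgEquiv.mul_apply, ih, map_mul, γ.commutes, hγy, ← mul_assoc, ← map_mul,
        ← pow_succ]
  exact inertia_trivial C hϖ hsep L (γ ^ (p ^ j)) (fun x hx => (hpow _ x hx).1)
    (fun x hx => (hpow _ x hx).2) hy hprim (hpy _)

/-- **The decomposition group theorem** -/
theorem dec [CharZero F] {ϖF : F} (hϖ : algebraMap F Ω ϖF = C.ϖ)
    (hsep : ∀ y : Λ, IsIntegral (resF C (base F Ω)) y →
      (minpoly (resF C (base F Ω)) y).Separable)
    {p : ℕ} [hp : Fact p.Prime] [CharP Λ p] {k : ℕ} {ζ : F} (hζ : IsPrimitiveRoot ζ (p ^ k))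
    {σ : Ω ≃+* Ω} (hσF : ∀ a : F, ∃ b : F, σ (algebraMap F Ω a) = algebraMap F Ω b)
    (hσF' : ∀ a : F, ∃ b : F, σ.symm (algebraMap F Ω a) = algebraMap F Ω b)
    {c : ℕ} (hσζ : σ (algebraMap F Ω ζ) = algebraMap F Ω ζ ^ c)
    (hσO : ∀ x : Ω, x ∈ C.O → σ x ∈ C.O ∧ C.r (σ x) = C.r x)
    (hσO' : ∀ x : Ω, x ∈ C.O → σ.symm x ∈ C.O)
    {W : Set Ω} (hWfin : W.Finite) (hW : ∀ y ∈ W, σ y ∈ W) (hW' : ∀ y ∈ W, σ.symm y ∈ W)
    (hWr : ∀ y ∈ W, C.r y ≠ 0) (hWb : ∀ y ∈ W, y ^ (p ^ k) ∈ base F Ω)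
    {w : Ω} (hw : w ∈ W) (m : ℕ) : ∃ g : F, (σ w / w ^ c - algebraMap F Ω g) / C.ϖ ^ m ∈ C.O := by
  have hpk : 0 < p ^ k := pow_pos hp.out.pos k
  set L := IntermediateField.adjoin F W with hL
  haveI hgal : IsGalois F L := galois_adjoin hpk hζ hWb
  have hint : ∀ y ∈ W, IsIntegral F y := by
    intro y hy
    obtain ⟨a, ha⟩ := mem_base.mp (hWb y hy)
    exact ⟨X ^ (p ^ k) - Polynomial.C a, monic_X_pow_sub_C a hpk.ne', by
      rw [← aeval_def, map_sub, map_pow, aeval_X, aeval_C, ha, sub_self]⟩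
  haveI : Finite W := hWfin
  haveI : FiniteDimensional F L := IntermediateField.finiteDimensional_adjoin hint
  have hWL : ∀ y ∈ W, y ∈ L := fun y hy => IntermediateField.subset_adjoin F W hy
  have h1 : ∀ x ∈ L, σ x ∈ L := map_adjoin hσF hW
  have h2 : ∀ x ∈ L, σ.symm x ∈ L := map_adjoin hσF' hW'
  -- the action on radicals
  have hrad : ∀ (τ : L ≃ₐ[F] L) (y : L), (y : Ω) ∈ W → ∃ z : F, z ^ (p ^ k) = 1 ∧
      τ y = algebraMap F L z * y := by
    intro τ y hy
    obtain ⟨a, ha⟩ := mem_base.mp (hWb y hy)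
    have hy0 : y ≠ 0 := by
      rintro rfl
      exact hWr _ hy r_zero
    have hya : y ^ (p ^ k) = algebraMap F L a := Subtype.ext (by
      rw [← show ((algebraMap F L a : L) : Ω) = algebraMap F Ω a from rfl] at ha
      rw [ha]; rfl)
    have h3 : (τ y / y) ^ (p ^ k) = 1 := by
      rw [div_pow, ← map_pow, hya, AlgEquiv.commutes, div_self]
      rw [← hya]
      exact pow_ne_zero _ hy0
    obtain ⟨i, -, hi⟩ := (hζ.map_of_injective (algebraMap F L).injective).eq_pow_of_pow_eq_one h3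
    refine ⟨ζ ^ i, ?_, ?_⟩
    · rw [← pow_mul, mul_comm, pow_mul, hζ.pow_eq_one, one_pow]
    · rw [map_pow, hi, div_mul_cancel₀ _ hy0]
  -- the commutator is trivial on `W`
  have hcomm : ∀ τ : L ≃ₐ[F] L, Pres C L τ → ∀ y : L, (y : Ω) ∈ W →
      comm σ L h1 h2 hσF' τ y = y := by
    intro τ hτ y hy
    have hτm : ∀ x : L, (x : Ω) ∈ C.O → C.r (x : Ω) = 0 → C.r ((τ x : L) : Ω) = 0 := by
      intro x hx hx0
      by_contra h
      have h3 := inv_mem_of_r h
      have hxne : x ≠ 0 := by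
        rintro rfl
        apply h
        rw [map_zero]; exact r_zero
      have hxne' : (x : Ω) ≠ 0 := fun h => hxne (Subtype.ext h)
      have h4 : ((τ x⁻¹ : L) : Ω) ∈ C.O := by
        rw [map_inv₀]; exact h3
      have h5 := (hτ _).mpr h4
      exact (r_ne_zero_iff hxne').mpr ⟨hx, h5⟩ hx0
    have hγ : ∀ x : L, (x : Ω) ∈ C.O → ((comm σ L h1 h2 hσF' τ x : L) : Ω) ∈ C.O ∧
        C.r ((comm σ L h1 h2 hσF' τ x : L) : Ω) = C.r (x : Ω) := by
      intro x hx
      rw [comm_apply']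
      -- `a = τ⁻¹ x`, `b = σ⁻¹ a`
      set a : L := τ.symm x with ha
      have hτa : τ a = x := τ.apply_symm_apply x
      have haO : (a : Ω) ∈ C.O := (hτ a).mpr (by rw [hτa]; exact hx)
      set b : L := (resAut σ L h1 h2).symm a with hb
      have hbv : (b : Ω) = σ.symm (a : Ω) := rfl
      have hbO : (b : Ω) ∈ C.O := hσO' _ haO
      have hbr : C.r (b : Ω) = C.r (a : Ω) := by
        have := (hσO _ hbO).2
        rw [hbv, RingEquiv.apply_symm_apply] at this
        exact this.symm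
      have hτb : ((τ b : L) : Ω) ∈ C.O := (hτ b).mp hbO
      have h3 : C.r ((τ b : L) : Ω) = C.r (x : Ω) := by
        have h4 := hτm (b - a) (sub_mem hbO haO) (by
          have : ((b - a : L) : Ω) = (b : Ω) - (a : Ω) := rfl
          rw [this, r_sub hbO haO, hbr, sub_self])
        rw [map_sub, hτa] at h4
        have : ((τ b - x : L) : Ω) = ((τ b : L) : Ω) - (x : Ω) := rfl
        rw [this, r_sub hτb hx, sub_eq_zero] at h4
        exact h4
      obtain ⟨h5, h6⟩ := hσO _ hτb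
      exact ⟨h5, h6.trans h3⟩
    obtain ⟨z, hz, hzy⟩ := hrad (comm σ L h1 h2 hσF' τ) y hy
    have := fix_radical C hϖ hsep L (comm σ L h1 h2 hσF' τ) hγ (hWr _ hy) hz hzy
    rw [hzy, this, map_one, one_mul]
  -- `σ w / w ^ c` is fixed
  let wL : L := ⟨w, hWL w hw⟩
  let sL : L := ⟨σ w, hWL _ (hW w hw)⟩
  have hw0 : wL ≠ 0 := fun h => hWr w hw (by
    have : w = 0 := congrArg Subtype.val h
    rw [this]; exact r_zero)
  have hfix : ∀ τ : L ≃ₐ[F] L, Pres C L τ → τ (sL / wL ^ c) = sL / wL ^ c := by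
    intro τ hτ
    obtain ⟨z, hz, hzw⟩ := hrad τ wL hw
    obtain ⟨z', hz', hzs⟩ := hrad τ sL (hW w hw)
    have h3 := comm_apply σ L h1 h2 hσF' τ wL
    have e1 : resAut σ L h1 h2 wL = sL := rfl
    obtain ⟨i, -, hi⟩ := hζ.eq_pow_of_pow_eq_one hz
    have hσz : σ (algebraMap F Ω z) = algebraMap F Ω z ^ c := by
      rw [← hi, map_pow, map_pow, hσζ, ← pow_mul, ← pow_mul, mul_comm]
    have e2 : resAut σ L h1 h2 (algebraMap F L z) = algebraMap F L z ^ c := Subtype.ext hσz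
    rw [hzw, e1, hzs, map_mul, map_mul, AlgEquiv.commutes, hcomm τ hτ sL (hW w hw), e1, e2] at h3
    rw [map_div₀, map_pow, hzs, hzw, h3, mul_pow]
    have hz0 : algebraMap F L z ≠ 0 := by
      intro h
      rw [map_eq_zero] at h
      rw [h, zero_pow hpk.ne'] at hz
      exact zero_ne_one hz
    field_simp
  have hyO : ((sL / wL ^ c : L) : Ω) ∈ C.O := by
    have e : ((sL / wL ^ c : L) : Ω) = σ w / w ^ c := rfl
    rw [e, div_eq_mul_inv]
    exact mul_mem (hσO _ (mem_of_r_ne_zero (hWr w hw))).1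
      (inv_mem_of_r (r_pow_ne_zero (hWr w hw) c))
  -- iterate
  have key : ∀ m : ℕ, ∃ g : F, ((sL / wL ^ c - algebraMap F L g : L) : Ω) / C.ϖ ^ m ∈ C.O := by
    intro m
    induction m with
    | zero =>
      refine ⟨0, ?_⟩
      rw [map_zero, sub_zero, pow_zero, div_one]
      exact hyO
    | succ m ih =>
      obtain ⟨g, hg⟩ := ih
      have e1 : ((sL / wL ^ c - algebraMap F L g : L) : Ω) / C.ϖ ^ m =
          (((sL / wL ^ c - algebraMap F L g) / algebraMap F L ϖF ^ m : L) : Ω) := by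
        rw [← hϖ]; rfl
      rw [e1] at hg
      have hfx : ∀ τ : L ≃ₐ[F] L, Pres C L τ →
          τ ((sL / wL ^ c - algebraMap F L g) / algebraMap F L ϖF ^ m) =
            (sL / wL ^ c - algebraMap F L g) / algebraMap F L ϖF ^ m := by
        intro τ hτ
        rw [map_div₀, map_sub, hfix τ hτ, map_pow, AlgEquiv.commutes, AlgEquiv.commutes]
      obtain ⟨_, hb, hbO, hbr⟩ := fixed_res C hϖ hsep L hg hfx
      obtain ⟨b, rfl⟩ := mem_base.mp hb
      have h3 := (r_eq_iff hg hbO).mp hbr.symm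
      refine ⟨g + ϖF ^ m * b, ?_⟩
      have e2 : ((sL / wL ^ c - algebraMap F L (g + ϖF ^ m * b) : L) : Ω) / C.ϖ ^ (m + 1) =
          ((((sL / wL ^ c - algebraMap F L g) / algebraMap F L ϖF ^ m : L) : Ω) -
            algebraMap F Ω b) / C.ϖ := by
        rw [← e1]
        have e3 : ((sL / wL ^ c - algebraMap F L (g + ϖF ^ m * b) : L) : Ω) =
            ((sL / wL ^ c - algebraMap F L g : L) : Ω) - C.ϖ ^ m * algebraMap F Ω b := by
          rw [← hϖ, map_add, map_mul, map_pow, ← sub_sub]; rfl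
        rw [e3]
        have := C.ϖ_ne
        field_simp
        ring
      rw [e2]
      exact h3
  obtain ⟨g, hg⟩ := key m
  exact ⟨g, hg⟩

end Fermat.Agent.MazR
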