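import Fermat.Agent.GoodRed.HeckeNorm

/-!
# Descent of radicals from level `N p` to level `N`
-/

set_option autoImplicit false
set_option linter.unusedSectionVars false
set_option linter.style.haveILetI false
set_option synthInstance.maxHeartbeats 400000

noncomputable section

namespace Fermat.Agent.MazR

open HahnSeries ModularCurve IntermediateField Fermat.Agent.ModFun Fermat.Agent.HeckeQ Module
open Fermat.Agent.GoodRed AlgebraicCurve

theorem trace_eq_sum_of_injective {E L Λ : Type*} [Field E] [Field L] [Field Λ] [Algebra E L]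
    [Algebra E Λ] [CharZero E] [FiniteDimensional E L] {ι : Type*} [Fintype ι]
    (hcard : finrank E L = Fintype.card ι)
    (φ : ι → (L →ₐ[E] Λ)) (hφ : Function.Injective φ) (x : L) :
    algebraMap E Λ (Algebra.trace E L x) = ∑ i, φ i x := by
  classical
  let Ω := AlgebraicClosure Λ
  let j : Λ →ₐ[E] Ω := IsScalarTower.toAlgHom E Λ Ω
  have hj : Function.Injective j := (algebraMap Λ Ω).injective
  let Φ : ι → (L →ₐ[E] Ω) := fun i => j.comp (φ i)
  have hΦ : Function.Injective Φ := by
    intro a b hab
    apply hφ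
    apply AlgHom.ext
    intro y
    exact hj (DFunLike.congr_fun hab y)
  have hbij : Function.Bijective Φ := by
    rw [Fintype.bijective_iff_injective_and_card]
    exact ⟨hΦ, by rw [AlgHom.card, hcard]⟩
  apply hj
  have h1 := trace_eq_sum_embeddings (K := E) (L := L) Ω (x := x)
  have h2 : j (algebraMap E Λ (Algebra.trace E L x)) = algebraMap E Ω (Algebra.trace E L x) :=
    j.commutes _
  rw [h2, h1, map_sum]
  exact (Fintype.sum_bijective Φ hbij _ _ fun i => rfl).symm

theorem trace_aux {F L Λ ι : Type*} [Field F] [Field L] [Field Λ] [Fintype ι] [CharZero F]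
    (α : F →+* L)
    (hcard : letI := α.toAlgebra; finrank F L = Fintype.card ι) (hpos : Fintype.card ι ≠ 0)
    (ρ : F →+* Λ) (φ : ι → (L →+* Λ)) (hφα : ∀ i x, φ i (α x) = ρ x)
    (hφ : Function.Injective φ) (x : L) :
    ρ (letI := α.toAlgebra; Algebra.trace F L x) = ∑ i, φ i x := by
  letI := α.toAlgebra
  letI := ρ.toAlgebra
  haveI : FiniteDimensional F L := FiniteDimensional.of_finrank_pos (by
    rw [hcard]; exact Nat.pos_of_ne_zero hpos)
  let φ' : ι → (L →ₐ[F] Λ) := fun i => { φ i with commutes' := hφα i }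
  have hφ' : Function.Injective φ' := by
    intro a b hab
    apply hφ
    ext y
    exact DFunLike.congr_fun hab y
  exact trace_eq_sum_of_injective hcard φ' hφ' x

variable {k : Type*} [Field k] [IsAlgClosed k] [CharZero k]

theorem root_laurent {n : ℕ} (hn : 0 < n) {x : LaurentSeries k} (hx : x ^ n = 1) :
    ∃ ζ : k, ζ ^ n = 1 ∧ x = HahnSeries.C ζ := by
  haveI : NeZero n := ⟨hn.ne'⟩
  haveI : NeZero (n : k) := ⟨by exact_mod_cast hn.ne'⟩
  obtain ⟨z, hz⟩ := HasEnoughRootsOfUnity.exists_primitiveRoot k n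
  have hz' := hz.map_of_injective (f := (HahnSeries.C : k →+* LaurentSeries k))
    HahnSeries.C_injective
  obtain ⟨i, -, hi⟩ := hz'.eq_pow_of_pow_eq_one hx
  exact ⟨z ^ i, by rw [← pow_mul, mul_comm, pow_mul, hz.pow_eq_one, one_pow], by
    rw [map_pow]; exact hi.symm⟩

/-- **Descent of radicals.** -/
theorem descend (p N : ℕ) [hp : Fact p.Prime] [NeZero N] (hpN : ¬ p ∣ N) {n : ℕ} (hn : 0 < n)
    {z : LaurentSeries k} (hz : z ∈ modularFunctionFieldFullC k (N * p))
    (hzn : z ^ n ∈ modularFunctionFieldFullC k N) : z ∈ modularFunctionFieldFullC k N := by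
  rcases eq_or_ne z 0 with rfl | hz0
  · exact zero_mem _
  haveI : CharZero (modularFunctionFieldFullC k N) :=
    charZero_of_injective_algebraMap (algebraMap k (modularFunctionFieldFullC k N)).injective
  haveI : NeZero (N * p) := ⟨Nat.mul_ne_zero (NeZero.ne N) hp.out.ne_zero⟩
  have hNp : N * p ≠ 0 := NeZero.ne _
  have hNpk : ((N * p : ℕ) : k) ≠ 0 := by exact_mod_cast hNp
  obtain ⟨w, hw1, hw2⟩ := exists_AL (k := k) p N hpN
  have hle : modularFunctionFieldFullC k N ≤ modularFunctionFieldFullC k (N * p) :=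
    full_degeneracyC_le (K := k) (dvd_mul_right N p)
  let α : modularFunctionFieldFullC k N →ₐ[k] modularFunctionFieldFullC k (N * p) :=
    IntermediateField.inclusion hle
  have hα : ∀ x, (α x : LaurentSeries k) = x := fun x => rfl
  have hdeg : (letI := algebraAlong α; finrank (modularFunctionFieldFullC k N)
      (modularFunctionFieldFullC k (N * p))) = p + 1 := by
    have h1 := finrank_incl hle α hα
    rw [h1]
    have := relfinrank_full (k := k) (N := N) (p := p) hp.out hpN
      (by rw [mul_comm]; exact hNpk)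
    rwa [mul_comm p N] at this
  let ρ : modularFunctionFieldFullC k N →+* LaurentSeries k :=
    (qExpand k p).comp (algebraMap (modularFunctionFieldFullC k N) (LaurentSeries k))
  let φ : Option (rootsOfUnity p k) → (modularFunctionFieldFullC k (N * p) →+* LaurentSeries k) :=
    fun o => match o with
      | none => (qExpand k p).comp (algebraMap (modularFunctionFieldFullC k (N * p))
          (LaurentSeries k))
      | some ξ => (twist (ξ : kˣ)).comp w
  have hcoe : ∀ x : modularFunctionFieldFullC k N, α x = ⟨x, hle x.2⟩ := fun x =>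
    Subtype.ext (hα x)
  have hφα : ∀ i x, φ i (α x) = ρ x := by
    intro i x
    cases i with
    | none =>
      change qExpand k p ((α x : _) : LaurentSeries k) = qExpand k p (x : LaurentSeries k)
      rw [hα]
    | some ξ =>
      change twist (ξ : kˣ) (w (α x)) = qExpand k p (x : LaurentSeries k)
      rw [hcoe, hw1 x x.2]
      exact twist_qExpand _ p ((mem_rootsOfUnity p _).1 ξ.2) _
  have hbJ : qExpand k p (Jd k 1) ∈ modularFunctionFieldFullC k (N * p) := by
    rw [qExpand_Jd, mul_one]
    exact Jd_mem k hNp (dvd_mul_left p N)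
  let bJ : modularFunctionFieldFullC k (N * p) := ⟨qExpand k p (Jd k 1), hbJ⟩
  have hwβ : w bJ = Jd k 1 := hw2 _ (Jd_mem k (NeZero.ne N) (one_dvd N)) hbJ
  have hφ : Function.Injective φ := by
    have h0 : (φ none bJ).coeff (-1) = 0 := by
      change (qExpand k p (qExpand k p (Jd k 1))).coeff (-1) = 0
      apply qExpand_coeff_of_not_dvd
      rw [dvd_neg]
      intro h
      have h2 := Int.natCast_dvd_natCast.1 (by simpa using h : ((p : ℕ) : ℤ) ∣ ((1 : ℕ) : ℤ))
      exact hp.out.one_lt.ne' (Nat.dvd_one.1 h2)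
    have h1 : ∀ ξ : rootsOfUnity p k, (φ (some ξ) bJ).coeff (-1) =
        (((ξ : kˣ) ^ (-1 : ℤ) : kˣ) : k) := by
      intro ξ
      change (twist (ξ : kˣ) (w bJ)).coeff (-1) = _
      rw [hwβ, twist_coeff]
      rw [Jd_coeff_neg_one, mul_one]
    intro a b hab
    have h2 := congrArg (fun F => HahnSeries.coeff (F bJ) (-1)) hab
    cases a with
    | none =>
      cases b with
      | none => rfl
      | some ξ =>
        exfalso
        rw [h0, h1] at h2
        exact (Units.ne_zero _) h2.symm
    | some ξ =>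
      cases b with
      | none =>
        exfalso
        rw [h0, h1] at h2
        exact (Units.ne_zero _) h2
      | some ξ' =>
        rw [h1, h1] at h2
        have h3 := Units.ext h2
        rw [zpow_neg_one, zpow_neg_one] at h3
        rw [Subtype.ext (inv_injective h3)]
  have hcard : (letI := algebraAlong α; finrank (modularFunctionFieldFullC k N)
      (modularFunctionFieldFullC k (N * p))) = Fintype.card (Option (rootsOfUnity p k)) := by
    rw [hdeg, Fintype.card_option, card_roots]
  have key := trace_aux α.toRingHom hcard (by rw [Fintype.card_option]; omega) ρ φ hφα hφ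
    (⟨z, hz⟩ : modularFunctionFieldFullC k (N * p))
  rw [Fintype.sum_option] at key
  -- the value of `w`
  obtain ⟨ζ, hζ, hwz⟩ : ∃ ζ : k, ζ ^ n = 1 ∧ w ⟨z, hz⟩ = HahnSeries.C ζ * qExpand k p z := by
    have hVz : qExpand k p z ≠ 0 := by
      intro h
      exact hz0 (qExpand_inj p (by rw [h, map_zero]))
    have h1 : w ⟨z, hz⟩ ^ n = (qExpand k p z) ^ n := by
      rw [← map_pow, ← map_pow]
      exact hw1 (z ^ n) hzn (pow_mem hz n)
    obtain ⟨ζ, hζ, h2⟩ := root_laurent (k := k) hn (x := w ⟨z, hz⟩ / qExpand k p z) (by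
      rw [div_pow, h1, div_self (pow_ne_zero _ hVz)])
    exact ⟨ζ, hζ, by rw [← h2, div_mul_cancel₀ _ hVz]⟩
  have hsum : ∀ ξ : rootsOfUnity p k, φ (some ξ) ⟨z, hz⟩ = HahnSeries.C ζ * qExpand k p z := by
    intro ξ
    change twist (ξ : kˣ) (w ⟨z, hz⟩) = _
    rw [hwz, map_mul, twist_qExpand _ p ((mem_rootsOfUnity p _).1 ξ.2)]
    congr 1
    rw [HahnSeries.C_apply]
    ext m
    rw [twist_coeff, HahnSeries.coeff_single]
    split_ifs with hm
    · rw [hm, zpow_zero, Units.val_one, one_mul]
    · rw [mul_zero]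
  rw [Finset.sum_congr rfl fun ξ _ => hsum ξ, Finset.sum_const, Finset.card_univ, card_roots] at key
  have hnone : φ none ⟨z, hz⟩ = qExpand k p z := rfl
  set t : modularFunctionFieldFullC k N := (letI := α.toRingHom.toAlgebra;
    Algebra.trace (modularFunctionFieldFullC k N) (modularFunctionFieldFullC k (N * p)) ⟨z, hz⟩)
    with ht
  have hkey : qExpand k p (t : LaurentSeries k) = qExpand k p (HahnSeries.C (1 + p * ζ) * z) := by
    refine Eq.trans key ?_
    rw [hnone, map_mul, qExpand_C, map_add, map_one, map_mul, map_natCast, nsmul_eq_mul]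
    ring
  have hkey' := qExpand_inj p hkey
  have hc : (1 + p * ζ : k) ≠ 0 := by
    intro h0
    have h1 : (p * ζ : k) = -1 := by linear_combination h0
    have h2 : (p : k) ^ n = (-1) ^ n := by
      rw [← h1, mul_pow, hζ, mul_one]
    have h3 : (p : ℤ) ^ n = (-1) ^ n := by
      have : ((p : ℤ) : k) ^ n = ((-1 : ℤ) : k) ^ n := by push_cast; exact h2
      exact_mod_cast this
    have h4 : (1 : ℤ) < (p : ℤ) ^ n := one_lt_pow₀ (by exact_mod_cast hp.out.one_lt) hn.ne'
    rcases neg_one_pow_eq_or ℤ n with h5 | h5 <;> omega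
  have hz' : z = HahnSeries.C (1 + p * ζ)⁻¹ * (t : LaurentSeries k) := by
    rw [hkey', ← mul_assoc, ← map_mul, inv_mul_cancel₀ hc, map_one, one_mul]
  rw [hz', ModFun.C_eq_algebraMap]
  exact mul_mem (IntermediateField.algebraMap_mem _ _) t.2

end Fermat.Agent.MazR
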