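import Fermat.Agent.MazR.Rep2
import Fermat.Agent.MazR.DecS

/-!
# Rigidity at level `M`
-/

set_option autoImplicit false
set_option linter.unusedSectionVars false
set_option linter.style.haveILetI false
set_option synthInstance.maxHeartbeats 400000

noncomputable section

namespace Fermat.Agent.MazR

open Polynomial AlgebraicCurve Fermat.Agent.Curves Module IntermediateField ModularCurve
open Fermat.Agent.GoodRed Fermat.Agent.TorLift Fermat.Agent.Models Fermat.Agent.SSMod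
open Fermat.Agent.AtP Fermat.Agent.HeckeQ Fermat.Agent.ModFun IsLocalRing Fermat.Agent.Maz

local notation "ℒ" => LaurentSeries
local notation "Qbar" => AlgebraicClosure ℚ
local notation "GQ" => Qbar ≃ₐ[ℚ] Qbar

section Main

variable {K κ : Type} [Field K] [Field κ] {A : ValuationSubring K} {π : A →+* κ} {N : ℕ}
  [IsLocalHom π] [IsAlgClosed K] [IsAlgClosed κ]
  {hπ : Function.Surjective π} {hNK : (N : K) ≠ 0} {hNκ : (N : κ) ≠ 0}
  [IsFunctionField K (modularFunctionFieldFullC K N)]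
  [IsFunctionField κ (modularFunctionFieldFullC κ N)]

/-- charts at infinity exist, both surjective -/
theorem exists_atInf' (h : HasInf π N) : ∃ (T : modularFunctionFieldFullC K N)
    (𝔭 : Place κ (modularFunctionFieldFullC κ N)), AtInf hπ hNK hNκ T 𝔭 ∧
      Surj (one (cGood π N hπ hNK hNκ)) T⁻¹ := by
  obtain ⟨_, _, _, t, tb, T, hT, ht, htb, h1, h2⟩ := h
  have h2c : Chart (modGauss π N hπ hNK hNκ) t⁻¹ tb⁻¹ :=
    ⟨h2.R, h2.tr, h2.trb, h2.sep, h2.sepb, h2.finrank_eq⟩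
  have hr2 := cGood_r_eq π N (hπ := hπ) (hNK := hNK) (hNκ := hNκ) ((modGauss_R π N).1 h2.R)
  have htbn : (tb : ℒ κ) ∉ nn κ := by
    intro hn
    have h3 := mem_nn.mp hn (-1) (by norm_num)
    rw [htb, (inv_T (E := κ) hT).2] at h3
    exact one_ne_zero h3
  obtain ⟨𝔭, h𝔭⟩ := exists_infPlace htbn
  refine ⟨t⁻¹, 𝔭, ⟨isGood_of_chart π N h2c, surj_of_chart π N h2, ?_, ?_, h𝔭⟩, ?_⟩
  · have e : ((t⁻¹ : modularFunctionFieldFullC K N) : ℒ K) = (t : ℒ K)⁻¹ := rfl
    rw [e, ht]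
    exact inv_Ld_PA hT
  · rw [hr2.2, h𝔭]
    have e : ((tb⁻¹ : modularFunctionFieldFullC κ N) : ℒ κ) = (tb : ℒ κ)⁻¹ := rfl
    rw [e, htb]
    exact (inv_Ld_nn (inv_T (E := κ) hT)).1
  · rw [inv_inv]
    exact surj_of_chart π N h1

variable {T : modularFunctionFieldFullC K N} {𝔭 : Place κ (modularFunctionFieldFullC κ N)}

theorem nearGen_of (hr : RankOne π) {t : modularFunctionFieldFullC K N}
    (ht : IsGood (one (cGood π N hπ hNK hNκ)) t)
    (hS : Surj (one (cGood π N hπ hNK hNκ)) t) {n : ℕ} (hn : (n : K) ≠ 0) {c : K} (hcA : c ∈ A)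
    (hc : c ≠ 0) (hc0 : π ⟨c, hcA⟩ = 0) {u : modularFunctionFieldFullC K N}
    (hu : Near (cGood π N hπ hNK hNκ) ((n : K) * c) u)
    {d : Divisor K (modularFunctionFieldFullC K N)}
    (hD : ∀ P : Place K (modularFunctionFieldFullC K N), P.ord u = n * d P)
    (M : Ideal (chart (one (cGood π N hπ hNK hNκ)) t)) (hM : IsPoint t M) :
    NearGen (one (cGood π N hπ hNK hNκ)) t d c M := by
  have hB := baseRes_rankOne π hπ hr
  obtain ⟨i, Q, hQ⟩ := exists_spec hB (incomp_one _) ht hS hM.isMaximal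
    fun a ha har => hM.small_mem ha har
  obtain ⟨x, hx0, hx1, hx2⟩ := local_gen_smooth hB (incomp_one _) ht hS hQ
    (fun j hj => absurd (Subsingleton.elim j i) hj) hn (c := c) hcA hc (by
      rw [baseRes_r π hπ hcA]; exact hc0) hu hD
  exact ⟨x, hx0, hx1, fun _ _ => hx2⟩

/-- **Rigidity** for good reduction -/
theorem rigid_F [CharZero K] (hr : RankOne π) (D : AtInf hπ hNK hNκ T 𝔭)
    (hS' : Surj (one (cGood π N hπ hNK hNκ)) T⁻¹) {n : ℕ} (hn : n ≠ 0) {a0 : A} (ha0 : a0 ≠ 0)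
    (ha0π : π a0 = 0) {u : modularFunctionFieldFullC K N}
    (hu : Near (cGood π N hπ hNK hNκ) ((n : K) ^ 2 * a0) u)
    (hdvd : ∀ P : Place K (modularFunctionFieldFullC K N), (n : ℤ) ∣ P.ord u) :
    ∃ f : modularFunctionFieldFullC K N, u = f ^ n := by
  obtain ⟨d, hd⟩ := exists_div hdvd
  have hB := baseRes_rankOne π hπ hr
  have hnK : (n : K) ≠ 0 := Nat.cast_ne_zero.mpr hn
  have ha0K : (a0 : K) ≠ 0 := fun h => ha0 (Subtype.ext h)
  have hnA : (n : K) * a0 ∈ A := mul_mem (natCast_mem A n) a0.2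
  have hna0 : π ⟨(n : K) * a0, hnA⟩ = 0 := by
    have : (⟨(n : K) * a0, hnA⟩ : A) = (n : A) * a0 := Subtype.ext (by push_cast; rfl)
    rw [this, map_mul, ha0π, mul_zero]
  have hu' : Near (cGood π N hπ hNK hNκ) ((n : K) * ((n : K) * a0)) u := by
    rw [← mul_assoc, ← sq]; exact hu
  exact rigid (C := one (cGood π N hπ hNK hNκ)) hB (incomp_one _) D.good D.surj hS' hn
    (a := (a0 : K)) a0.2 (by rw [baseRes_r π hπ a0.2]; exact ha0π) ha0K (fun _ => hu) hd
    (fun M hM => nearGen_of hr D.good D.surj hnK hnA (mul_ne_zero hnK ha0K) hna0 hu' hd M hM)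
    (fun M hM => nearGen_of hr D.good.inv hS' hnK hnA (mul_ne_zero hnK ha0K) hna0 hu' hd M hM)

end Main

section Near

variable {K κ : Type*} [Field K] [Field κ] {A : ValuationSubring K} {π : A →+* κ}

theorem LR_one_add_pow {α : K} {X : ℒ K} {y : ℒ κ} (hα : α ≠ 0)
    (hX : LR π X y) (hα' : ∃ z, LR π (HahnSeries.C α : ℒ K) z) (n : ℕ) :
    ∃ z, LR π (HahnSeries.C α⁻¹ * ((1 + HahnSeries.C α * X) ^ n - 1)) z := by
  obtain ⟨a, ha⟩ := hα'
  have hC : (HahnSeries.C α⁻¹ : ℒ K) * HahnSeries.C α = 1 := by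
    rw [← map_mul, inv_mul_cancel₀ hα, map_one]
  induction n with
  | zero => exact ⟨0, by rw [pow_zero, sub_self, mul_zero]; exact LR.zero π⟩
  | succ n ih =>
    obtain ⟨z, hz⟩ := ih
    refine ⟨(1 + a * y) * z + y, ?_⟩
    have e : HahnSeries.C α⁻¹ * ((1 + HahnSeries.C α * X) ^ (n + 1) - 1) =
        (1 + HahnSeries.C α * X) * (HahnSeries.C α⁻¹ * ((1 + HahnSeries.C α * X) ^ n - 1)) + X := by
      have : (1 + HahnSeries.C α * X) ^ (n + 1) = (1 + HahnSeries.C α * X) ^ n *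
        (1 + HahnSeries.C α * X) := pow_succ _ _
      rw [this]
      linear_combination X * hC
    rw [e]
    exact (((LR.one π).add (ha.mul hX)).mul hz).add hX

end Near

end Fermat.Agent.MazR
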