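import Fermat.Agent.MazR.PA3
import Fermat.Agent.TorLift.ModInst
import Fermat.Agent.GoodRed.HauptGood

/-!
# Charts at infinity
-/

set_option autoImplicit false
set_option linter.unusedSectionVars false
set_option linter.style.haveILetI false
set_option synthInstance.maxHeartbeats 400000

noncomputable section

namespace Fermat.Agent.MazR

open Polynomial AlgebraicCurve Fermat.Agent.Curves Module IntermediateField ModularCurve
open Fermat.Agent.GoodRed Fermat.Agent.TorLift Fermat.Agent.Models Fermat.Agent.SSMod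
open Fermat.Agent.GenusX0 (je transcendental_je)

local notation "ℒ" => LaurentSeries

section Has

variable {K κ : Type} [Field K] [Field κ] {A : ValuationSubring K} (π : A →+* κ) (N : ℕ)
  [IsLocalHom π] [IsAlgClosed K] [IsAlgClosed κ]

/-- good charts with a simple pole at infinity -/
def HasInf : Prop :=
  ∃ (hπ : Function.Surjective π) (hNK : (N : K) ≠ 0) (hNκ : (N : κ) ≠ 0)
    (t : modularFunctionFieldFullC K N) (tb : modularFunctionFieldFullC κ N) (T : ℒ ℤ),
    Ld (-1) T 1 ∧ (t : ℒ K) = coeffMap (Int.castRingHom K) T ∧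
    (tb : ℒ κ) = coeffMap (Int.castRingHom κ) T ∧
    haveI := isFunctionField_fullC K N hNK
    haveI := isFunctionField_fullC κ N hNκ
    GoodChart (modGauss π N hπ hNK hNκ) t tb ∧ GoodChart (modGauss π N hπ hNK hNκ) t⁻¹ tb⁻¹

theorem hasInf_of_six [CharZero K] (ι : K →+* ℂ) (h6 : (6 : κ) ≠ 0)
    (hπ : Function.Surjective π) (hNK : (N : K) ≠ 0) (hNκ : (N : κ) ≠ 0) : HasInf π N := by
  refine ⟨hπ, hNK, hNκ, je K N, je κ N, jqModC ℤ, ⟨?_, ?_⟩, ?_, ?_, modGoodChart π N ι h6 hπ hNK hNκ⟩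
  · intro m hm
    exact coeff_jqModC_of_lt ℤ hm
  · exact coeff_jqModC_neg_one ℤ
  · show jqModC K = _
    rw [coeffMap_jqModC]
  · show jqModC κ = _
    rw [coeffMap_jqModC]

variable {p : ℕ} [NeZero p] (h : Haup p)

include h in
theorem hasInf_of_haup [CharZero K] (ι : K →+* ℂ) (hπ : Function.Surjective π) (hNK : (N : K) ≠ 0)
    (hNκ : (N : κ) ≠ 0) (hp : (p : K) ≠ 0) (hpκ : (p : κ) ≠ 0) (hpN : p ∣ N) : HasInf π N := by
  haveI := isFunctionField_fullC K N hNK
  haveI := isFunctionField_fullC κ N hNκ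
  haveI : NeZero N := ⟨by rintro rfl; simp at hNK⟩
  have hC := hauptChart π N h hπ hNK hNκ hp hpκ hpN
  have hb : π ((h.b : ℤ) : A) ≠ 0 := by
    rw [map_intCast]
    exact h.b_ne κ hpκ
  have hbK : (((h.b : ℤ) : A) : K) = h.b := by simp
  refine ⟨hπ, hNK, hNκ, _, _, h.T, h.ld, rfl, rfl, hC.good hπ ((h.b : ℤ) : A) hb (3 + N) ?_ ?_ ?_,
    hC.good_inv hπ ((h.b : ℤ) : A) hb (3 + N) ?_ ?_ ?_⟩
  · intro w
    have := h.ord_le N hp hpN ι w
    push_cast
    omega
  · intro w
    rw [hbK]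
    have := h.ord_sub_le N hp hpN ι w (h.b_ne K hp)
    push_cast
    omega
  · intro w c h0 h1
    rw [hbK] at h1
    exact h.ord_sub_le_one N hp hpN ι w h0 h1
  · intro w
    have := h.neg_ord_le N hp hpN ι w
    push_cast
    omega
  · intro w
    rw [hbK]
    have := h.ord_sub_le N hp hpN ι w (h.b_ne K hp)
    push_cast
    omega
  · intro w c h0 h1
    rw [hbK] at h1
    exact h.ord_sub_le_one N hp hpN ι w h0 h1

end Has

section Int

variable {K κ : Type*} [Field K] [Field κ] {A : ValuationSubring K} {π : A →+* κ}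

theorem exists_relation {R S : Type*} [CommRing R] [CommRing S] [Algebra R S] {x : S}
    (h : IsIntegral R x) : ∃ (m : ℕ) (b : ℕ → R),
      x ^ m + ∑ i ∈ Finset.range m, algebraMap R S (b i) * x ^ i = 0 := by
  obtain ⟨P, hPm, hP⟩ := h
  refine ⟨P.natDegree, fun i => P.coeff i, ?_⟩
  rw [hPm.as_sum, eval₂_add, eval₂_X_pow, eval₂_finsetSum] at hP
  rw [← hP]
  congr 1
  exact Finset.sum_congr rfl fun i _ => by rw [eval₂_mul, eval₂_C, eval₂_X_pow]

theorem isIntegral_of_relation {R S : Type*} [CommRing R] [CommRing S] [Algebra R S] {x : S}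
    {m : ℕ} {b : ℕ → R} (h : x ^ m + ∑ i ∈ Finset.range m, algebraMap R S (b i) * x ^ i = 0) :
    IsIntegral R x := by
  rcases subsingleton_or_nontrivial R with hR | hR
  · haveI := RingHom.codomain_trivial (algebraMap R S)
    exact ⟨1, monic_one, Subsingleton.elim _ _⟩
  refine ⟨X ^ m + ∑ i ∈ Finset.range m, C (b i) * X ^ i, ?_, ?_⟩
  · refine monic_X_pow_add ?_
    rw [← mem_degreeLT]
    refine Submodule.sum_mem _ fun i hi => ?_
    rw [mem_degreeLT]
    exact lt_of_le_of_lt (degree_C_mul_X_pow_le _ _) (by exact_mod_cast Finset.mem_range.mp hi)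
  · rw [eval₂_add, eval₂_X_pow, eval₂_finsetSum, ← h]
    congr 1
    exact Finset.sum_congr rfl fun i _ => by rw [eval₂_mul, eval₂_C, eval₂_X_pow]

theorem nn_or_inv (y : ℒ K) : y ∈ nn K ∨ y⁻¹ ∈ nn K := by
  rcases eq_or_ne y 0 with rfl | hy
  · exact Or.inl (zero_mem _)
  set e := y.order with he
  have hcoeff : ∀ (n : ℤ), (HahnSeries.single (-e) (1 : K) * y).coeff n = y.coeff (n + e) := by
    intro n
    have := HahnSeries.coeff_single_mul_add (r := (1 : K)) (x := y) (a := n + e) (b := -e)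
    rw [add_neg_cancel_right, one_mul] at this
    exact this
  have h1 : HahnSeries.single (-e) (1 : K) * y ∈ nn K := by
    rw [mem_nn]
    intro n hn
    rw [hcoeff]
    exact HahnSeries.coeff_eq_zero_of_lt_order (by omega)
  have h2 : (HahnSeries.single (-e) (1 : K) * y)⁻¹ ∈ nn K := by
    refine inv_mem_nn h1 ?_
    rw [hcoeff, zero_add, Ne, he, HahnSeries.coeff_order_eq_zero]
    exact hy
  have hs : ∀ a : ℤ, 0 ≤ a → (HahnSeries.single a (1 : K) : ℒ K) ∈ nn K := by
    intro a ha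
    rw [mem_nn]
    intro n hn
    exact HahnSeries.coeff_single_of_ne (by omega)
  have hss : (HahnSeries.single e (1 : K) : ℒ K) * HahnSeries.single (-e) (1 : K) = 1 := by
    rw [HahnSeries.single_mul_single, add_neg_cancel, mul_one]; rfl
  rcases le_or_gt 0 e with h | h
  · left
    have := mul_mem (hs e h) h1
    rwa [← mul_assoc, hss, one_mul] at this
  · right
    have := mul_mem (hs (-e) (by omega)) h2
    rw [mul_inv] at this
    have e1 : (HahnSeries.single (-e) (1 : K) : ℒ K) * ((HahnSeries.single (-e) (1 : K))⁻¹ * y⁻¹) =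
        y⁻¹ := by
      rw [← mul_assoc, mul_inv_cancel₀ (by simp), one_mul]
    rwa [e1] at this

theorem nn_of_relation {y : ℒ K} {m : ℕ} {b : ℕ → ℒ K} (hb : ∀ i, b i ∈ nn K)
    (h : y ^ m + ∑ i ∈ Finset.range m, b i * y ^ i = 0) : y ∈ nn K := by
  rcases nn_or_inv y with h1 | h1
  · exact h1
  rcases eq_or_ne y 0 with rfl | hy
  · exact zero_mem _
  rcases Nat.eq_zero_or_pos m with rfl | hm
  · simp at h
  have h2 : y = -∑ i ∈ Finset.range m, b i * (y⁻¹) ^ (m - 1 - i) := by
    have h3 : y ^ m = -∑ i ∈ Finset.range m, b i * y ^ i := eq_neg_of_add_eq_zero_left h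
    have h4 : y = y ^ m * (y⁻¹) ^ (m - 1) := by
      obtain ⟨m', rfl⟩ : ∃ m', m = m' + 1 := ⟨m - 1, by omega⟩
      rw [Nat.add_sub_cancel, pow_succ, mul_right_comm, ← mul_pow, mul_inv_cancel₀ hy, one_pow,
        one_mul]
    refine h4.trans ?_
    rw [h3, neg_mul, Finset.sum_mul]
    congr 1
    refine Finset.sum_congr rfl fun i hi => ?_
    have hi' := Finset.mem_range.mp hi
    have h5 : (y⁻¹) ^ (m - 1) = (y⁻¹) ^ i * (y⁻¹) ^ (m - 1 - i) := by
      rw [← pow_add]; congr 1; omega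
    rw [h5, mul_assoc, ← mul_assoc (y ^ i), ← mul_pow, mul_inv_cancel₀ hy, one_pow, one_mul]
  rw [h2]
  exact neg_mem (sum_mem fun i _ => mul_mem (hb i) (pow_mem h1 _))

variable (A) in
/-- bounded power series -/
def PK : Subring (ℒ K) where
  carrier := {x | ∃ c : A, c ≠ 0 ∧ HahnSeries.C (c : K) * x ∈ PA A}
  mul_mem' := by
    rintro x y ⟨c, hc, hx⟩ ⟨d, hd, hy⟩
    refine ⟨c * d, mul_ne_zero hc hd, ?_⟩
    have e : HahnSeries.C ((c * d : A) : K) * (x * y) =
        (HahnSeries.C (c : K) * x) * (HahnSeries.C (d : K) * y) := by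
      rw [show ((c * d : A) : K) = (c : K) * d from rfl, map_mul]; ring
    rw [e]
    exact mul_mem hx hy
  one_mem' := ⟨1, one_ne_zero, by
    rw [mul_one]; exact C_mem_PA (1 : A).2⟩
  add_mem' := by
    rintro x y ⟨c, hc, hx⟩ ⟨d, hd, hy⟩
    refine ⟨c * d, mul_ne_zero hc hd, ?_⟩
    have e : HahnSeries.C ((c * d : A) : K) * (x + y) =
        HahnSeries.C (d : K) * (HahnSeries.C (c : K) * x) +
          HahnSeries.C (c : K) * (HahnSeries.C (d : K) * y) := by
      rw [show ((c * d : A) : K) = (c : K) * d from rfl, map_mul]; ring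
    rw [e]
    exact add_mem (mul_mem (C_mem_PA d.2) hx) (mul_mem (C_mem_PA c.2) hy)
  zero_mem' := ⟨1, one_ne_zero, by rw [mul_zero]; exact zero_mem _⟩
  neg_mem' := by
    rintro x ⟨c, hc, hx⟩
    exact ⟨c, hc, by rw [mul_neg]; exact neg_mem hx⟩

theorem PA_le_PK : PA A ≤ PK A := fun x hx => ⟨1, one_ne_zero, by
  rw [show ((1 : A) : K) = 1 from rfl, map_one, one_mul]; exact hx⟩

theorem C_mem_PK (c : K) : (HahnSeries.C c : ℒ K) ∈ PK A := by
  obtain ⟨a, b, hb, rfl⟩ := IsFractionRing.div_surjective (A := A) c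
  have hb0 := nonZeroDivisors.ne_zero hb
  refine ⟨b, hb0, ?_⟩
  have hbK : (b : K) ≠ 0 := fun h => hb0 (Subtype.ext h)
  have e : (b : K) * ((algebraMap A K a) / (algebraMap A K b)) = a := by
    show (b : K) * ((a : K) / (b : K)) = a
    field_simp
  rw [← map_mul, e]
  exact C_mem_PA a.2

theorem PK_le_nn : PK A ≤ nn K := by
  rintro x ⟨c, hc, hx⟩
  have hcK : (c : K) ≠ 0 := fun h => hc (Subtype.ext h)
  have e : x = HahnSeries.C (c : K)⁻¹ * (HahnSeries.C (c : K) * x) := by
    rw [← mul_assoc, ← map_mul, inv_mul_cancel₀ hcK, map_one, one_mul]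
  rw [e]
  exact mul_mem (C_mem_nn _) (PA_le_nn hx)

/-- integral over bounded power series, and a fraction, implies bounded -/
theorem PK_of_relation [IsLocalHom π] (hr : RankOne π) {x : ℒ K} {f g : ℒ A}
    (hg : g ≠ 0) (hfg : coeffMap A.subtype g * x = coeffMap A.subtype f)
    {m : ℕ} {b : ℕ → ℒ K} (hb : ∀ i, b i ∈ PK A)
    (h : x ^ m + ∑ i ∈ Finset.range m, b i * x ^ i = 0) : x ∈ PK A := by
  classical
  have hx : x ∈ nn K := nn_of_relation (fun i => PK_le_nn (hb i)) h
  choose c hc hcb using hb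
  -- common denominator
  set d : A := ∏ i ∈ Finset.range m, c i with hd
  have hd0 : d ≠ 0 := Finset.prod_ne_zero_iff.mpr fun i _ => hc i
  have hdb : ∀ i ∈ Finset.range m, HahnSeries.C (d : K) * b i ∈ PA A := by
    intro i hi
    have e : (d : K) = ((∏ j ∈ (Finset.range m).erase i, c j : A) : K) * (c i : K) := by
      rw [hd, ← Finset.prod_erase_mul _ _ hi]; rfl
    rw [e, map_mul, mul_assoc]
    exact mul_mem (C_mem_PA (SetLike.coe_mem _)) (hcb i)
  refine ⟨d, hd0, ?_⟩
  have hx' : HahnSeries.C (d : K) * x ∈ nn K := mul_mem (C_mem_nn _) hx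
  refine cic_frac hr (f := HahnSeries.C d * f) hx' hg ?_ ?_
  · have hC : coeffMap A.subtype (HahnSeries.C d) = HahnSeries.C (d : K) := by
      rw [HahnSeries.C_apply, HahnSeries.C_apply, coeffMap_single]; rfl
    rw [map_mul, hC, ← hfg]; ring
  · -- relation
    have hPA : ∀ i, i < m → HahnSeries.C (d : K) ^ (m - i) * b i ∈ PA A := by
      intro i hi
      obtain ⟨k, hk⟩ : ∃ k, m - i = k + 1 := ⟨m - i - 1, by omega⟩
      rw [hk, pow_succ, mul_assoc]
      exact mul_mem (pow_mem (C_mem_PA d.2) _) (hdb i (Finset.mem_range.mpr hi))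
    let b' : ℕ → PA A := fun i => if hi : i < m then ⟨_, hPA i hi⟩ else 0
    refine isIntegral_of_relation (m := m) (b := b') ?_
    have e1 : (HahnSeries.C (d : K) * x) ^ m +
        ∑ i ∈ Finset.range m, algebraMap (PA A) (ℒ K) (b' i) * (HahnSeries.C (d : K) * x) ^ i =
        HahnSeries.C (d : K) ^ m * (x ^ m + ∑ i ∈ Finset.range m, b i * x ^ i) := by
      rw [mul_add, mul_pow, Finset.mul_sum]
      congr 1
      refine Finset.sum_congr rfl fun i hi => ?_
      have hi' := Finset.mem_range.mp hi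
      have e2 : algebraMap (PA A) (ℒ K) (b' i) = HahnSeries.C (d : K) ^ (m - i) * b i := by
        simp only [b', dif_pos hi']; rfl
      have e3 : (HahnSeries.C (d : K) : ℒ K) ^ m = HahnSeries.C (d : K) ^ (m - i) *
          HahnSeries.C (d : K) ^ i := by rw [← pow_add]; congr 1; omega
      rw [e2, e3, mul_pow]; ring
    rw [e1, h, mul_zero]

end Int

end Fermat.Agent.MazR
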