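import Fermat.Agent.MazR.Inf
import Fermat.Agent.AtP.Local
import Fermat.Agent.AtP.Rigid

/-!
# The residue disc of infinity
-/

set_option autoImplicit false
set_option linter.unusedSectionVars false
set_option linter.style.haveILetI false
set_option synthInstance.maxHeartbeats 400000

noncomputable section

namespace Fermat.Agent.MazR

open Polynomial AlgebraicCurve Fermat.Agent.Curves Module IntermediateField ModularCurve
open Fermat.Agent.GoodRed Fermat.Agent.TorLift Fermat.Agent.Models Fermat.Agent.SSMod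
open Fermat.Agent.AtP

local notation "ℒ" => LaurentSeries

section Place

variable (κ : Type*) [Field κ]

/-- the `q`-adic valuation ring -/
def nnV : ValuationSubring (ℒ κ) := { nn κ with mem_or_inv_mem' := nn_or_inv }

variable {κ} [IsAlgClosed κ] {E : IntermediateField κ (ℒ κ)} [IsFunctionField κ E]

/-- the place at infinity -/
theorem exists_infPlace {t : E} (ht : (t : ℒ κ) ∉ nn κ) : ∃ 𝔭 : Place κ E,
    ∀ x : E, x ∈ 𝔭.toValuationSubring ↔ (x : ℒ κ) ∈ nn κ := by
  obtain ⟨w, hw⟩ := exists_place_of_valuationSubring (k := κ) ((nnV κ).comap (algebraMap E (ℒ κ)))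
    (fun c => by
      show algebraMap E (ℒ κ) (algebraMap κ E c) ∈ nn κ
      have e : algebraMap E (ℒ κ) (algebraMap κ E c) = HahnSeries.C c := by
        rw [ModFun.C_eq_algebraMap]; rfl
      rw [e]; exact C_mem_nn c)
    (fun h => ht (by
      have : t ∈ (nnV κ).comap (algebraMap E (ℒ κ)) := by rw [h]; exact ValuationSubring.mem_top _
      exact this))
  exact ⟨w, fun x => by rw [hw]; rfl⟩

theorem value_inf {𝔭 : Place κ E} (h𝔭 : ∀ x : E, x ∈ 𝔭.toValuationSubring ↔ (x : ℒ κ) ∈ nn κ)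
    {x : E} (hx : (x : ℒ κ) ∈ nn κ) : value 𝔭 x = (x : ℒ κ).coeff 0 := by
  rw [value_eq_iff 𝔭 ((h𝔭 x).mpr hx), val_lt_one_iff]
  set z : E := x - algebraMap κ E ((x : ℒ κ).coeff 0) with hz
  have hzv : (z : ℒ κ) = (x : ℒ κ) - HahnSeries.C ((x : ℒ κ).coeff 0) := by
    rw [ModFun.C_eq_algebraMap]; rfl
  have hznn : (z : ℒ κ) ∈ nn κ := by
    rw [hzv]; exact sub_mem hx (C_mem_nn _)
  have hz0 : (z : ℒ κ).coeff 0 = 0 := by
    rw [hzv, HahnSeries.coeff_sub, HahnSeries.C_apply, HahnSeries.coeff_single_same, sub_self]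
  rcases eq_or_ne z 0 with h | h
  · exact Or.inl h
  · right
    have h1 : 0 ≤ 𝔭.ord z := (mem_iff_ord 𝔭 h).mp ((h𝔭 z).mpr hznn)
    rcases h1.lt_or_eq with h2 | h2
    · exact h2
    · exfalso
      have h3 : z⁻¹ ∈ 𝔭.toValuationSubring := by
        rw [mem_iff_ord 𝔭 (inv_ne_zero h), 𝔭.ord_inv, ← h2, neg_zero]
      rw [h𝔭] at h3
      have h4 := coeff_zero_mul hznn h3
      rw [hz0, zero_mul] at h4
      have h5 : (z : ℒ κ) * ((z⁻¹ : E) : ℒ κ) = 1 := by
        have : z * z⁻¹ = 1 := mul_inv_cancel₀ h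
        exact congrArg Subtype.val this
      rw [h5] at h4
      have h6 : (1 : ℒ κ).coeff 0 = 1 := by
        rw [HahnSeries.coeff_one]; simp
      rw [h6] at h4
      exact one_ne_zero h4

end Place

section LRcoeff

variable {K κ : Type*} [Field K] [Field κ] {A : ValuationSubring K} {π : A →+* κ}

theorem LR_coeff {x : ℒ K} (hx : x ∈ PA A) {y : ℒ κ} (h : LR π x y) (n : ℤ) :
    y.coeff n = π ⟨x.coeff n, (mem_PA.mp hx).2 n⟩ := by
  obtain ⟨f, hf, rfl⟩ := exists_of_PA hx
  rw [h.unique (LR.of f), coeffMap_coeff]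
  congr 1

theorem LR_nn {x : ℒ K} (hx : x ∈ PA A) {y : ℒ κ} (h : LR π x y) : y ∈ nn κ := by
  rw [mem_nn]
  intro n hn
  rw [LR_coeff hx h]
  have h1 := mem_nn.mp (PA_le_nn hx) n hn
  have h2 : (⟨x.coeff n, (mem_PA.mp hx).2 n⟩ : A) = 0 := Subtype.ext h1
  rw [h2, map_zero]

theorem inv_mem_PA_of_LR [IsLocalHom π] {x : ℒ K} (hx : x ∈ PA A) {y : ℒ κ} (h : LR π x y)
    (h0 : y.coeff 0 ≠ 0) : x⁻¹ ∈ PA A := by
  rw [LR_coeff hx h] at h0
  have h1 : IsUnit (⟨x.coeff 0, (mem_PA.mp hx).2 0⟩ : A) := (isUnit_map_iff π _).mp (Ne.isUnit h0)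
  obtain ⟨u, hu⟩ := h1
  have h5 : ((u : A) : K) * (((u⁻¹ : Aˣ) : A) : K) = 1 :=
    congrArg (Subtype.val : A → K) u.mul_inv
  rw [hu] at h5
  have hne : x.coeff 0 ≠ 0 := left_ne_zero_of_mul_eq_one h5
  refine inv_mem_PA hx hne ?_
  have h4 : (x.coeff 0)⁻¹ = (((u⁻¹ : Aˣ) : A) : K) := (eq_inv_of_mul_eq_one_right h5).symm
  rw [h4]
  exact ((u⁻¹ : Aˣ) : A).2

end LRcoeff

section Main

variable {K κ : Type} [Field K] [Field κ] {A : ValuationSubring K} (π : A →+* κ) (N : ℕ)
  [IsLocalHom π] [IsAlgClosed K] [IsAlgClosed κ]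

theorem coeff_shift {S : Type*} [Field S] (x : ℒ S) (n : ℤ) :
    (HahnSeries.single (1 : ℤ) (1 : S) * x).coeff n = x.coeff (n - 1) := by
  have := HahnSeries.coeff_single_mul_add (r := (1 : S)) (x := x) (a := n - 1) (b := (1 : ℤ))
  rw [sub_add_cancel, one_mul] at this
  exact this

theorem inv_of_Ld {S : Type*} [Field S] {x : ℒ S} (h : Ld (-1) x 1) :
    x⁻¹ = HahnSeries.single (1 : ℤ) (1 : S) * (HahnSeries.single (1 : ℤ) (1 : S) * x)⁻¹ ∧
    HahnSeries.single (1 : ℤ) (1 : S) * x ∈ nn S ∧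
    (HahnSeries.single (1 : ℤ) (1 : S) * x).coeff 0 = 1 := by
  refine ⟨?_, ?_, ?_⟩
  · rw [mul_inv, ← mul_assoc, mul_inv_cancel₀ (by simp), one_mul]
  · rw [mem_nn]
    intro n hn
    rw [coeff_shift]
    exact h.1 _ (by omega)
  · rw [coeff_shift]
    exact h.2

theorem single_one_nn (S : Type*) [Field S] : (HahnSeries.single (1 : ℤ) (1 : S) : ℒ S) ∈ nn S := by
  rw [mem_nn]
  intro n hn
  exact HahnSeries.coeff_single_of_ne (by omega)

theorem inv_Ld_nn {S : Type*} [Field S] {x : ℒ S} (h : Ld (-1) x 1) :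
    x⁻¹ ∈ nn S ∧ (x⁻¹).coeff 0 = 0 := by
  obtain ⟨h1, h2, h3⟩ := inv_of_Ld h
  have h4 := inv_mem_nn h2 (by rw [h3]; exact one_ne_zero)
  rw [h1]
  refine ⟨mul_mem (single_one_nn S) h4, ?_⟩
  rw [coeff_shift]
  exact mem_nn.mp h4 _ (by norm_num)

theorem inv_Ld_PA {K : Type*} [Field K] {A : ValuationSubring K} {T : ℒ ℤ} (h : Ld (-1) T 1) :
    (coeffMap (Int.castRingHom K) T)⁻¹ ∈ PA A := by
  have hL : Ld (-1) (coeffMap (Int.castRingHom K) T) 1 := by
    refine ⟨fun m hm => ?_, ?_⟩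
    · rw [coeffMap_coeff, h.1 m hm, map_zero]
    · rw [coeffMap_coeff, h.2, map_one]
  obtain ⟨h1, h2, h3⟩ := inv_of_Ld hL
  rw [h1]
  have hPA : HahnSeries.single (1 : ℤ) (1 : K) * coeffMap (Int.castRingHom K) T ∈ PA A := by
    rw [mem_PA]
    refine ⟨h2, fun n => ?_⟩
    rw [coeff_shift, coeffMap_coeff]
    exact intCast_mem A _
  refine mul_mem ?_ (inv_mem_PA hPA (by rw [h3]; exact one_ne_zero) (by
    rw [h3, inv_one]; exact one_mem _))
  rw [mem_PA]
  refine ⟨single_one_nn K, fun n => ?_⟩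
  rw [HahnSeries.coeff_single]
  split_ifs
  · exact one_mem _
  · exact zero_mem _

variable (hπ : Function.Surjective π) (hNK : (N : K) ≠ 0) (hNκ : (N : κ) ≠ 0)
  [IsFunctionField K (modularFunctionFieldFullC K N)]
  [IsFunctionField κ (modularFunctionFieldFullC κ N)]

variable {π N hπ hNK hNκ}

/-- regular functions in the chart at infinity are integral power series -/
theorem chart_PA (hr : RankOne π) {a0 : A} (ha0 : a0 ≠ 0) (ha0π : π a0 = 0)
    {T : modularFunctionFieldFullC K N} (hT : (T : ℒ K) ∈ PA A)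
    {y : modularFunctionFieldFullC K N} (hy : y ∈ chart (one (cGood π N hπ hNK hNκ)) T) :
    (y : ℒ K) ∈ PA A := by
  have hyO : y ∈ (cGood π N hπ hNK hNκ).O := hy.2 ()
  have hLR := cGood_spec π N hyO
  obtain ⟨f, g, hg, hfg, -⟩ := hLR
  have hg0 : g ≠ 0 := by
    rintro rfl
    rw [map_zero] at hg
    exact hg rfl
  have hint := (mem_affineRing_iff_isIntegral (k := K) (t := T)).mp hy.1
  obtain ⟨m, b, hb⟩ := exists_relation hint
  have hbPK : ∀ i, (algebraMap (modularFunctionFieldFullC K N) (ℒ K)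
      (algebraMap (Algebra.adjoin K {T}) (modularFunctionFieldFullC K N) (b i))) ∈ PK A := by
    intro i
    have h1 : ∀ x ∈ Algebra.adjoin K {T},
        algebraMap (modularFunctionFieldFullC K N) (ℒ K) x ∈ PK A := by
      intro x hx
      induction hx using Algebra.adjoin_induction with
      | mem x hx =>
        rw [Set.mem_singleton_iff.mp hx]
        exact PA_le_PK hT
      | algebraMap c =>
        have e : algebraMap (modularFunctionFieldFullC K N) (ℒ K)
            (algebraMap K (modularFunctionFieldFullC K N) c) = HahnSeries.C c := by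
          rw [ModFun.C_eq_algebraMap]; rfl
        rw [e]; exact C_mem_PK c
      | add x y _ _ hx hy => rw [map_add]; exact add_mem hx hy
      | mul x y _ _ hx hy => rw [map_mul]; exact mul_mem hx hy
    exact h1 _ (b i).2
  have hrel := congrArg (algebraMap (modularFunctionFieldFullC K N) (ℒ K)) hb
  rw [map_add, map_pow, map_sum, map_zero] at hrel
  simp only [map_mul, map_pow] at hrel
  have hyPK : (y : ℒ K) ∈ PK A := PK_of_relation hr hg0 hfg hbPK hrel
  obtain ⟨c, hc, hcy⟩ := hyPK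
  exact gauss_PA hr ha0 ha0π (PK_le_nn ⟨c, hc, hcy⟩) (cGood_spec π N hyO)
    (fun h => hc (Subtype.ext h)) hcy

variable {T : modularFunctionFieldFullC K N}

/-- the data at infinity -/
structure AtInf (hπ : Function.Surjective π) (hNK : (N : K) ≠ 0) (hNκ : (N : κ) ≠ 0)
    (T : modularFunctionFieldFullC K N)
    (𝔭 : Place κ (modularFunctionFieldFullC κ N)) : Prop where
  good : IsGood (one (cGood π N hπ hNK hNκ)) T
  surj : Surj (one (cGood π N hπ hNK hNκ)) T
  TPA : (T : ℒ K) ∈ PA A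
  TO : (cGood π N hπ hNK hNκ).r T ∈ 𝔭.toValuationSubring
  inf : ∀ x : modularFunctionFieldFullC κ N, x ∈ 𝔭.toValuationSubring ↔ (x : ℒ κ) ∈ nn κ

variable {𝔭 : Place κ (modularFunctionFieldFullC κ N)}

section

variable (hr : RankOne π) (D : AtInf hπ hNK hNκ T 𝔭)

include hr in
theorem rk : (baseRes π hπ).RankOne := baseRes_rankOne π hπ hr

/-- the point at infinity -/
def ptInf : Ideal (chart (one (cGood π N hπ hNK hNκ)) T) :=
  RingHom.ker (evb (baseRes_rankOne π hπ hr) (incomp_one _) D.good () 𝔭 D.TO)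

theorem spec_ptInf : 𝔭 ∈ spec T (ptInf hr D) () :=
  (mem_spec_iff (baseRes_rankOne π hπ hr) (incomp_one _) D.good).mpr ⟨D.TO, rfl⟩

theorem isPoint_ptInf : IsPoint T (ptInf hr D) :=
  isPoint_evb (baseRes_rankOne π hπ hr) (incomp_one _) D.good () 𝔭 D.TO

/-- the local ring at infinity consists of integral power series -/
theorem loc_PA {a0 : A} (ha0 : a0 ≠ 0) (ha0π : π a0 = 0) {y : modularFunctionFieldFullC K N}
    (hy : y ∈ loc T (ptInf hr D) (isPoint_ptInf hr D).isMaximal.isPrime) : (y : ℒ K) ∈ PA A := by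
  obtain ⟨s, hs, hsy⟩ := hy
  have h1 := chart_PA hr ha0 ha0π D.TPA s.2
  have h2 := chart_PA hr ha0 ha0π D.TPA hsy
  have hsO : (s : modularFunctionFieldFullC K N) ∈ (cGood π N hπ hNK hNκ).O := s.2.2 ()
  have hLR := cGood_spec π N hsO
  have hv : value 𝔭 ((cGood π N hπ hNK hNκ).r (s : modularFunctionFieldFullC K N)) ≠ 0 := by
    intro h
    exact hs (((spec_ptInf hr D).2 s).mpr h)
  rw [value_inf D.inf (LR_nn h1 hLR)] at hv
  have h3 := inv_mem_PA_of_LR h1 hLR hv
  have hs0 : (s : modularFunctionFieldFullC K N) ≠ 0 := by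
    intro h
    rw [h] at hv
    apply hv
    have : (cGood π N hπ hNK hNκ).r (0 : modularFunctionFieldFullC K N) = 0 := Res.r_zero
    rw [this]; rfl
  have e : (y : ℒ K) = ((s : modularFunctionFieldFullC K N) : ℒ K)⁻¹ *
      (((s : modularFunctionFieldFullC K N) * y : modularFunctionFieldFullC K N) : ℒ K) := by
    have h4 : y = (s : modularFunctionFieldFullC K N)⁻¹ *
        ((s : modularFunctionFieldFullC K N) * y) := by
      rw [← mul_assoc, inv_mul_cancel₀ hs0, one_mul]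
    exact congrArg Subtype.val h4
  rw [e]
  exact mul_mem h3 h2

end

end Main

end Fermat.Agent.MazR
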