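import Fermat.Agent.MazR.Inf2
import Fermat.Agent.MazR.Sep2

/-!
# Moving lemma and lifting at infinity
-/

set_option autoImplicit false
set_option linter.unusedSectionVars false
set_option linter.style.haveILetI false
set_option synthInstance.maxHeartbeats 400000

noncomputable section

namespace Fermat.Agent.MazR

open Polynomial AlgebraicCurve Fermat.Agent.Curves Module IntermediateField ModularCurve
open Fermat.Agent.GoodRed Fermat.Agent.TorLift Fermat.Agent.Models Fermat.Agent.SSMod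
open Fermat.Agent.AtP

local notation "ℒ" => LaurentSeries

section Gen

variable {k F : Type*} [Field k] [Field F] [Algebra k F] [IsAlgClosed k] [IsFunctionField k F]

open Classical in
theorem ord_prod_gen {Z : F} {a : Place k F → k} {G : Set (Place k F)}
    (ha : ∀ P ∈ G, Z - algebraMap k F (a P) ≠ 0)
    (ho : ∀ P ∈ G, ∀ Q ∈ G, Q.ord (Z - algebraMap k F (a P)) = if Q = P then 1 else 0)
    (D : Divisor k F) : ∃ h : F, h ≠ 0 ∧ ∀ Q ∈ G, Q.ord h = -D Q := by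
  refine ⟨∏ P ∈ supp G D, (Z - algebraMap k F (a P)) ^ (-D P),
    Finset.prod_ne_zero_iff.mpr fun P hP => zpow_ne_zero _ (ha P (mem_supp.mp hP).2), ?_⟩
  intro Q hQ
  rw [ord_prod' Q _ _ fun P hP => zpow_ne_zero _ (ha P (mem_supp.mp hP).2)]
  have h1 : ∀ P ∈ supp G D, Q.ord ((Z - algebraMap k F (a P)) ^ (-D P)) =
      (if Q = P then -D P else 0) := by
    intro P hP
    rw [ord_zpow', ho P (mem_supp.mp hP).2 Q hQ]
    split_ifs <;> ring
  rw [Finset.sum_congr rfl h1, Finset.sum_ite_eq]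
  split_ifs with h
  · rfl
  · rw [mem_supp] at h
    push Not at h
    by_contra h2
    have : D Q ≠ 0 := fun h3 => h2 (by rw [h3, neg_zero])
    exact h this hQ

end Gen

section Main

variable {K κ : Type} [Field K] [Field κ] {A : ValuationSubring K} {π : A →+* κ} {N : ℕ}
  [IsLocalHom π] [IsAlgClosed K] [IsAlgClosed κ]
  {hπ : Function.Surjective π} {hNK : (N : K) ≠ 0} {hNκ : (N : κ) ≠ 0}
  [IsFunctionField K (modularFunctionFieldFullC K N)]
  [IsFunctionField κ (modularFunctionFieldFullC κ N)]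
  {T : modularFunctionFieldFullC K N} {𝔭 : Place κ (modularFunctionFieldFullC κ N)}
  (hr : RankOne π) (D : AtInf hπ hNK hNκ T 𝔭)

include hr D

/-- units at infinity -/
theorem unit_PA {a0 : A} (ha0 : a0 ≠ 0) (ha0π : π a0 = 0) {u : modularFunctionFieldFullC K N}
    (hu0 : u ≠ 0) (hu : ∀ P ∈ gen T (ptInf hr D), P.ord u = 0) :
    ∃ c : K, c ≠ 0 ∧ (HahnSeries.C c * (u : ℒ K)) ∈ PA A ∧ (HahnSeries.C c * (u : ℒ K))⁻¹ ∈ PA A ∧
      (HahnSeries.C c * (u : ℒ K)).coeff 0 = 1 := by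
  obtain ⟨c, hc, hcu⟩ := (cGood π N hπ hNK hNκ).exists_scale u hu0
  have hcF : algebraMap K (modularFunctionFieldFullC K N) c ≠ 0 := by simpa using hc
  obtain ⟨h1, h2⟩ := unit_loc_of (baseRes_rankOne π hπ hr) (incomp_one _) D.good D.surj
    (isPoint_ptInf hr D) (x := algebraMap K _ c * u) (mul_ne_zero hcF hu0) (fun P hP => by
      rw [P.ord_mul hcF hu0, ord_algebraMap, zero_add, hu P hP]) (fun i _ => hcu)
  have h3 := loc_PA hr D ha0 ha0π h1
  have h4 := loc_PA hr D ha0 ha0π h2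
  have e1 : ((algebraMap K (modularFunctionFieldFullC K N) c * u :
      modularFunctionFieldFullC K N) : ℒ K) = HahnSeries.C c * (u : ℒ K) := by
    rw [ModFun.C_eq_algebraMap]; rfl
  have e2 : (((algebraMap K (modularFunctionFieldFullC K N) c * u)⁻¹ :
      modularFunctionFieldFullC K N) : ℒ K) = (HahnSeries.C c * (u : ℒ K))⁻¹ := by
    rw [← e1]; rfl
  rw [e1] at h3
  rw [e2] at h4
  set x : ℒ K := HahnSeries.C c * (u : ℒ K) with hx
  have hx0 : x ≠ 0 := by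
    rw [hx]
    refine mul_ne_zero (by simpa using hc) (fun h => hu0 (Subtype.ext h))
  have h5 : x.coeff 0 * (x⁻¹).coeff 0 = 1 := by
    rw [← coeff_zero_mul (PA_le_nn h3) (PA_le_nn h4), mul_inv_cancel₀ hx0, HahnSeries.coeff_one]
    simp
  set e := x.coeff 0 with he
  have he0 : e ≠ 0 := left_ne_zero_of_mul_eq_one h5
  have heA : e ∈ A := (mem_PA.mp h3).2 0
  have heA' : e⁻¹ ∈ A := by
    rw [← eq_inv_of_mul_eq_one_right h5]
    exact (mem_PA.mp h4).2 0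
  refine ⟨e⁻¹ * c, mul_ne_zero (inv_ne_zero he0) hc, ?_, ?_, ?_⟩
  · rw [map_mul, mul_assoc]
    exact mul_mem (C_mem_PA heA') h3
  · rw [map_mul, mul_assoc, mul_inv, ← map_inv₀, inv_inv]
    exact mul_mem (C_mem_PA heA) h4
  · rw [map_mul, mul_assoc, HahnSeries.C_mul_eq_smul, HahnSeries.coeff_smul, smul_eq_mul]
    exact inv_mul_cancel₀ he0

/-- **The moving lemma.** -/
theorem moving {a0 : A} (ha0 : a0 ≠ 0) (ha0π : π a0 = 0) {n : ℕ} (hn : 0 < n)
    {f : modularFunctionFieldFullC K N} (hf0 : f ≠ 0) {d : Divisor K (modularFunctionFieldFullC K N)}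
    (hd : ∀ P : Place K (modularFunctionFieldFullC K N), P.ord f = n * d P) :
    ∃ h : modularFunctionFieldFullC K N, h ≠ 0 ∧ ((f : ℒ K) * (h : ℒ K) ^ n) ∈ PA A ∧
      ((f : ℒ K) * (h : ℒ K) ^ n)⁻¹ ∈ PA A ∧ ((f : ℒ K) * (h : ℒ K) ^ n).coeff 0 = 1 := by
  classical
  obtain ⟨Z, hZc, hZr, hZord, hZ⟩ := smooth_coord (baseRes_rankOne π hπ hr) (incomp_one _) D.good
    D.surj (spec_ptInf hr D) (fun j hj => absurd (Subsingleton.elim j ()) hj)
  obtain ⟨h0, hh0, hord⟩ := ord_prod_gen (G := gen T (ptInf hr D)) (Z := Z)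
    (a := fun P => value P Z) (fun P hP => (hZ P hP).2.2.1)
    (fun P hP Q hQ => (hZ P hP).2.2.2 Q hQ) d
  obtain ⟨c, hc, h1, h2, h3⟩ := unit_PA hr D ha0 ha0π (u := f * h0 ^ n)
    (mul_ne_zero hf0 (pow_ne_zero n hh0)) (fun P hP => by
      rw [P.ord_mul hf0 (pow_ne_zero n hh0), ord_pow, hd, hord P hP]; ring)
  obtain ⟨e, he⟩ := IsAlgClosed.exists_pow_nat_eq c hn
  have he0 : e ≠ 0 := by
    rintro rfl
    rw [zero_pow hn.ne'] at he
    exact hc he.symm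
  refine ⟨algebraMap K _ e * h0, mul_ne_zero (by simpa using he0) hh0, ?_⟩
  have e1 : (f : ℒ K) * ((algebraMap K (modularFunctionFieldFullC K N) e * h0 :
      modularFunctionFieldFullC K N) : ℒ K) ^ n =
      HahnSeries.C c * ((f * h0 ^ n : modularFunctionFieldFullC K N) : ℒ K) := by
    have e2 : ((algebraMap K (modularFunctionFieldFullC K N) e * h0 :
        modularFunctionFieldFullC K N) : ℒ K) = HahnSeries.C e * (h0 : ℒ K) := by
      rw [ModFun.C_eq_algebraMap]; rfl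
    rw [e2, mul_pow, ← map_pow, he]
    have e3 : ((f * h0 ^ n : modularFunctionFieldFullC K N) : ℒ K) = (f : ℒ K) * (h0 : ℒ K) ^ n := rfl
    rw [e3]; ring
  rw [e1]
  exact ⟨h1, h2, h3⟩

/-- **Lifting units at infinity.** -/
theorem lift_unit {a0 : A} (ha0 : a0 ≠ 0) (ha0π : π a0 = 0)
    {gb : modularFunctionFieldFullC κ N} (hnn : (gb : ℒ κ) ∈ nn κ)
    (hg1 : (gb : ℒ κ).coeff 0 = 1) : ∃ g : modularFunctionFieldFullC K N, (g : ℒ K) ∈ PA A ∧
      ((g : ℒ K))⁻¹ ∈ PA A ∧ (g : ℒ K).coeff 0 = 1 ∧ LR π (g : ℒ K) (gb : ℒ κ) := by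
  classical
  have hgb0 : gb ≠ 0 := by
    rintro rfl
    have : ((0 : modularFunctionFieldFullC κ N) : ℒ κ).coeff 0 = 0 := rfl
    rw [this] at hg1
    exact zero_ne_one hg1
  obtain ⟨x, hx, hxLR⟩ := lift_N π N hπ hNK hNκ gb.2
  set g1 : modularFunctionFieldFullC K N := ⟨x, hx⟩ with hg1d
  obtain ⟨hg1O, hg1r⟩ := cGood_r_eq π N (hπ := hπ) (hNK := hNK) (hNκ := hNκ) (x := g1) (y := gb) hxLR
  have hg1r0 : (cGood π N hπ hNK hNκ).r g1 ≠ 0 := by rw [hg1r]; exact hgb0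
  have hg10 : g1 ≠ 0 := Res.ne_zero_of_r hg1r0
  -- the order at infinity
  have hord : 𝔭.ord gb = 0 := by
    have h1 : 0 ≤ 𝔭.ord gb := (mem_iff_ord 𝔭 hgb0).mp ((D.inf gb).mpr hnn)
    have h2 : gb⁻¹ ∈ 𝔭.toValuationSubring := by
      rw [D.inf]
      exact inv_mem_nn hnn (by rw [hg1]; exact one_ne_zero)
    rw [mem_iff_ord 𝔭 (inv_ne_zero hgb0), 𝔭.ord_inv] at h2
    omega
  have hcnt := cnt_gen_eq (baseRes_rankOne π hπ hr) D.good D.surj (spec_ptInf hr D) hg1r0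
  rw [hg1r, hord] at hcnt
  obtain ⟨Z, hZc, hZr, hZord, hZ⟩ := smooth_coord (baseRes_rankOne π hπ hr) (incomp_one _) D.good
    D.surj (spec_ptInf hr D) (fun j hj => absurd (Subsingleton.elim j ()) hj)
  set G := gen T (ptInf hr D) with hG
  set d : Divisor K (modularFunctionFieldFullC K N) := -divisorOf (k := K) g1 with hd
  have hdeg : degOn G d = 0 := by
    rw [hd, map_neg, neg_eq_zero]
    exact hcnt
  have hZne : Z ≠ 0 := Res.ne_zero_of_r hZr
  set L := lgen Z (fun P => value P Z) G d with hL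
  have hLord : ∀ P ∈ G, P.ord L = d P := fun P hP =>
    ord_lgen hZne (fun P hP => (hZ P hP).2.2.1) (fun P hP => (hZ P hP).2.2.2) hdeg hP
  have hLne : L ≠ 0 := lgen_ne hZne (fun P hP => (hZ P hP).2.2.1) d
  have hLU : Uni (baseRes π hπ) Z L := Uni.prod _ _ fun P hP =>
    (Uni.single Z (hZ P (mem_supp.mp hP).2).1 (hZ P (mem_supp.mp hP).2).2.1).zpow _
  have hLr : (cGood π N hπ hNK hNκ).r L = 1 := hLU.r_eq hZr
  have hLr0 : (cGood π N hπ hNK hNκ).r L ≠ 0 := by rw [hLr]; exact one_ne_zero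
  set u := g1 * L with hu
  have hur : (cGood π N hπ hNK hNκ).r u = gb := by
    rw [hu, Res.r_mul hg1O (Res.mem_of_r_ne_zero hLr0), hLr, mul_one, hg1r]
  have hur0 : (cGood π N hπ hNK hNκ).r u ≠ 0 := by rw [hur]; exact hgb0
  have hu0 : u ≠ 0 := Res.ne_zero_of_r hur0
  obtain ⟨h1, h2⟩ := unit_loc_of (baseRes_rankOne π hπ hr) (incomp_one _) D.good D.surj
    (isPoint_ptInf hr D) hu0 (fun P hP => by
      rw [hu, P.ord_mul hg10 hLne, hLord P hP, hd]
      show P.ord g1 + -(divisorOf (k := K) g1 P) = 0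
      rw [divisorOf_apply, add_neg_cancel]) (fun i _ => hur0)
  have h3 := loc_PA hr D ha0 ha0π h1
  have h4 : ((u : ℒ K))⁻¹ ∈ PA A := loc_PA hr D ha0 ha0π h2
  have hLR : LR π (u : ℒ K) (gb : ℒ κ) := by
    have := cGood_spec π N (hπ := hπ) (hNK := hNK) (hNκ := hNκ) (Res.mem_of_r_ne_zero hur0)
    rwa [hur] at this
  have hc := LR_coeff h3 hLR 0
  rw [hg1] at hc
  set e := (u : ℒ K).coeff 0 with he
  have heA : e ∈ A := (mem_PA.mp h3).2 0
  have hπe : π ⟨e, heA⟩ = 1 := hc.symm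
  have hx0 : (u : ℒ K) ≠ 0 := fun h => hu0 (Subtype.ext h)
  have h5 : (u : ℒ K).coeff 0 * (((u : ℒ K))⁻¹).coeff 0 = 1 := by
    rw [← coeff_zero_mul (PA_le_nn h3) (PA_le_nn h4), mul_inv_cancel₀ hx0, HahnSeries.coeff_one]
    simp
  have he0 : e ≠ 0 := left_ne_zero_of_mul_eq_one h5
  have heA' : e⁻¹ ∈ A := by
    rw [he, ← eq_inv_of_mul_eq_one_right h5]
    exact (mem_PA.mp h4).2 0
  have hπe' : π ⟨e⁻¹, heA'⟩ = 1 := by
    have h6 : (⟨e, heA⟩ : A) * ⟨e⁻¹, heA'⟩ = 1 := Subtype.ext (mul_inv_cancel₀ he0)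
    have h7 := congrArg π h6
    rwa [map_mul, hπe, one_mul, map_one] at h7
  refine ⟨algebraMap K _ e⁻¹ * u, ?_⟩
  have e1 : ((algebraMap K (modularFunctionFieldFullC K N) e⁻¹ * u :
      modularFunctionFieldFullC K N) : ℒ K) = HahnSeries.C e⁻¹ * (u : ℒ K) := by
    rw [ModFun.C_eq_algebraMap]; rfl
  rw [e1]
  refine ⟨mul_mem (C_mem_PA heA') h3, ?_, ?_, ?_⟩
  · rw [mul_inv, ← map_inv₀, inv_inv]
    exact mul_mem (C_mem_PA heA) h4
  · rw [HahnSeries.C_mul_eq_smul, HahnSeries.coeff_smul, smul_eq_mul]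
    exact inv_mul_cancel₀ he0
  · have h6 := (LR.C (π := π) (⟨e⁻¹, heA'⟩ : A)).mul hLR
    rw [hπe', map_one, one_mul] at h6
    exact h6

omit D hr [IsAlgClosed K] in
theorem gb_unit {p : ℕ} [hp : Fact p.Prime] [CharP κ p] {k : ℕ} {gb : ℒ κ}
    (h1 : gb ^ p ^ k ∈ nn κ) (h2 : (gb ^ p ^ k).coeff 0 = 1) : gb ∈ nn κ ∧ gb.coeff 0 = 1 := by
  have hpow : ∀ (x : ℒ κ), x ∈ nn κ → ∀ m : ℕ, (x ^ m).coeff 0 = (x.coeff 0) ^ m := by
    intro x hx m
    induction m with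
    | zero => rw [pow_zero, pow_zero, HahnSeries.coeff_one]; simp
    | succ m ih => rw [pow_succ, pow_succ, coeff_zero_mul (pow_mem hx m) hx, ih]
  have hn0 : p ^ k ≠ 0 := pow_ne_zero _ hp.out.ne_zero
  have hmem : gb ∈ nn κ := by
    rcases nn_or_inv gb with h | h
    · exact h
    · have h3 : (gb⁻¹).coeff 0 ≠ 0 := by
        intro h4
        have h5 := hpow _ h (p ^ k)
        rw [h4, zero_pow hn0, inv_pow] at h5
        have h6 : gb ^ p ^ k * (gb ^ p ^ k)⁻¹ = 1 := by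
          refine mul_inv_cancel₀ fun h7 => ?_
          rw [h7] at h2
          exact zero_ne_one h2
        have h7 : (gb ^ p ^ k)⁻¹ ∈ nn κ := by rw [← inv_pow]; exact pow_mem h _
        have h8 := coeff_zero_mul h1 h7
        rw [h6, h5, mul_zero, HahnSeries.coeff_one] at h8
        simp at h8
      have := inv_mem_nn h h3
      rwa [inv_inv] at this
  refine ⟨hmem, ?_⟩
  have h3 := hpow gb hmem (p ^ k)
  rw [h2] at h3
  haveI : ExpChar κ p := ExpChar.prime hp.out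
  have h4 : (gb.coeff 0) ^ p ^ k = 1 ^ p ^ k := by rw [← h3, one_pow]
  rw [← iterateFrobenius_def, ← iterateFrobenius_def] at h4
  exact (iterateFrobenius κ p k).injective h4

/-- a unit whose reduction is an `n`-th power is congruent to an `n`-th power -/
theorem exists_near {a0 : A} (ha0 : a0 ≠ 0) (ha0π : π a0 = 0) {p : ℕ} [hp : Fact p.Prime]
    [CharP κ p] {k : ℕ} {u : modularFunctionFieldFullC K N} (huPA : (u : ℒ K) ∈ PA A)
    (hu1 : (u : ℒ K).coeff 0 = 1) {gb : ℒ κ} (hLR : LR π (u : ℒ K) (gb ^ p ^ k)) :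
    ∃ g : modularFunctionFieldFullC K N, (g : ℒ K) ∈ PA A ∧ ((g : ℒ K))⁻¹ ∈ PA A ∧
      (g : ℒ K).coeff 0 = 1 ∧ ∃ (β : A) (z : ℒ A), β ≠ 0 ∧ π β = 0 ∧
        (u : ℒ K) = (g : ℒ K) ^ p ^ k * coeffMap A.subtype (1 + HahnSeries.C β * z) := by
  have hubN : gb ^ p ^ k ∈ modularFunctionFieldFullC κ N := red_mem_N π N hπ hNK hNκ u.2 hLR
  have hgbN : gb ∈ modularFunctionFieldFullC κ N := pow_mem_descend N hNκ hubN
  have hub1 : (gb ^ p ^ k).coeff 0 = 1 := by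
    rw [LR_coeff huPA hLR]
    have : (⟨(u : ℒ K).coeff 0, (mem_PA.mp huPA).2 0⟩ : A) = 1 := Subtype.ext hu1
    rw [this, map_one]
  obtain ⟨hgnn, hg1⟩ := gb_unit (LR_nn huPA hLR) hub1
  obtain ⟨g, hgPA, hgPA', hg0, hgLR⟩ := lift_unit hr D ha0 ha0π (gb := ⟨gb, hgbN⟩) hgnn hg1
  refine ⟨g, hgPA, hgPA', hg0, ?_⟩
  have hgne : (g : ℒ K) ≠ 0 := by
    intro h
    rw [h] at hg0
    exact zero_ne_one hg0
  have hgF : g ≠ 0 := fun h => hgne (congrArg Subtype.val h)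
  have hgbne : gb ≠ 0 := by
    rintro rfl
    exact zero_ne_one hg1
  set x : modularFunctionFieldFullC K N := u / g ^ p ^ k - 1 with hx
  have hxv : (x : ℒ K) = (u : ℒ K) * ((g : ℒ K)⁻¹) ^ p ^ k - 1 := by
    rw [hx, div_eq_mul_inv, ← inv_pow]; rfl
  have hxPA : (x : ℒ K) ∈ PA A := by
    rw [hxv]; exact sub_mem (mul_mem huPA (pow_mem hgPA' _)) (one_mem _)
  have hu_eq : (u : ℒ K) = (g : ℒ K) ^ p ^ k * (1 + (x : ℒ K)) := by
    rw [hxv, inv_pow]
    have := pow_ne_zero (p ^ k) hgne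
    field_simp
    ring
  have hxLR : LR π (x : ℒ K) 0 := by
    have hgpow : LR π ((g : ℒ K) ^ p ^ k) (gb ^ p ^ k) := by
      have : ∀ m : ℕ, LR π ((g : ℒ K) ^ m) (gb ^ m) := by
        intro m
        induction m with
        | zero => rw [pow_zero, pow_zero]; exact LR.one π
        | succ m ih => rw [pow_succ, pow_succ]; exact ih.mul hgLR
      exact this _
    have h1 := (hLR.mul (hgpow.inv (pow_ne_zero _ hgbne))).add (LR.one π).neg
    rw [mul_inv_cancel₀ (pow_ne_zero _ hgbne), add_neg_cancel] at h1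
    rw [hxv, inv_pow, sub_eq_add_neg]
    exact h1
  rcases eq_or_ne x 0 with h0 | h0
  · refine ⟨a0, 0, ha0, ha0π, ?_⟩
    rw [mul_zero, add_zero, map_one, mul_one, hu_eq, h0]
    show _ * (1 + (0 : ℒ K)) = _
    rw [add_zero, mul_one]
  obtain ⟨γ, hγ0, hγ⟩ := (cGood π N hπ hNK hNκ).exists_scale x h0
  have hzO := Res.mem_of_r_ne_zero hγ
  obtain ⟨hxO, hxr⟩ := cGood_r_eq π N (hπ := hπ) (hNK := hNK) (hNκ := hNκ) (x := x) (y := 0) hxLR
  have hγA : γ ∉ A := by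
    intro hA
    apply hγ
    exact Res.r_mul_eq_zero ((cGood π N hπ hNK hNκ).algebraMap_mem γ hA) hxO hxr
  have hγA' : γ⁻¹ ∈ A := (A.mem_or_inv_mem γ).resolve_left hγA
  have hβ : π ⟨γ⁻¹, hγA'⟩ = 0 := by
    rw [← baseRes_r π hπ hγA']
    exact Res.r_inv_of_notMem (C := baseRes π hπ) hγA
  set z : ℒ K := HahnSeries.C γ * (x : ℒ K) with hz
  have hCx : (x : ℒ K) = HahnSeries.C γ⁻¹ * z := by
    rw [hz, ← mul_assoc, ← map_mul, inv_mul_cancel₀ hγ0, map_one, one_mul]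
  have e1 : ((algebraMap K (modularFunctionFieldFullC K N) γ * x :
      modularFunctionFieldFullC K N) : ℒ K) = z := by
    rw [hz, ModFun.C_eq_algebraMap]; rfl
  have hzLR := cGood_spec π N (hπ := hπ) (hNK := hNK) (hNκ := hNκ) hzO
  rw [e1] at hzLR
  have hzPA : z ∈ PA A := gauss_PA hr ha0 ha0π (mul_mem (C_mem_nn _) (PA_le_nn hxPA)) hzLR
    (inv_ne_zero hγ0) (by rw [← hCx]; exact hxPA)
  obtain ⟨z', -, hz'⟩ := exists_of_PA hzPA
  refine ⟨⟨γ⁻¹, hγA'⟩, z', fun h => inv_ne_zero hγ0 (congrArg Subtype.val h), hβ, ?_⟩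
  have hC : coeffMap A.subtype (HahnSeries.C (⟨γ⁻¹, hγA'⟩ : A)) = HahnSeries.C γ⁻¹ := by
    rw [HahnSeries.C_apply, HahnSeries.C_apply, coeffMap_single]; rfl
  rw [map_add, map_one, map_mul, hC, hz', ← hCx]
  exact hu_eq

end Main

end Fermat.Agent.MazR
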