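import Fermat.Agent.MazR.Inf3
import Fermat.Agent.MazurP.EtaHecke

/-!
# Charts at infinity; contraction
-/

set_option autoImplicit false
set_option linter.unusedSectionVars false
set_option linter.style.haveILetI false
set_option synthInstance.maxHeartbeats 400000

noncomputable section

namespace Fermat.Agent.MazR

open Polynomial AlgebraicCurve Fermat.Agent.Curves Module IntermediateField ModularCurve
open Fermat.Agent.GoodRed Fermat.Agent.TorLift Fermat.Agent.Models Fermat.Agent.SSMod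
open Fermat.Agent.AtP Fermat.Agent.HeckeQ Fermat.Agent.ModFun

local notation "ℒ" => LaurentSeries

section Coeff

variable {K : Type*} [Field K] {q : ℕ} [NeZero q] [HasPrim K q]

theorem one_coeff_zero : (1 : ℒ K).coeff 0 = 1 := by
  rw [HahnSeries.coeff_one]; simp

theorem twist_coeff_zero (c : Kˣ) (x : ℒ K) : (twist c x).coeff 0 = x.coeff 0 := by
  rw [twist_coeff, zpow_zero, Units.val_one, one_mul]

theorem hW_coeff_zero {x : ℒ K} (hx : x ∈ nn K) (h0 : x.coeff 0 = 1) : (hW q x).coeff 0 = 1 := by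
  rw [← qExpand_coeff_zero q, qExpand_hW, prodTwist]
  have key : ∀ s : Finset (rootsOfUnity q K),
      (∏ ξ ∈ s, twist (ξ : Kˣ) x) ∈ nn K ∧ (∏ ξ ∈ s, twist (ξ : Kˣ) x).coeff 0 = 1 := by
    classical
    intro s
    induction s using Finset.induction_on with
    | empty => rw [Finset.prod_empty]; exact ⟨one_mem _, one_coeff_zero⟩
    | insert a s ha ih =>
      rw [Finset.prod_insert ha]
      refine ⟨mul_mem (twist_mem_nn _ hx) ih.1, ?_⟩
      rw [coeff_zero_mul (twist_mem_nn _ hx) ih.1, ih.2, twist_coeff_zero, h0, mul_one]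
  exact (key _).2

theorem pow_coeff_zero {x : ℒ K} (hx : x ∈ nn K) (n : ℕ) : (x ^ n).coeff 0 = (x.coeff 0) ^ n := by
  induction n with
  | zero => rw [pow_zero, pow_zero, one_coeff_zero]
  | succ m ih => rw [pow_succ, pow_succ, coeff_zero_mul (pow_mem hx m) hx, ih]

theorem inv_coeff_zero {x : ℒ K} (hx : x ∈ nn K) (h0 : x.coeff 0 = 1) : (x⁻¹).coeff 0 = 1 := by
  have h1 : x ≠ 0 := by
    rintro rfl
    exact zero_ne_one h0
  have h2 := inv_mem_nn hx (by rw [h0]; exact one_ne_zero)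
  have h3 := coeff_zero_mul hx h2
  rw [mul_inv_cancel₀ h1, one_coeff_zero, h0, one_mul] at h3
  exact h3.symm

theorem Uend_pow_one [Fact q.Prime] {x : ℒ K} (hx : x ∈ nn K) (h0 : x.coeff 0 = 1) (m : ℕ) :
    (Uend K q ^ m) x ∈ nn K ∧ ((Uend K q ^ m) x).coeff 0 = 1 := by
  induction m with
  | zero => simpa using ⟨hx, h0⟩
  | succ m ih => rw [Uend_pow_succ]; exact ⟨hW_mem_nn ih.1, hW_coeff_zero ih.1 ih.2⟩

theorem hW_qExpand_self (x : ℒ K) : hW q (qExpand K q x) = x ^ q :=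
  (hW_unique q (by rw [map_pow, MazurP.prodTwist_qExpand_self])).symm

end Coeff

section Main

variable {K κ : Type} [Field K] [Field κ] {A : ValuationSubring K} {π : A →+* κ} {N : ℕ}
  [IsLocalHom π] [IsAlgClosed K] [IsAlgClosed κ]
  {hπ : Function.Surjective π} {hNK : (N : K) ≠ 0} {hNκ : (N : κ) ≠ 0}
  [IsFunctionField K (modularFunctionFieldFullC K N)]
  [IsFunctionField κ (modularFunctionFieldFullC κ N)]

theorem inv_T {E : Type*} [Field E] {T : ℒ ℤ} (hT : Ld (-1) T 1) :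
    Ld (-1) (coeffMap (Int.castRingHom E) T) 1 := by
  refine ⟨fun m hm => ?_, ?_⟩
  · rw [coeffMap_coeff, hT.1 m hm, map_zero]
  · rw [coeffMap_coeff, hT.2, map_one]

/-- charts at infinity exist -/
theorem exists_atInf (h : HasInf π N) : ∃ (T : modularFunctionFieldFullC K N)
    (𝔭 : Place κ (modularFunctionFieldFullC κ N)), AtInf hπ hNK hNκ T 𝔭 := by
  obtain ⟨_, _, _, t, tb, T, hT, ht, htb, h1, h2⟩ := h
  have h2c : Chart (modGauss π N hπ hNK hNκ) t⁻¹ tb⁻¹ :=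
    ⟨h2.R, h2.tr, h2.trb, h2.sep, h2.sepb, h2.finrank_eq⟩
  have hr2 := cGood_r_eq π N (hπ := hπ) (hNK := hNK) (hNκ := hNκ) ((modGauss_R π N).1 h2.R)
  have htbn : (tb : ℒ κ) ∉ nn κ := by
    intro hn
    have h3 := mem_nn.mp hn (-1) (by norm_num)
    rw [htb, (inv_T (E := κ) hT).2] at h3
    exact one_ne_zero h3
  obtain ⟨𝔭, h𝔭⟩ := exists_infPlace htbn
  refine ⟨t⁻¹, 𝔭, isGood_of_chart π N h2c, surj_of_chart π N h2, ?_, ?_, h𝔭⟩
  · have e : ((t⁻¹ : modularFunctionFieldFullC K N) : ℒ K) = (t : ℒ K)⁻¹ := rfl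
    rw [e, ht]
    exact inv_Ld_PA hT
  · rw [hr2.2, h𝔭]
    have e : ((tb⁻¹ : modularFunctionFieldFullC κ N) : ℒ κ) = (tb : ℒ κ)⁻¹ := rfl
    rw [e, htb]
    exact (inv_Ld_nn (inv_T (E := κ) hT)).1

variable {T : modularFunctionFieldFullC K N} {𝔭 : Place κ (modularFunctionFieldFullC κ N)}
  (hr : RankOne π) (D : AtInf hπ hNK hNκ T 𝔭)

include hr D

/-- **contraction**: if `w ^ n` reduces to an `n`-th power then `U ^ J w` is integral -/
theorem contr_root {a0 : A} (ha0 : a0 ≠ 0) (ha0π : π a0 = 0) {p : ℕ} [hp : Fact p.Prime]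
    [NeZero p] [CharP κ p] [CharZero K] [HasPrim A p] [HasPrim K p] {k : ℕ} {w : ℒ K}
    (hw : w ∈ nn K) (hw0 : w.coeff 0 = 1) (hwPA : w ^ p ^ k ∈ PA A)
    (hwN : w ^ p ^ k ∈ modularFunctionFieldFullC K N) {gb : ℒ κ}
    (hLR : LR π (w ^ p ^ k) (gb ^ p ^ k)) : ∃ J : ℕ, (Uend K p ^ J) w ∈ PA A := by
  set n := p ^ k with hn
  have hn0 : (n : K) ≠ 0 := by
    rw [hn]; exact_mod_cast pow_ne_zero _ hp.out.ne_zero
  obtain ⟨g, hg, hg', hg0, β, z, hβ, hβπ, hu⟩ := exists_near hr D ha0 ha0π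
    (u := ⟨w ^ n, hwN⟩) (p := p) (k := k) hwPA (by
      show (w ^ n).coeff 0 = 1
      rw [pow_coeff_zero hw, hw0, one_pow]) hLR
  change w ^ n = (g : ℒ K) ^ n * _ at hu
  have hgne : (g : ℒ K) ≠ 0 := by
    intro h
    rw [h] at hg0
    exact zero_ne_one hg0
  have hgnn := PA_le_nn hg
  have hgnn' := PA_le_nn hg'
  set w1 : ℒ K := w * (g : ℒ K)⁻¹ with hw1
  have hw1nn : w1 ∈ nn K := mul_mem hw hgnn'
  have hw10 : w1.coeff 0 = 1 := by
    rw [hw1, coeff_zero_mul hw hgnn', hw0, inv_coeff_zero hgnn hg0, one_mul]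
  have hw1n : w1 ^ n = coeffMap A.subtype (1 + HahnSeries.C β * z) := by
    rw [hw1, mul_pow, hu, inv_pow, mul_right_comm, mul_inv_cancel₀ (pow_ne_zero _ hgne), one_mul]
  -- contraction
  have hα : ((n : A) ^ 2) ≠ 0 := by
    intro h
    have h1 := congrArg (Subtype.val : A → K) h
    have h2 : (((n : A) ^ 2 : A) : K) = (n : K) ^ 2 := by push_cast; rfl
    rw [h2] at h1
    exact hn0 (pow_eq_zero_iff (two_ne_zero) |>.mp h1)
  obtain ⟨J, g1, hJ⟩ := contr_PA (π := π) (q := p) hr hβ hβπ (f := z) hα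
  refine ⟨J, ?_⟩
  obtain ⟨hUnn, hU0⟩ := Uend_pow_one (q := p) hw1nn hw10 J
  have hpow : ((Uend K p ^ J) w1) ^ n = 1 + HahnSeries.C ((n : K) ^ 2) * coeffMap A.subtype g1 := by
    rw [← map_pow, hw1n, hJ, map_add, map_one, map_mul]
    have hC : coeffMap A.subtype (HahnSeries.C ((n : A) ^ 2)) = HahnSeries.C ((n : K) ^ 2) := by
      rw [HahnSeries.C_apply, HahnSeries.C_apply, coeffMap_single]
      congr 1
    rw [hC]
  have hC0 : (HahnSeries.C ((n : K) ^ 2) : ℒ K) ≠ 0 := by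
    simpa using pow_ne_zero 2 hn0
  have hg1 : coeffMap A.subtype g1 ∈ PA A := by
    rw [mem_PA]
    refine ⟨?_, coeffMap_coeff_mem g1⟩
    have e : coeffMap A.subtype g1 = HahnSeries.C (((n : K) ^ 2)⁻¹) *
        (((Uend K p ^ J) w1) ^ n - 1) := by
      rw [hpow, add_sub_cancel_left, map_inv₀, ← mul_assoc, inv_mul_cancel₀ hC0, one_mul]
    rw [e]
    exact mul_mem (C_mem_nn _) (sub_mem (pow_mem hUnn _) (one_mem _))
  have h1 : (Uend K p ^ J) w1 ∈ PA A := root_PA hn0 hUnn hU0 hg1 hpow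
  have h2 : w = w1 * (g : ℒ K) := by
    rw [hw1, mul_assoc, inv_mul_cancel₀ hgne, mul_one]
  rw [h2, map_mul]
  exact mul_mem h1 (Uend_pow_mem_PA J hg)

end Main

end Fermat.Agent.MazR
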