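import Fermat.Agent.MazR.Inf4
import Fermat.Agent.MazR.Desc
import Fermat.Agent.Maz.Defs

set_option autoImplicit false
set_option linter.unusedSectionVars false

noncomputable section

namespace Fermat.Agent.MazR

open Polynomial

local notation "ℒ" => LaurentSeries

theorem ps_root {K : Type*} [Field K] [CharZero K] {n : ℕ} (hn : 0 < n) {u : PowerSeries K}
    (hu : PowerSeries.constantCoeff u = 1) :
    ∃ w : PowerSeries K, PowerSeries.constantCoeff w = 1 ∧ w ^ n = u := by
  have hmem : ∀ s : PowerSeries K, s ∈ Ideal.span {(PowerSeries.X : PowerSeries K)} ↔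
      PowerSeries.constantCoeff s = 0 := by
    intro s
    rw [Ideal.mem_span_singleton, PowerSeries.X_dvd_iff]
  obtain ⟨a, ha, ha1⟩ := HenselianRing.is_henselian (R := PowerSeries K)
    (I := Ideal.span {(PowerSeries.X : PowerSeries K)}) (Polynomial.X ^ n - Polynomial.C u)
    (Polynomial.monic_X_pow_sub_C u hn.ne') 1 (by
      rw [hmem]
      simp [hu]) (by
      have : (Polynomial.X ^ n - Polynomial.C u : Polynomial (PowerSeries K)).derivative.eval 1 =
          (n : PowerSeries K) := by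
        simp [Polynomial.derivative_X_pow]
      rw [this, map_natCast]
      have h1 : IsUnit ((n : PowerSeries K)) := by
        rw [PowerSeries.isUnit_iff_constantCoeff, map_natCast]
        exact Ne.isUnit (by exact_mod_cast hn.ne')
      have := h1.map (Ideal.Quotient.mk (Ideal.span {(PowerSeries.X : PowerSeries K)}))
      rwa [map_natCast] at this)
  refine ⟨a, ?_, ?_⟩
  · rw [hmem, map_sub, map_one, sub_eq_zero] at ha1
    exact ha1
  · have := ha
    rw [Polynomial.IsRoot.def, Polynomial.eval_sub, Polynomial.eval_pow, Polynomial.eval_X,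
      Polynomial.eval_C, sub_eq_zero] at this
    exact this

/-- `n`-th roots of power series with constant term one -/
theorem nn_root {K : Type*} [Field K] [CharZero K] {n : ℕ} (hn : 0 < n) {u : ℒ K}
    (hu : u ∈ nn K) (hu0 : u.coeff 0 = 1) : ∃ w ∈ nn K, w.coeff 0 = 1 ∧ w ^ n = u := by
  obtain ⟨s, rfl⟩ := hu
  have h0 : PowerSeries.constantCoeff s = 1 := by
    rw [ofPS_coeff] at hu0
    simpa using hu0
  obtain ⟨w, hw, hwn⟩ := ps_root hn h0
  refine ⟨HahnSeries.ofPowerSeries ℤ K w, ⟨w, rfl⟩, ?_, ?_⟩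
  · rw [ofPS_coeff]
    simpa using hw
  · rw [← map_pow, hwn]

/-- uniqueness of roots with constant term one -/
theorem nn_root_unique {K : Type*} [Field K] [IsAlgClosed K] [CharZero K] {n : ℕ} (hn : 0 < n)
    {u v : ℒ K} (hu : u ∈ nn K) (hu0 : u.coeff 0 = 1) (hv : v ∈ nn K) (hv0 : v.coeff 0 = 1)
    (h : u ^ n = v ^ n) : u = v := by
  have hv' : v ≠ 0 := by
    rintro rfl
    exact zero_ne_one hv0
  have h1 : (u * v⁻¹) ^ n = 1 := by
    rw [mul_pow, h, inv_pow, mul_inv_cancel₀ (pow_ne_zero _ hv')]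
  obtain ⟨ζ, -, hζ⟩ := root_laurent hn h1
  have h2 : (u * v⁻¹).coeff 0 = 1 := by
    rw [coeff_zero_mul hu (inv_mem_nn hv (by rw [hv0]; exact one_ne_zero)), hu0,
      inv_coeff_zero hv hv0, one_mul]
  rw [hζ, HahnSeries.C_apply, HahnSeries.coeff_single_same] at h2
  rw [h2, map_one] at hζ
  rw [← mul_one v, ← hζ, mul_comm u, ← mul_assoc, mul_inv_cancel₀ hv', one_mul]

open ModularCurve IsLocalRing Fermat.Agent.GoodRed

local notation "Qbar" => AlgebraicClosure ℚ

/-- auxiliary level with a chart at infinity -/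
theorem exists_level {r : ℕ} (hr : r.Prime) {A : ValuationSubring Qbar} (hA : A.LiesOverPrime r)
    {N : ℕ} [NeZero N] (hN : ¬ r ∣ N) : ∃ M : ℕ, NeZero M ∧ N ∣ M ∧ ¬ r ∣ M ∧
      HasInf (residue A) M ∧ ∀ n : ℕ, 0 < n → ∀ z ∈ modularFunctionFieldFullC Qbar M,
        z ^ n ∈ modularFunctionFieldFullC Qbar N → z ∈ modularFunctionFieldFullC Qbar N := by
  obtain ⟨ι⟩ := exists_emb_Qbar
  have hNQ : ∀ M : ℕ, NeZero M → (M : Qbar) ≠ 0 := fun M hM => by
    exact_mod_cast hM.ne
  have hκ : ∀ M : ℕ, ¬ r ∣ M → (M : ResidueField A) ≠ 0 := fun M hM => residue_ne_zero hr hA hM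
  have hself : ∀ n : ℕ, 0 < n → ∀ z ∈ modularFunctionFieldFullC Qbar N,
      z ^ n ∈ modularFunctionFieldFullC Qbar N → z ∈ modularFunctionFieldFullC Qbar N :=
    fun n hn z hz _ => hz
  by_cases h2 : r = 2
  · subst h2
    have h3κ : ((3 : ℕ) : ResidueField A) ≠ 0 := hκ 3 (by norm_num)
    by_cases h3N : 3 ∣ N
    · exact ⟨N, inferInstance, dvd_rfl, hN, hasInf_of_haup _ N haup3 ι residue_surjective
        (hNQ N inferInstance) (hκ N hN) (by norm_num) h3κ h3N, hself⟩
    · haveI : NeZero (N * 3) := ⟨Nat.mul_ne_zero (NeZero.ne N) (by norm_num)⟩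
      haveI : Fact (Nat.Prime 3) := ⟨Nat.prime_three⟩
      have h2M : ¬ 2 ∣ N * 3 := by
        intro h
        rcases (Nat.Prime.dvd_mul Nat.prime_two).mp h with h | h
        · exact hN h
        · exact absurd h (by norm_num)
      exact ⟨N * 3, inferInstance, Dvd.intro _ rfl, h2M,
        hasInf_of_haup _ (N * 3) haup3 ι residue_surjective (hNQ _ inferInstance) (hκ _ h2M)
          (by norm_num) h3κ (Dvd.intro_left _ rfl),
        fun n hn z hz hzn => descend 3 N h3N hn hz hzn⟩
  · by_cases h3 : r = 3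
    · subst h3
      have h2κ : ((2 : ℕ) : ResidueField A) ≠ 0 := hκ 2 (by norm_num)
      by_cases h2N : 2 ∣ N
      · exact ⟨N, inferInstance, dvd_rfl, hN, hasInf_of_haup _ N haup2 ι residue_surjective
          (hNQ N inferInstance) (hκ N hN) (by norm_num) h2κ h2N, hself⟩
      · haveI : NeZero (N * 2) := ⟨Nat.mul_ne_zero (NeZero.ne N) (by norm_num)⟩
        haveI : Fact (Nat.Prime 2) := ⟨Nat.prime_two⟩
        have h3M : ¬ 3 ∣ N * 2 := by
          intro h
          rcases (Nat.Prime.dvd_mul Nat.prime_three).mp h with h | h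
          · exact hN h
          · exact absurd h (by norm_num)
        exact ⟨N * 2, inferInstance, Dvd.intro _ rfl, h3M,
          hasInf_of_haup _ (N * 2) haup2 ι residue_surjective (hNQ _ inferInstance) (hκ _ h3M)
            (by norm_num) h2κ (Dvd.intro_left _ rfl),
          fun n hn z hz hzn => descend 2 N h2N hn hz hzn⟩
    · refine ⟨N, inferInstance, dvd_rfl, hN, hasInf_of_six _ N ι ?_ residue_surjective
        (hNQ N inferInstance) (hκ N hN), hself⟩
      have h6 : ¬ r ∣ 6 := by
        intro h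
        rcases (Nat.Prime.dvd_mul (m := 2) (n := 3) hr).mp h with h | h
        · exact h2 ((Nat.prime_dvd_prime_iff_eq hr Nat.prime_two).mp h)
        · exact h3 ((Nat.prime_dvd_prime_iff_eq hr Nat.prime_three).mp h)
      have := hκ 6 h6
      exact_mod_cast this

end Fermat.Agent.MazR
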