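import Fermat.Agent.MazR.Rep2
import Fermat.Agent.MazH.Op

/-!
# Integrality of the roots on the part where `T_r` is bijective
-/

set_option autoImplicit false
set_option linter.unusedSectionVars false
set_option linter.style.haveILetI false
set_option synthInstance.maxHeartbeats 400000

noncomputable section

namespace Fermat.Agent.MazR

open Polynomial AlgebraicCurve Fermat.Agent.Curves Module IntermediateField ModularCurve
open Fermat.Agent.GoodRed Fermat.Agent.TorLift Fermat.Agent.Models Fermat.Agent.SSMod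
open Fermat.Agent.AtP Fermat.Agent.HeckeQ Fermat.Agent.ModFun IsLocalRing Fermat.Agent.Maz

local notation "ℒ" => LaurentSeries
local notation "Qbar" => AlgebraicClosure ℚ
local notation "GQ" => Qbar ≃ₐ[ℚ] Qbar

section Units

variable {K : Type*} [Field K] (A : ValuationSubring K)

/-- integral units -/
def unitsPA : Subgroup (ℒ K)ˣ where
  carrier := {u | (u : ℒ K) ∈ PA A ∧ ((u⁻¹ : (ℒ K)ˣ) : ℒ K) ∈ PA A}
  one_mem' := by
    refine ⟨one_mem _, ?_⟩
    rw [inv_one]; exact one_mem _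
  mul_mem' := by
    rintro u v ⟨h1, h2⟩ ⟨h3, h4⟩
    refine ⟨mul_mem h1 h3, ?_⟩
    rw [mul_inv]
    exact mul_mem h2 h4
  inv_mem' := by
    rintro u ⟨h1, h2⟩
    exact ⟨h2, by rw [inv_inv]; exact h1⟩

/-- Laurent series modulo integral units -/
abbrev HPA := Additive ((ℒ K)ˣ ⧸ unitsPA A)

/-- the class of a Laurent series -/
def clu (u : (ℒ K)ˣ) : HPA A := Additive.ofMul (QuotientGroup.mk u)

variable {A}

theorem clu_mul (u v : (ℒ K)ˣ) : clu A (u * v) = clu A u + clu A v := rfl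

theorem clu_pow (u : (ℒ K)ˣ) (n : ℕ) : clu A (u ^ n) = n • clu A u := rfl

theorem clu_eq_zero {u : (ℒ K)ˣ} : clu A u = 0 ↔ u ∈ unitsPA A := QuotientGroup.eq_one_iff u

theorem clu_eq {u v : (ℒ K)ˣ} : clu A u = clu A v ↔ u⁻¹ * v ∈ unitsPA A := QuotientGroup.eq

variable (q : ℕ) [Fact q.Prime] [NeZero q] [HasPrim A q] [HasPrim K q]

variable (K) in
/-- `U_q` -/
def Uu : (ℒ K)ˣ →* (ℒ K)ˣ := Units.map (Uend K q)

variable (K) in
/-- `V_q` -/
def Vu : (ℒ K)ˣ →* (ℒ K)ˣ := Units.map (qExpand K q : ℒ K →* ℒ K)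

theorem Uu_le : unitsPA A ≤ (unitsPA A).comap (Uu K q) := fun _ h =>
  ⟨hW_mem_PA h.1, hW_mem_PA h.2⟩

omit [Fact q.Prime] [HasPrim A q] [HasPrim K q] in
theorem Vu_le : unitsPA A ≤ (unitsPA A).comap (Vu K q) := fun _ h =>
  ⟨qExpand_mem_PA q h.1, qExpand_mem_PA q h.2⟩

variable (A) in
/-- `U_q` on classes -/
def UH : HPA A →+ HPA A := MonoidHom.toAdditive (QuotientGroup.map _ _ (Uu K q) (Uu_le q))

variable (A) in
/-- `V_q` on classes -/
def VH : HPA A →+ HPA A := MonoidHom.toAdditive (QuotientGroup.map _ _ (Vu K q) (Vu_le q))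

theorem UH_clu (u : (ℒ K)ˣ) : UH A q (clu A u) = clu A (Uu K q u) := rfl

omit [Fact q.Prime] [HasPrim A q] [HasPrim K q] in
theorem VH_clu (u : (ℒ K)ˣ) : VH A q (clu A u) = clu A (Vu K q u) := rfl

theorem UH_iter (u : (ℒ K)ˣ) (m : ℕ) : (UH A q : HPA A → HPA A)^[m] (clu A u) =
    clu A ((Uu K q : (ℒ K)ˣ → (ℒ K)ˣ)^[m] u) := by
  induction m with
  | zero => rfl
  | succ m ih => rw [Function.iterate_succ_apply', ih, UH_clu, Function.iterate_succ_apply']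

omit [Fact q.Prime] [HasPrim A q] [HasPrim K q] in
theorem VH_iter (u : (ℒ K)ˣ) (m : ℕ) : (VH A q : HPA A → HPA A)^[m] (clu A u) =
    clu A ((Vu K q : (ℒ K)ˣ → (ℒ K)ˣ)^[m] u) := by
  induction m with
  | zero => rfl
  | succ m ih => rw [Function.iterate_succ_apply', ih, VH_clu, Function.iterate_succ_apply']

theorem Uu_iter (u : (ℒ K)ˣ) (m : ℕ) :
    (((Uu K q : (ℒ K)ˣ → (ℒ K)ˣ)^[m] u : (ℒ K)ˣ) : ℒ K) = (Uend K q ^ m) (u : ℒ K) := by
  induction m with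
  | zero => rfl
  | succ m ih =>
    rw [Function.iterate_succ_apply', Uend_pow_succ, ← ih]
    rfl

omit [Fact q.Prime] [HasPrim K q] in
theorem Vu_iter (u : (ℒ K)ˣ) (m : ℕ) :
    (((Vu K q : (ℒ K)ˣ → (ℒ K)ˣ)^[m] u : (ℒ K)ˣ) : ℒ K) = qExpand K (q ^ m) (u : ℒ K) := by
  induction m with
  | zero =>
    have : qExpand K (q ^ 0) (u : ℒ K) = qExpand K 1 (u : ℒ K) := qExpand_congr (pow_zero q) _
    rw [this]
    show (u : ℒ K) = _
    ext n
    have := qExpand_coeff_mul (R := K) 1 (u : ℒ K) n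
    rw [Nat.cast_one, one_mul] at this
    exact this.symm
  | succ m ih =>
    rw [Function.iterate_succ_apply']
    have : qExpand K (q ^ (m + 1)) (u : ℒ K) = qExpand K (q * q ^ m) (u : ℒ K) :=
      qExpand_congr (pow_succ' q m) _
    rw [this, ← qExpand_qExpand, ← ih]
    rfl

theorem UV_clu (h : HPA A) : UH A q (VH A q h) = q • h := by
  obtain ⟨u, rfl⟩ : ∃ u, clu A u = h := QuotientGroup.mk_surjective h.toMul
  rw [VH_clu, UH_clu, ← clu_pow]
  congr 1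
  exact Units.ext (hW_qExpand_self (u : ℒ K))

/-- series with constant term one -/
theorem mem_unitsPA_of {w : ℒ K} (hw0 : w ≠ 0) (hw : w ∈ PA A) (h1 : w.coeff 0 = 1) :
    Units.mk0 w hw0 ∈ unitsPA A :=
  ⟨hw, by
    rw [Units.val_inv_eq_inv_val, Units.val_mk0]
    exact inv_mem_PA hw (by rw [h1]; exact one_ne_zero) (by rw [h1, inv_one]; exact one_mem _)⟩

end Units

section Main

variable {N M : ℕ} [NeZero N] [NeZero M] {A : ValuationSubring Qbar} {r : ℕ}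

theorem clu_unique (hr : r.Prime) (hA : A.LiesOverPrime r) (hrM : ¬ r ∣ M) (hNM : N ∣ M)
    {n : ℕ} (hn : 0 < n) {y : JZero N} {w w' : ℒ Qbar} (h : Rep N M A n y w)
    (h' : Rep N M A n y w') : clu A (Units.mk0 w h.ne) = clu A (Units.mk0 w' h'.ne) := by
  rw [clu_eq]
  have h1 := Rep.unique hr hA hrM hNM hn h h'
  have h2 := Rep.unique hr hA hrM hNM hn h' h
  refine ⟨?_, ?_⟩
  · rw [Units.val_mul, Units.val_inv_eq_inv_val, Units.val_mk0, Units.val_mk0, mul_comm]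
    exact h2
  · rw [mul_inv, inv_inv, Units.val_mul, Units.val_inv_eq_inv_val, Units.val_mk0, Units.val_mk0]
    exact h1

theorem exists_psi (hr : r.Prime) (hA : A.LiesOverPrime r) (hrM : ¬ r ∣ M)
    (hNM : N ∣ M) {n : ℕ} (hn : 0 < n) {E : AddSubgroup (JZero N)}
    (hex : ∀ y ∈ E, ∃ w, Rep N M A n y w) :
    ∃ ψ : E →+ HPA A, ∀ (y : E) (w : ℒ Qbar) (h : Rep N M A n (y : JZero N) w),
      ψ y = clu A (Units.mk0 w h.ne) := by
  have hex' : ∀ y : E, ∃ w, Rep N M A n (y : JZero N) w := fun y => hex y y.2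
  choose W hW using hex'
  refine ⟨AddMonoidHom.mk' (fun y => clu A (Units.mk0 (W y) (hW y).ne)) ?_, ?_⟩
  · intro y z
    rw [clu_unique hr hA hrM hNM hn (hW (y + z)) ((hW y).add (hW z)), ← clu_mul]
    congr 1
    exact Units.ext rfl
  · intro y w h
    exact clu_unique hr hA hrM hNM hn (hW y) h

theorem clu_T [NeZero r] [HasPrim A r] [HasPrim Qbar r] [Fact r.Prime] {w : ℒ Qbar} (hw : w ≠ 0)
    (hw' : hM r w ≠ 0) :
    clu A (Units.mk0 (hM r w) hw') = UH A r (clu A (Units.mk0 w hw)) +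
      VH A r (clu A (Units.mk0 w hw)) := by
  rw [UH_clu, VH_clu, ← clu_mul]
  congr 1
  refine Units.ext ?_
  show hM r w = hW r w * qExpand Qbar r w
  rw [hM, mul_comm]

theorem clu_U [NeZero r] [HasPrim A r] [HasPrim Qbar r] [Fact r.Prime] {w : ℒ Qbar} (hw : w ≠ 0)
    (hnn : w ∈ nn Qbar) (h1 : w.coeff 0 = 1) {J : ℕ} (hJ : (Uend Qbar r ^ J) w ∈ PA A) :
    (UH A r : HPA A → HPA A)^[J] (clu A (Units.mk0 w hw)) = 0 := by
  rw [UH_iter, clu_eq_zero]
  have h1 := Uend_pow_one (q := r) hnn h1 J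
  have h2 := mem_unitsPA_of (Uend_pow_ne_zero J hw) hJ h1.2
  have e : ((Uu Qbar r : (ℒ Qbar)ˣ → (ℒ Qbar)ˣ)^[J] (Units.mk0 w hw)) =
      Units.mk0 _ (Uend_pow_ne_zero J hw) := Units.ext (by rw [Uu_iter]; rfl)
  rw [e]
  exact h2

theorem clu_V [NeZero r] (hr : r.Prime) {w : ℒ Qbar} (hw : w ≠ 0)
    (hnn : w ∈ nn Qbar) (h1 : w.coeff 0 = 1) {m : ℕ} (hm : 0 < m)
    (hy : (VH A r : HPA A → HPA A)^[m] (clu A (Units.mk0 w hw)) = clu A (Units.mk0 w hw)) :
    clu A (Units.mk0 w hw) = 0 := by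
  rw [VH_iter, clu_eq] at hy
  rw [clu_eq_zero]
  refine mem_unitsPA_of _ ?_ h1
  have h3 := hy.1
  rw [Units.val_mul, Units.val_inv_eq_inv_val, Vu_iter, Units.val_mk0] at h3
  have h2 : qExpand Qbar (r ^ m) w ≠ 0 := by
    intro h0
    apply hw
    exact qExpand_inj (r ^ m) (by rw [h0, map_zero])
  refine fixV_PA (r ^ m) ?_ hnn h1 h3 ?_
  · calc 2 ≤ r ^ 1 := by rw [pow_one]; exact hr.two_le
      _ ≤ r ^ m := Nat.pow_le_pow_right hr.pos hm
  · rw [← mul_assoc, mul_inv_cancel₀ h2, one_mul]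

set_option maxHeartbeats 1600000 in
/-- **integrality on the part where `T_r` is bijective** -/
theorem rep_PA (hr : r.Prime) (hA : A.LiesOverPrime r) (hrN : ¬ r ∣ N) (hrM : ¬ r ∣ M)
    (hNM : N ∣ M) {hπ : Function.Surjective (residue A)} {hMK : (M : Qbar) ≠ 0}
    {hMκ : (M : ResidueField A) ≠ 0}
    [IsFunctionField Qbar (modularFunctionFieldFullC Qbar M)]
    [IsFunctionField (ResidueField A) (modularFunctionFieldFullC (ResidueField A) M)]
    {T : modularFunctionFieldFullC Qbar M}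
    {𝔭 : Place (ResidueField A) (modularFunctionFieldFullC (ResidueField A) M)}
    (D : AtInf hπ hMK hMκ T 𝔭) {a0 : A} (ha0 : a0 ≠ 0) (ha0π : residue A a0 = 0)
    [NeZero r] [HasPrim A r] [HasPrim Qbar r] {k : ℕ} {K : AddSubgroup (JZero N)}
    (hK : IsRedKer N r A K) {E : AddSubgroup (JZero N)} (hE : ∀ x ∈ E, r ^ k • x = 0)
    (hEK : E ≤ K) (hET : ∀ x ∈ E, Tj N r hr x ∈ E) (hET0 : ∀ x ∈ E, Tj N r hr x = 0 → x = 0)
    {x : JZero N} (hx : x ∈ E) {w : ℒ Qbar} (hw : Rep N M A (r ^ k) x w) : w ∈ PA A := by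
  haveI : Fact r.Prime := ⟨hr⟩
  have hn : 0 < r ^ k := Nat.pos_of_ne_zero (pow_ne_zero _ hr.ne_zero)
  have hex : ∀ y ∈ E, ∃ w, Rep N M A (r ^ k) y w := fun y hy =>
    Rep.exists hr hA hNM D ha0 ha0π hn (hE y hy)
  obtain ⟨ψ, hψ⟩ := exists_psi hr hA hrM hNM hn hex
  obtain ⟨TE, hTE⟩ : ∃ TE : E →+ E, ∀ y : E, ((TE y : E) : JZero N) = Tj N r hr (y : JZero N) :=
    ⟨AddMonoidHom.mk' (fun y => ⟨Tj N r hr y, hET y y.2⟩) (fun a b => Subtype.ext (by
      show Tj N r hr ((a : JZero N) + b) = Tj N r hr a + Tj N r hr b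
      rw [map_add])), fun y => rfl⟩
  haveI : Finite E := by
    have h1 := MazH.finite_tors (N := N) (n := r ^ k) hn.ne'
    have h2 : (E : Set (JZero N)).Finite := h1.subset fun y hy => hE y hy
    exact h2.to_subtype
  have hTinj : Function.Injective TE := by
    rw [injective_iff_map_eq_zero]
    intro y hy
    refine Subtype.ext (hET0 y y.2 ?_)
    rw [← hTE, hy]
    rfl
  have hψT : ∀ y : E, ψ (TE y) = UH A r (ψ y) + VH A r (ψ y) := by
    intro y
    obtain ⟨w, hw⟩ := hex y y.2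
    have h1 := hw.hecke hr hrN hrM
    rw [← hTE] at h1
    rw [hψ y w hw, hψ _ _ h1]
    exact clu_T hw.ne h1.ne
  have hU : ∀ y : E, ∃ J : ℕ, (UH A r : HPA A → HPA A)^[J] (ψ y) = 0 := by
    intro y
    obtain ⟨w, hw⟩ := hex y y.2
    obtain ⟨J, hJ⟩ := hw.contr hr hA hNM D ha0 ha0π hK (hEK y.2)
    refine ⟨J, ?_⟩
    rw [hψ y w hw]
    exact clu_U hw.ne hw.nn hw.one hJ
  have hV : ∀ (y : E) (m : ℕ), 0 < m → (VH A r : HPA A → HPA A)^[m] (ψ y) = ψ y → ψ y = 0 := by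
    intro y m hm hy
    obtain ⟨w, hw⟩ := hex y y.2
    rw [hψ y w hw] at hy ⊢
    exact clu_V hr hw.ne hw.nn hw.one hm hy
  have hzero : ψ ⟨x, hx⟩ = 0 :=
    ord_part (H := HPA A) TE hTinj (r := r) (k := k) (fun y => Subtype.ext (hE y y.2)) ψ (UH A r)
      (VH A r) (UV_clu r) hψT hU hV _
  rw [hψ _ w hw, clu_eq_zero] at hzero
  exact hzero.1

end Main

end Fermat.Agent.MazR
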