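import Fermat.Agent.AtP.Contract

/-!
# Power series with integral coefficients
-/

set_option autoImplicit false
set_option linter.unusedSectionVars false

noncomputable section

namespace Fermat.Agent.MazR

open ModularCurve Fermat.Agent.ModFun Fermat.Agent.HeckeQ Fermat.Agent.GoodRed Fermat.Agent.AtP

local notation "ℒ" => LaurentSeries

variable {K κ : Type*} [Field K] [Field κ] {A : ValuationSubring K} {π : A →+* κ}

/-- complete integral closure, for constants -/
theorem cic_const [IsLocalHom π] (hr : RankOne π) {c x : K} (hc : c ≠ 0)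
    (h : ∀ m : ℕ, c * x ^ m ∈ A) : x ∈ A := by
  rcases A.mem_or_inv_mem x with h' | h'
  · exact h'
  · by_contra hne
    have hx0 : x ≠ 0 := by
      intro h0
      rw [h0] at hne
      exact hne (zero_mem _)
    have hπ : π ⟨x⁻¹, h'⟩ = 0 := by
      by_contra h2
      have h3 : IsUnit (⟨x⁻¹, h'⟩ : A) := (isUnit_map_iff π _).mp (Ne.isUnit h2)
      obtain ⟨u, hu⟩ := h3
      have h5 : ((u : A) : K) * (((u⁻¹ : Aˣ) : A) : K) = 1 := by
        have := congrArg (Subtype.val : A → K) u.mul_inv
        exact this
      rw [hu] at h5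
      have h4 : (((u⁻¹ : Aˣ) : A) : K) = x := by
        simp only at h5
        field_simp at h5
        exact h5
      apply hne
      rw [← h4]
      exact ((u⁻¹ : Aˣ) : A).2
    obtain ⟨m, hm⟩ := hr ⟨x⁻¹, h'⟩ (fun h0 => inv_ne_zero hx0 (congrArg Subtype.val h0)) hπ c⁻¹
    have h2 := mul_mem hm (h (m + 1))
    apply hne
    have e1 : ((⟨x⁻¹, h'⟩ : A) : K) ^ m * c⁻¹ * (c * x ^ (m + 1)) = x := by
      have e2 : (x⁻¹) ^ m * c⁻¹ * (c * x ^ (m + 1)) = ((x⁻¹) ^ m * x ^ m) * (c⁻¹ * c) * x := by ring
      show (x⁻¹) ^ m * c⁻¹ * (c * x ^ (m + 1)) = x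
      rw [e2, ← mul_pow, inv_mul_cancel₀ hx0, inv_mul_cancel₀ hc, one_pow, one_mul, one_mul]
    rwa [e1] at h2

theorem cic_zero [IsLocalHom π] (hr : RankOne π) {d : PowerSeries K} (hd : d ≠ 0)
    (x : PowerSeries K) (hx : ∀ m i, PowerSeries.coeff i (d * x ^ m) ∈ A) :
    PowerSeries.coeff 0 x ∈ A := by
  classical
  obtain ⟨e, he, hmin⟩ : ∃ e, PowerSeries.coeff e d ≠ 0 ∧
      ∀ i < e, PowerSeries.coeff i d = 0 := by
    have hex : ∃ e, PowerSeries.coeff e d ≠ 0 := by
      by_contra h
      push Not at h
      exact hd (PowerSeries.ext (by simpa using h))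
    exact ⟨Nat.find hex, Nat.find_spec hex, fun i hi => by
      have := Nat.find_min hex hi
      simpa using this⟩
  refine cic_const hr he fun m => ?_
  have h2 : PowerSeries.coeff e (d * x ^ m) =
      PowerSeries.coeff e d * (PowerSeries.coeff 0 x) ^ m := by
    rw [PowerSeries.coeff_mul, Finset.sum_eq_single (e, 0)]
    · show PowerSeries.coeff e d * PowerSeries.coeff 0 (x ^ m) = _
      rw [PowerSeries.coeff_zero_eq_constantCoeff_apply, map_pow,
        PowerSeries.coeff_zero_eq_constantCoeff_apply]
    · rintro ⟨a, b⟩ hab hne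
      rw [Finset.HasAntidiagonal.mem_antidiagonal] at hab
      have : a < e := by
        rcases Nat.lt_or_ge a e with h | h
        · exact h
        · exfalso
          apply hne
          simp only at hab
          have h3 : a = e := by omega
          have h4 : b = 0 := by omega
          rw [h3, h4]
      rw [hmin a this, zero_mul]
    · intro h
      exact absurd (Finset.HasAntidiagonal.mem_antidiagonal.mpr (by simp)) h
  rw [← h2]
  exact hx m e

/-- complete integral closure, for power series -/
theorem cic_ps [IsLocalHom π] (hr : RankOne π) {d : PowerSeries K} (hd : d ≠ 0) :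
    ∀ (n : ℕ) (x : PowerSeries K), (∀ m i, PowerSeries.coeff i (d * x ^ m) ∈ A) →
      PowerSeries.coeff n x ∈ A := by
  intro n
  induction n with
  | zero => exact fun x hx => cic_zero hr hd x hx
  | succ n ih =>
    intro x hx
    have hx0 : PowerSeries.coeff 0 x ∈ A := cic_zero hr hd x hx
    obtain ⟨x', hx'⟩ : ∃ x', x - PowerSeries.C (PowerSeries.coeff 0 x) = PowerSeries.X * x' := by
      have : PowerSeries.X ∣ x - PowerSeries.C (PowerSeries.coeff 0 x) := by
        rw [PowerSeries.X_dvd_iff]
        simp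
      exact this
    have h1 : PowerSeries.coeff (n + 1) x = PowerSeries.coeff n x' := by
      have h2 := congrArg (PowerSeries.coeff (n + 1)) hx'
      rw [PowerSeries.coeff_succ_X_mul, map_sub, PowerSeries.coeff_C, if_neg (by omega),
        sub_zero] at h2
      exact h2
    rw [h1]
    refine ih x' fun m i => ?_
    have h2 : PowerSeries.coeff i (d * x' ^ m) =
        PowerSeries.coeff (i + m) (d * (x - PowerSeries.C (PowerSeries.coeff 0 x)) ^ m) := by
      rw [hx', mul_pow, mul_left_comm, PowerSeries.coeff_X_pow_mul']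
      rw [if_pos (by omega)]
      congr 2
      omega
    rw [h2, sub_eq_add_neg, add_pow, Finset.mul_sum, map_sum]
    refine sum_mem fun j _ => ?_
    have e1 : d * (x ^ j * (-PowerSeries.C (PowerSeries.coeff 0 x)) ^ (m - j) *
        (m.choose j : PowerSeries K)) =
        PowerSeries.C ((-PowerSeries.coeff 0 x) ^ (m - j) * (m.choose j : K)) * (d * x ^ j) := by
      rw [map_mul, map_pow, map_neg, map_natCast]
      ring
    rw [e1, PowerSeries.coeff_C_mul]
    exact mul_mem (mul_mem (pow_mem (neg_mem hx0) _) (natCast_mem A _)) (hx j _)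

/-- `n`-th roots of `1 + n² y` -/
theorem root_ps {n : ℕ} (hn : (n : K) ≠ 0) {w y : PowerSeries K}
    (hw0 : PowerSeries.constantCoeff w = 1) (hy : ∀ i, PowerSeries.coeff i y ∈ A)
    (h : w ^ n = 1 + PowerSeries.C ((n : K) ^ 2) * y) : ∀ i, PowerSeries.coeff i w ∈ A := by
  classical
  set z : PowerSeries K := PowerSeries.C ((n : K)⁻¹) * (w - 1) with hz
  have hz0 : PowerSeries.coeff 0 z = 0 := by
    rw [PowerSeries.coeff_zero_eq_constantCoeff_apply, hz, map_mul, map_sub, hw0, map_one, sub_self,
      mul_zero]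
  have hwz : w = 1 + PowerSeries.C (n : K) * z := by
    rw [hz, ← mul_assoc, ← map_mul, mul_inv_cancel₀ hn, map_one, one_mul]
    ring
  -- powers
  have hpow : ∀ m : ℕ, (∀ i < m, PowerSeries.coeff i z ∈ A) → ∀ j : ℕ, ∀ i < m,
      PowerSeries.coeff i (z ^ j) ∈ A := by
    intro m hm j
    induction j with
    | zero =>
      intro i _
      rw [pow_zero, PowerSeries.coeff_one]
      split_ifs
      · exact one_mem _
      · exact zero_mem _
    | succ j ih =>
      intro i hi
      rw [pow_succ, PowerSeries.coeff_mul]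
      refine sum_mem fun p hp => ?_
      rw [Finset.HasAntidiagonal.mem_antidiagonal] at hp
      exact mul_mem (ih _ (by omega)) (hm _ (by omega))
  have hpow' : ∀ m : ℕ, (∀ i < m, PowerSeries.coeff i z ∈ A) → ∀ j : ℕ,
      PowerSeries.coeff m (z ^ (j + 2)) ∈ A := by
    intro m hm j
    rw [pow_succ, PowerSeries.coeff_mul]
    refine sum_mem fun p hp => ?_
    rw [Finset.HasAntidiagonal.mem_antidiagonal] at hp
    rcases Nat.eq_zero_or_pos p.2 with h2 | h2
    · rw [h2, hz0, mul_zero]; exact zero_mem _
    rcases Nat.eq_zero_or_pos p.1 with h1 | h1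
    · have : PowerSeries.coeff p.1 (z ^ (j + 1)) = 0 := by
        rw [h1, PowerSeries.coeff_zero_eq_constantCoeff_apply, map_pow,
          ← PowerSeries.coeff_zero_eq_constantCoeff_apply, hz0, zero_pow (by omega)]
      rw [this, zero_mul]; exact zero_mem _
    · exact mul_mem (hpow m hm _ _ (by omega)) (hm _ (by omega))
  -- the expansion
  have hexp : z + ∑ j ∈ Finset.range (n - 1), PowerSeries.C (((n.choose (j + 2) : ℕ) : K) *
      (n : K) ^ j) * z ^ (j + 2) = y := by
    have hC : PowerSeries.C ((n : K) ^ 2) ≠ (0 : PowerSeries K) := by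
      intro h0
      have := congrArg PowerSeries.constantCoeff h0
      rw [PowerSeries.constantCoeff_C, map_zero] at this
      exact pow_ne_zero 2 hn this
    apply mul_left_cancel₀ hC
    rcases Nat.eq_zero_or_pos n with h0 | hnpos
    · rw [h0] at hn; simp at hn
    obtain ⟨n', rfl⟩ : ∃ n', n = n' + 1 := ⟨n - 1, by omega⟩
    have h1 : w ^ (n' + 1) = ∑ j ∈ Finset.range (n' + 1 + 1),
        (PowerSeries.C ((n' + 1 : ℕ) : K) * z) ^ j * (1 : PowerSeries K) ^ (n' + 1 - j) *
          ((n' + 1).choose j : ℕ) := by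
      rw [← add_pow, hwz, add_comm]
    rw [h, Finset.sum_range_succ', Finset.sum_range_succ'] at h1
    simp only [pow_zero, one_pow, mul_one, Nat.choose_zero_right, Nat.cast_one, zero_add, pow_one,
      Nat.choose_one_right] at h1
    have h2 : PowerSeries.C ((((n' + 1 : ℕ)) : K) ^ 2) * y = PowerSeries.C ((n' + 1 : ℕ) : K) * z *
        ((n' + 1 : ℕ) : PowerSeries K) + ∑ k ∈ Finset.range n',
        (PowerSeries.C ((n' + 1 : ℕ) : K) * z) ^ (k + 1 + 1) *
          ((n' + 1).choose (k + 1 + 1) : ℕ) := by
      linear_combination h1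
    rw [h2, Nat.add_sub_cancel, mul_add, Finset.mul_sum]
    congr 1
    · rw [map_pow, map_natCast]; ring
    · refine Finset.sum_congr rfl fun j _ => ?_
      rw [map_pow, map_mul, map_pow, map_natCast, map_natCast]
      ring
  have key : ∀ m : ℕ, ∀ i < m, PowerSeries.coeff i z ∈ A := by
    intro m
    induction m with
    | zero => intro i hi; omega
    | succ m ih =>
      intro i hi
      rcases Nat.lt_or_ge i m with h1 | h1
      · exact ih i h1
      · have him : i = m := by omega
        subst him
        have h2 := congrArg (PowerSeries.coeff i) hexp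
        rw [map_add, map_sum] at h2
        have h3 : PowerSeries.coeff i z = PowerSeries.coeff i y -
            ∑ j ∈ Finset.range (n - 1), PowerSeries.coeff i
              (PowerSeries.C (((n.choose (j + 2) : ℕ) : K) * (n : K) ^ j) * z ^ (j + 2)) := by
          rw [← h2]; ring
        rw [h3]
        refine sub_mem (hy i) (sum_mem fun j _ => ?_)
        rw [PowerSeries.coeff_C_mul]
        exact mul_mem (mul_mem (natCast_mem A _) (pow_mem (natCast_mem A _) _)) (hpow' i ih j)
  intro i
  rw [hwz, map_add, PowerSeries.coeff_C_mul, PowerSeries.coeff_one]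
  refine add_mem ?_ (mul_mem (natCast_mem A _) (key (i + 1) i (Nat.lt_succ_self i)))
  split_ifs
  · exact one_mem _
  · exact zero_mem _

end Fermat.Agent.MazR
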