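import Fermat.Agent.MazR.Level
import Fermat.Agent.MazurP.HeckeRed
import Fermat.Agent.MazR.Abs

/-!
# Roots of modular functions attached to torsion classes
-/

set_option autoImplicit false
set_option linter.unusedSectionVars false
set_option linter.style.haveILetI false
set_option synthInstance.maxHeartbeats 400000

noncomputable section

namespace Fermat.Agent.MazR

open Polynomial AlgebraicCurve Fermat.Agent.Curves Module IntermediateField ModularCurve
open Fermat.Agent.GoodRed Fermat.Agent.TorLift Fermat.Agent.Models Fermat.Agent.SSMod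
open Fermat.Agent.AtP Fermat.Agent.HeckeQ Fermat.Agent.ModFun IsLocalRing Fermat.Agent.Maz

local notation "ℒ" => LaurentSeries
local notation "Qbar" => AlgebraicClosure ℚ
local notation "GQ" => Qbar ≃ₐ[ℚ] Qbar

section Gen

variable {k F : Type*} [Field k] [Field F] [Algebra k F] [IsAlgClosed k] [IsFunctionField k F]

theorem exists_div {f : F} {n : ℕ} (h : ∀ P : Place k F, (n : ℤ) ∣ P.ord f) :
    ∃ d : Divisor k F, ∀ P : Place k F, P.ord f = n * d P := by
  refine ⟨(divisorOf (k := k) f).mapRange (fun x => x / n) (by simp), fun P => ?_⟩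
  rw [Finsupp.mapRange_apply, divisorOf_apply, Int.mul_ediv_cancel' (h P)]

theorem exists_const_mul {f g : F} (hf : f ≠ 0) (hg : g ≠ 0)
    (h : ∀ P : Place k F, P.ord f = P.ord g) : ∃ c : k, c ≠ 0 ∧ g = algebraMap k F c * f := by
  obtain ⟨d, hd⟩ := exists_const_of_ord_zero (k := k) (x := g * f⁻¹) (fun Q => by
    rw [Q.ord_mul hg (inv_ne_zero hf), Q.ord_inv, h, add_neg_cancel])
  have e : g = algebraMap k F d * f := by
    rw [← hd, mul_assoc, inv_mul_cancel₀ hf, mul_one]
  refine ⟨d, ?_, e⟩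
  rintro rfl
  rw [map_zero, zero_mul] at e
  exact hg e

end Gen

section Const

variable {K κ : Type*} [Field K] [Field κ] {A : ValuationSubring K} {π : A →+* κ}

/-- reduction of a constant -/
theorem LR_const {e : K} {z : ℒ κ} (h : LR π (HahnSeries.C e : ℒ K) z) (hz : z ≠ 0) :
    ∃ d : κ, d ≠ 0 ∧ z = HahnSeries.C d := by
  rcases A.mem_or_inv_mem e with hA | hA
  · have h1 := h.unique (LR.C ⟨e, hA⟩)
    refine ⟨_, ?_, h1⟩
    intro h2
    rw [h2, map_zero] at h1
    exact hz h1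
  · have h2 := h.mul (LR.C (π := π) ⟨e⁻¹, hA⟩)
    have he : e ≠ 0 := by
      rintro rfl
      have := h.unique (by rw [map_zero]; exact LR.zero π)
      exact hz this
    have h3 : (HahnSeries.C e : ℒ K) * HahnSeries.C ((⟨e⁻¹, hA⟩ : A) : K) = 1 := by
      rw [← map_mul, mul_inv_cancel₀ he, map_one]
    rw [h3] at h2
    have h4 := h2.unique (LR.one π)
    have h5 : π ⟨e⁻¹, hA⟩ ≠ 0 := by
      intro h5
      rw [h5, map_zero, mul_zero] at h4
      exact zero_ne_one h4
    refine ⟨(π ⟨e⁻¹, hA⟩)⁻¹, inv_ne_zero h5, ?_⟩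
    have h6 : (HahnSeries.C (π ⟨e⁻¹, hA⟩) : ℒ κ) ≠ 0 := by simpa using h5
    rw [map_inv₀]
    exact eq_inv_of_mul_eq_one_left h4

end Const

section Level

variable {N M : ℕ} [NeZero N] [NeZero M]

theorem ord_level' {E : IntermediateField Qbar (ℒ Qbar)}
    (hE : E = modularFunctionFieldFullC Qbar N) (hNM : N ∣ M) {m : ℤ}
    [IsFunctionField Qbar E] [IsFunctionField Qbar (modularFunctionFieldFullC Qbar M)]
    {u : ℒ Qbar} (hu : u ∈ E) (hu' : u ∈ modularFunctionFieldFullC Qbar M)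
    (hdiv : ∀ P : Place Qbar E, m ∣ P.ord ⟨u, hu⟩)
    (P : Place Qbar (modularFunctionFieldFullC Qbar M)) : m ∣ P.ord ⟨u, hu'⟩ := by
  subst hE
  exact ord_level hNM hu hu' hdiv P

theorem mem_bar {z : ℒ Qbar} (h : z ∈ modularFunctionFieldFullC Qbar N) :
    z ∈ modularFunctionFieldBar N := by
  have := h
  rwa [← Fermat.Agent.Curves.laurentBaseChange_eq Qbar N] at this

theorem mem_full (f : modularFunctionFieldBar N) :
    (f : ℒ Qbar) ∈ modularFunctionFieldFullC Qbar N := by
  have := f.2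
  rwa [← Fermat.Agent.Curves.laurentBaseChange_eq Qbar N]

theorem mem_level (hNM : N ∣ M) (f : modularFunctionFieldBar N) :
    (f : ℒ Qbar) ∈ modularFunctionFieldFullC Qbar M :=
  full_degeneracyC_le (K := Qbar) hNM (mem_full f)

variable (A : ValuationSubring Qbar) (N M)

/-- `w` is the `n`-th root attached to the class `x` -/
structure Rep (n : ℕ) (x : JZero N) (w : ℒ Qbar) : Prop where
  nn : w ∈ nn Qbar
  one : w.coeff 0 = 1
  PA : w ^ n ∈ PA A
  ex : ∃ (Dv : Divisor.degZero (K := Qbar) (F := modularFunctionFieldBar N))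
    (f : modularFunctionFieldBar N) (h : ℒ Qbar), Pic0.mk Dv = x ∧ f ≠ 0 ∧
    divisorOf (k := Qbar) f = n • (Dv : Divisor Qbar (modularFunctionFieldBar N)) ∧
    h ∈ modularFunctionFieldFullC Qbar M ∧ h ≠ 0 ∧ w ^ n = (f : ℒ Qbar) * h ^ n

variable {A N M}

theorem Rep.ne {n : ℕ} {x : JZero N} {w : ℒ Qbar} (h : Rep N M A n x w) : w ≠ 0 := by
  rintro rfl
  exact zero_ne_one h.one

theorem Rep.inv_nn {n : ℕ} {x : JZero N} {w : ℒ Qbar} (h : Rep N M A n x w) :
    w⁻¹ ∈ MazR.nn Qbar := inv_mem_nn h.nn (by rw [h.one]; exact one_ne_zero)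

theorem Rep.mem {n : ℕ} (hNM : N ∣ M) {x : JZero N} {w : ℒ Qbar} (h : Rep N M A n x w) :
    w ^ n ∈ modularFunctionFieldFullC Qbar M := by
  obtain ⟨Dv, f, h', -, -, -, hh, -, e⟩ := h.ex
  rw [e]
  exact mul_mem (mem_level hNM f) (pow_mem hh n)

theorem mk_eq_zero_iff (D : Divisor.degZero (K := Qbar) (F := modularFunctionFieldBar N)) :
    (Pic0.mk D : JZero N) = 0 ↔ ∃ f : modularFunctionFieldBar N, f ≠ 0 ∧
      divisorOf (k := Qbar) f = (D : Divisor Qbar (modularFunctionFieldBar N)) := by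
  constructor
  · intro h
    have h1 := (QuotientAddGroup.eq_zero_iff _).1 h
    rw [AddSubgroup.mem_addSubgroupOf] at h1
    obtain ⟨f, hf, hD⟩ := h1
    exact ⟨f, hf, by ext P; exact (hD P).symm⟩
  · rintro ⟨f, hf, hD⟩
    refine (QuotientAddGroup.eq_zero_iff _).2 ?_
    rw [AddSubgroup.mem_addSubgroupOf]
    exact ⟨f, hf, fun P => by rw [← hD]; rfl⟩

theorem mk_eq_iff (D D' : Divisor.degZero (K := Qbar) (F := modularFunctionFieldBar N)) :
    (Pic0.mk D : JZero N) = Pic0.mk D' ↔ ∃ f : modularFunctionFieldBar N, f ≠ 0 ∧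
      divisorOf (k := Qbar) f = (D : Divisor Qbar (modularFunctionFieldBar N)) - D' := by
  rw [← sub_eq_zero]
  have : (Pic0.mk D : JZero N) - Pic0.mk D' = Pic0.mk (D - D') := rfl
  rw [this, mk_eq_zero_iff]
  rfl

/-- functions with bounded power are integral -/
theorem FM_PA {A : ValuationSubring Qbar} {r : ℕ} (hr : r.Prime) (hA : A.LiesOverPrime r)
    (hM : ¬ r ∣ M) {v : ℒ Qbar} (hv : v ∈ modularFunctionFieldFullC Qbar M) (hvn : v ∈ MazR.nn Qbar)
    {n : ℕ} (hn : 0 < n) (h : v ^ n ∈ MazR.PA A) : v ∈ MazR.PA A := by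
  rcases eq_or_ne v 0 with rfl | hv0
  · exact zero_mem _
  obtain ⟨c, hc, y, -, hy, f, g, hg, hfg, -⟩ := scale_N (residue A) M residue_surjective
    (by exact_mod_cast NeZero.ne M) (residue_ne_zero hr hA hM) hv hv0
  have hg0 : g ≠ 0 := by
    rintro rfl
    rw [map_zero] at hg
    exact hg rfl
  obtain ⟨a, b, hb, hab⟩ := IsFractionRing.div_surjective (A := A) c
  have hb0 : (b : Qbar) ≠ 0 := fun h => nonZeroDivisors.ne_zero hb (Subtype.ext h)
  have hab' : c = (a : Qbar) / b := hab.symm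
  have ha0 : (a : Qbar) ≠ 0 := by
    intro ha
    rw [hab', ha, zero_div] at hc
    exact hc rfl
  have hC : ∀ a : A, coeffMap A.subtype (HahnSeries.C a) = HahnSeries.C (a : Qbar) := by
    intro a
    rw [HahnSeries.C_apply, HahnSeries.C_apply, coeffMap_single]; rfl
  refine cic_pow (π := residue A) (rankOne_Qbar hr hA) hvn (f := HahnSeries.C b * f)
    (g := HahnSeries.C a * g) ?_ ?_ hn h
  · refine mul_ne_zero ?_ hg0
    simpa using fun h => ha0 (congrArg Subtype.val h)
  · rw [map_mul, map_mul, hC, hC, ← hfg, hab', map_div₀]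
    have : (HahnSeries.C (b : Qbar) : ℒ Qbar) ≠ 0 := by simpa using hb0
    field_simp

end Level

end Fermat.Agent.MazR
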