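import Fermat.Agent.MazR.Rep

/-!
# Operations on the roots attached to torsion classes
-/

set_option autoImplicit false
set_option linter.unusedSectionVars false
set_option linter.style.haveILetI false
set_option synthInstance.maxHeartbeats 400000

noncomputable section

namespace Fermat.Agent.MazR

open Polynomial AlgebraicCurve Fermat.Agent.Curves Module IntermediateField ModularCurve
open Fermat.Agent.GoodRed Fermat.Agent.TorLift Fermat.Agent.Models Fermat.Agent.SSMod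
open Fermat.Agent.AtP Fermat.Agent.HeckeQ Fermat.Agent.ModFun IsLocalRing Fermat.Agent.Maz

local notation "ℒ" => LaurentSeries
local notation "Qbar" => AlgebraicClosure ℚ
local notation "GQ" => Qbar ≃ₐ[ℚ] Qbar

variable {N M : ℕ} [NeZero N] [NeZero M] {A : ValuationSubring Qbar} {r : ℕ}

theorem C_mem_F (c : Qbar) : (HahnSeries.C c : ℒ Qbar) ∈ modularFunctionFieldFullC Qbar M := by
  rw [ModFun.C_eq_algebraMap]
  exact IntermediateField.algebraMap_mem _ _

theorem Rep.inv_PA {n : ℕ} {x : JZero N} {w : ℒ Qbar} (h : Rep N M A n x w) :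
    (w ^ n)⁻¹ ∈ MazR.PA A := by
  have h1 : (w ^ n).coeff 0 = 1 := by rw [pow_coeff_zero h.nn, h.one, one_pow]
  refine inv_mem_PA h.PA (by rw [h1]; exact one_ne_zero) ?_
  rw [h1, inv_one]
  exact one_mem _

/-- functions whose `n`-th power is an `n`-th power of a function -/
theorem mem_of_pow_eq {n : ℕ} (hn : 0 < n) {v g : ℒ Qbar} (hg : g ∈ modularFunctionFieldFullC Qbar M)
    (hg0 : g ≠ 0) (h : v ^ n = g ^ n) : v ∈ modularFunctionFieldFullC Qbar M := by
  have h1 : (v * g⁻¹) ^ n = 1 := by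
    rw [mul_pow, h, inv_pow, mul_inv_cancel₀ (pow_ne_zero _ hg0)]
  obtain ⟨ζ, -, hζ⟩ := root_laurent hn h1
  have e : v = HahnSeries.C ζ * g := by
    rw [← hζ, mul_assoc, inv_mul_cancel₀ hg0, mul_one]
  rw [e]
  exact mul_mem (C_mem_F ζ) hg

theorem Rep.unique (hr : r.Prime) (hA : A.LiesOverPrime r) (hM : ¬ r ∣ M) (hNM : N ∣ M) {n : ℕ}
    (hn : 0 < n) {x : JZero N} {w w' : ℒ Qbar}
    (h : Rep N M A n x w) (h' : Rep N M A n x w') : w * w'⁻¹ ∈ MazR.PA A := by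
  obtain ⟨D, f, g, hx, hf, hD, hg, hg0, e⟩ := h.ex
  obtain ⟨D', f', g', hx', hf', hD', hg', hg0', e'⟩ := h'.ex
  obtain ⟨z, hz, hzD⟩ := (mk_eq_iff D D').mp (hx.trans hx'.symm)
  obtain ⟨c, hc, hcf⟩ := exists_const_mul (k := Qbar) (f := f' * z ^ n) (g := f)
    (mul_ne_zero hf' (pow_ne_zero _ hz)) hf (fun P => by
      have h1 := DFunLike.congr_fun hD P
      have h2 := DFunLike.congr_fun hD' P
      have h3 := DFunLike.congr_fun hzD P
      rw [divisorOf_apply, Finsupp.smul_apply, nsmul_eq_mul] at h1 h2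
      rw [divisorOf_apply, Finsupp.sub_apply] at h3
      rw [P.ord_mul hf' (pow_ne_zero _ hz), Fermat.Agent.Curves.ord_pow, h1, h2, h3]; ring)
  obtain ⟨e0, he0⟩ := IsAlgClosed.exists_pow_nat_eq c hn
  have he00 : e0 ≠ 0 := by
    rintro rfl
    rw [zero_pow hn.ne'] at he0
    exact hc he0.symm
  have hcf' : (f : ℒ Qbar) = HahnSeries.C c * ((f' : ℒ Qbar) * (z : ℒ Qbar) ^ n) := by
    rw [ModFun.C_eq_algebraMap]
    exact congrArg Subtype.val hcf
  have hz0 : (z : ℒ Qbar) ≠ 0 := fun h => hz (Subtype.ext h)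
  have hf0 : (f' : ℒ Qbar) ≠ 0 := fun h => hf' (Subtype.ext h)
  have hvM : w * w'⁻¹ ∈ modularFunctionFieldFullC Qbar M := by
    refine mem_of_pow_eq hn (g := HahnSeries.C e0 * (z : ℒ Qbar) * (g * g'⁻¹)) ?_ ?_ ?_
    · exact mul_mem (mul_mem (C_mem_F e0) (mem_level hNM z)) (mul_mem hg (inv_mem hg'))
    · refine mul_ne_zero (mul_ne_zero ?_ hz0) (mul_ne_zero hg0 (inv_ne_zero hg0'))
      simpa using he00
    · rw [mul_pow, inv_pow, e, e', mul_pow, mul_pow, mul_pow, inv_pow, ← map_pow, he0, hcf']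
      have := pow_ne_zero n hg0'
      field_simp
  refine FM_PA hr hA hM hvM (mul_mem h.nn h'.inv_nn) hn ?_
  rw [mul_pow, inv_pow]
  exact mul_mem h.PA h'.inv_PA

theorem Rep.zero (n : ℕ) : Rep N M A n (0 : JZero N) 1 where
  nn := one_mem _
  one := one_coeff_zero
  PA := by rw [one_pow]; exact one_mem _
  ex := ⟨0, 1, 1, rfl, one_ne_zero, by
    ext P
    rw [divisorOf_apply, P.ord_one]
    show (0 : ℤ) = (n • (0 : Divisor Qbar (modularFunctionFieldBar N))) P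
    rw [smul_zero]; rfl, one_mem _, one_ne_zero, by
    rw [one_pow, mul_one]; rfl⟩

theorem Rep.add {n : ℕ} {x x' : JZero N} {w w' : ℒ Qbar} (h : Rep N M A n x w)
    (h' : Rep N M A n x' w') : Rep N M A n (x + x') (w * w') where
  nn := mul_mem h.nn h'.nn
  one := by rw [coeff_zero_mul h.nn h'.nn, h.one, h'.one, one_mul]
  PA := by rw [mul_pow]; exact mul_mem h.PA h'.PA
  ex := by
    obtain ⟨D, f, g, hx, hf, hD, hg, hg0, e⟩ := h.ex
    obtain ⟨D', f', g', hx', hf', hD', hg', hg0', e'⟩ := h'.ex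
    refine ⟨D + D', f * f', g * g', ?_, mul_ne_zero hf hf', ?_, mul_mem hg hg',
      mul_ne_zero hg0 hg0', ?_⟩
    · rw [← hx, ← hx']; rfl
    · rw [GoodRed.divisorOf_mul hf hf', hD, hD']
      show _ = n • ((D : Divisor Qbar (modularFunctionFieldBar N)) + D')
      rw [smul_add]
    · rw [mul_pow, mul_pow, e, e']
      show _ = (f : ℒ Qbar) * (f' : ℒ Qbar) * _
      ring

theorem Rep.exists (hr : r.Prime) (hA : A.LiesOverPrime r) (hNM : N ∣ M)
    {hπ : Function.Surjective (residue A)} {hMK : (M : Qbar) ≠ 0}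
    {hMκ : (M : ResidueField A) ≠ 0}
    [IsFunctionField Qbar (modularFunctionFieldFullC Qbar M)]
    [IsFunctionField (ResidueField A) (modularFunctionFieldFullC (ResidueField A) M)]
    {T : modularFunctionFieldFullC Qbar M}
    {𝔭 : Place (ResidueField A) (modularFunctionFieldFullC (ResidueField A) M)}
    (D : AtInf hπ hMK hMκ T 𝔭) {a0 : A} (ha0 : a0 ≠ 0) (ha0π : residue A a0 = 0)
    {n : ℕ} (hn : 0 < n) {x : JZero N}
    (hx : n • x = 0) : ∃ w, Rep N M A n x w := by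
  obtain ⟨Dv, rfl⟩ := Pic0.mk_surjective x
  have hx' : (Pic0.mk (n • Dv) : JZero N) = 0 := hx
  obtain ⟨f, hf, hfD⟩ := (mk_eq_zero_iff _).mp hx'
  change divisorOf (k := Qbar) f = n • (Dv : Divisor Qbar (modularFunctionFieldBar N)) at hfD
  have hdvd : ∀ P : Place Qbar (modularFunctionFieldBar N), (n : ℤ) ∣ P.ord f := by
    intro P
    rw [← divisorOf_apply, hfD, Finsupp.smul_apply, nsmul_eq_mul]
    exact dvd_mul_right _ _
  set f' : modularFunctionFieldFullC Qbar M := ⟨f, mem_level hNM f⟩ with hf'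
  have hf0 : f' ≠ 0 := fun h => hf (Subtype.ext (congrArg (Subtype.val :
    modularFunctionFieldFullC Qbar M → ℒ Qbar) h))
  obtain ⟨d, hd⟩ := exists_div (k := Qbar) (f := f') (n := n)
    (ord_level' (Fermat.Agent.Curves.laurentBaseChange_eq Qbar N) hNM f.2 (mem_level hNM f) hdvd)
  obtain ⟨h, hh0, h1, -, h3⟩ := moving (rankOne_Qbar hr hA) D ha0 ha0π hn hf0 hd
  obtain ⟨w, hw, hw0, hwn⟩ := nn_root hn (PA_le_nn h1) h3
  exact ⟨w, hw, hw0, by rw [hwn]; exact h1, Dv, f, h, rfl, hf, hfD, h.2,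
    fun h0 => hh0 (Subtype.ext h0), hwn⟩

theorem Rep.hecke [NeZero r] [HasPrim Qbar r] [HasPrim A r] (hr : r.Prime) (hN : ¬ r ∣ N)
    (hrM : ¬ r ∣ M) {n : ℕ} {x : JZero N} {w : ℒ Qbar} (h : Rep N M A n x w) :
    Rep N M A n (Tj N r hr x) (hM r w) := by
  haveI : Fact r.Prime := ⟨hr⟩
  obtain ⟨D, f, g, hx, hf, hD, hg, hg0, e⟩ := h.ex
  obtain ⟨f1, hf1, hf1D⟩ := heckeDiv_divisorOf hN hf
  have hf0 : (f : ℒ Qbar) ≠ 0 := fun h => hf (Subtype.ext h)
  have hf10 : f1 ≠ 0 := by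
    intro h0
    rw [h0] at hf1
    exact hM_ne_zero r hf0 hf1.symm
  have hcoeff : (qExpand Qbar r w).coeff 0 = 1 := by rw [qExpand_coeff_zero, h.one]
  have hnn : hM r w ∈ MazR.nn Qbar := mul_mem (qExpand_mem_nn r h.nn) (hW_mem_nn h.nn)
  refine ⟨hnn, ?_, ?_, ⟨heckeDiv Qbar N r D, heckeDiv_mem_degZero Qbar N r D.2⟩, f1, hM r g, ?_,
    hf10, ?_, MazurP.hM_mem_K hr hrM hg, hM_ne_zero r hg0, ?_⟩
  · rw [hM, coeff_zero_mul (qExpand_mem_nn r h.nn) (hW_mem_nn h.nn), hcoeff,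
      hW_coeff_zero h.nn h.one, one_mul]
  · rw [← hM_pow]
    exact mul_mem (qExpand_mem_PA r h.PA) (hW_mem_PA h.PA)
  · rw [← hx]
    exact (S37.hecke_mk hr D).symm
  · rw [← hf1D, hD, map_nsmul]
  · rw [← hM_pow, e, hM_mul, hM_pow, hf1]

theorem red_pow {K κ : Type*} [Field K] [Field κ] [IsAlgClosed κ] {A : ValuationSubring K}
    {π : A →+* κ} {n : ℕ} (hn : 0 < n) {W f g : ℒ K} (hW : W ∈ MazR.PA A) (hW0 : W.coeff 0 = 1)
    (e : W = f * g ^ n) {c c' : K} (hc : c ≠ 0) (hc' : c' ≠ 0) {z y : ℒ κ}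
    (hz0 : z ≠ 0) (hy0 : y ≠ 0) (hLR : LR π (HahnSeries.C c * f) (z ^ n))
    (hLR' : LR π (HahnSeries.C c' * g) y) : ∃ gb : ℒ κ, LR π W (gb ^ n) := by
  have hC0 : (HahnSeries.C c : ℒ K) ≠ 0 := by simpa using hc
  have hC0' : (HahnSeries.C c' : ℒ K) ≠ 0 := by simpa using hc'
  have hW1 : W ≠ 0 := by
    rintro rfl
    exact zero_ne_one hW0
  have hf0 : f ≠ 0 := by
    rintro rfl
    rw [zero_mul] at e
    exact hW1 e
  have hg0 : g ^ n ≠ 0 := by
    intro h
    rw [h, mul_zero] at e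
    exact hW1 e
  have hLRpow : ∀ {a : ℒ K} {b : ℒ κ}, LR π a b → ∀ m : ℕ, LR π (a ^ m) (b ^ m) := by
    intro a b hab m
    induction m with
    | zero => rw [pow_zero, pow_zero]; exact LR.one _
    | succ m ih => rw [pow_succ, pow_succ]; exact ih.mul hab
  set Y : ℒ κ := z * y with hY
  have hY0 : Y ^ n ≠ 0 := pow_ne_zero n (mul_ne_zero hz0 hy0)
  have hX : LR π (HahnSeries.C c * f * (HahnSeries.C c' * g) ^ n) (Y ^ n) := by
    rw [hY, mul_pow z y n]
    exact hLR.mul (hLRpow hLR' n)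
  obtain ⟨F, hF, hFe⟩ := exists_of_PA hW
  have hu : LR π W (coeffMap π F) := by
    rw [← hFe]; exact LR.of F
  have hu0 : coeffMap π F ≠ 0 := by
    intro h0
    have h2 : (coeffMap A.subtype F).coeff 0 = 1 := by rw [hFe, hW0]
    rw [coeffMap_coeff] at h2
    have h3 : F.coeff 0 = 1 := Subtype.ext h2
    have h4 : (coeffMap π F).coeff 0 = 1 := by rw [coeffMap_coeff, h3, map_one]
    rw [h0] at h4
    exact zero_ne_one h4
  have hconst : LR π (HahnSeries.C (c * c' ^ n)⁻¹ : ℒ K) (coeffMap π F * (Y ^ n)⁻¹) := by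
    have h2 := hu.mul (hX.inv hY0)
    have e1 : W * (HahnSeries.C c * f * (HahnSeries.C c' * g) ^ n)⁻¹ =
        HahnSeries.C (c * c' ^ n)⁻¹ := by
      rw [e, map_inv₀, map_mul, map_pow, mul_pow]
      have := pow_ne_zero n hC0'
      field_simp
    rwa [e1] at h2
  obtain ⟨δ, hδ, hδe⟩ := LR_const hconst (mul_ne_zero hu0 (inv_ne_zero hY0))
  obtain ⟨δ0, hδ0⟩ := IsAlgClosed.exists_pow_nat_eq δ hn
  refine ⟨HahnSeries.C δ0 * Y, ?_⟩
  have hfin : coeffMap π F = (HahnSeries.C δ0 * Y) ^ n := by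
    rw [mul_pow, ← map_pow, hδ0, ← hδe, mul_assoc, inv_mul_cancel₀ hY0, mul_one]
  rwa [hfin] at hu

/-- the reduction of `f` is an `n`-th power -/
theorem Rep.red_f (hr : r.Prime) (hA : A.LiesOverPrime r) {n : ℕ} (hn : 0 < n)
    {K : AddSubgroup (JZero N)} (hK : IsRedKer N r A K)
    {Dv : Divisor.degZero (K := Qbar) (F := modularFunctionFieldBar N)}
    (hx : (Pic0.mk Dv : JZero N) ∈ K) {f : modularFunctionFieldBar N} (hf : f ≠ 0)
    (hD : divisorOf (k := Qbar) f = n • (Dv : Divisor Qbar (modularFunctionFieldBar N))) :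
    ∃ (c : Qbar) (z : ℒ (ResidueField A)), c ≠ 0 ∧ z ≠ 0 ∧
      LR (residue A) (HahnSeries.C c * (f : ℒ Qbar)) (z ^ n) := by
  obtain ⟨_, _, hrN, M0, hFF, rr, -, -, hKeq⟩ := hK
  rw [hKeq, AddMonoidHom.mem_ker, S37.redHom_mk, QuotientAddGroup.eq_zero_iff] at hx
  obtain ⟨gb, hgb0, hgb⟩ := hx
  obtain ⟨c, fb, hc, hfb, hLR⟩ := GoodRed.exists_scale (residue A) N residue_surjective
      (residue_ne_zero hr hA hrN) (Fermat.Agent.Curves.laurentBaseChange_eq Qbar N) hf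
  have h1 := rr.spec' hLR hfb
  rw [GoodRed.divisorOf_const_mul hf hc, hD, map_nsmul] at h1
  have hfb' : IntermediateField.inclusion rr.hle fb ≠ 0 := by rwa [Ne, map_eq_zero]
  obtain ⟨d, hd, hde⟩ := exists_const_mul (k := ResidueField A) (f := gb ^ n)
    (pow_ne_zero _ hgb0) hfb' (fun P => by
      have h2 := DFunLike.congr_fun h1 P
      rw [divisorOf_apply, Finsupp.smul_apply, nsmul_eq_mul, hgb P] at h2
      rw [Fermat.Agent.Curves.ord_pow, h2])
  obtain ⟨d0, hd0⟩ := IsAlgClosed.exists_pow_nat_eq d hn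
  have hgbL : (gb : ℒ (ResidueField A)) ≠ 0 := fun h => hgb0 (Subtype.ext h)
  have hd00 : d0 ≠ 0 := by
    rintro rfl
    rw [zero_pow hn.ne'] at hd0
    exact hd hd0.symm
  refine ⟨c, HahnSeries.C d0 * (gb : ℒ (ResidueField A)), hc,
    mul_ne_zero (by simpa using hd00) hgbL, ?_⟩
  have hfbe : (fb : ℒ (ResidueField A)) = (HahnSeries.C d0 * (gb : ℒ (ResidueField A))) ^ n := by
    have h2 := congrArg Subtype.val hde
    change (fb : ℒ (ResidueField A)) = algebraMap (ResidueField A) (ℒ (ResidueField A)) d *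
      (gb : ℒ (ResidueField A)) ^ n at h2
    rw [h2, mul_pow, ← map_pow, hd0, ModFun.C_eq_algebraMap]
  have hcfL : ((algebraMap Qbar (modularFunctionFieldBar N) c * f : modularFunctionFieldBar N) :
      ℒ Qbar) = HahnSeries.C c * (f : ℒ Qbar) := by
    rw [ModFun.C_eq_algebraMap]; rfl
  rwa [hcfL, hfbe] at hLR

/-- **contraction** for classes in the kernel of reduction -/
theorem Rep.contr (hr : r.Prime) (hA : A.LiesOverPrime r) (hNM : N ∣ M)
    {hπ : Function.Surjective (residue A)} {hMK : (M : Qbar) ≠ 0}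
    {hMκ : (M : ResidueField A) ≠ 0}
    [IsFunctionField Qbar (modularFunctionFieldFullC Qbar M)]
    [IsFunctionField (ResidueField A) (modularFunctionFieldFullC (ResidueField A) M)]
    {T : modularFunctionFieldFullC Qbar M}
    {𝔭 : Place (ResidueField A) (modularFunctionFieldFullC (ResidueField A) M)}
    (D : AtInf hπ hMK hMκ T 𝔭) {a0 : A} (ha0 : a0 ≠ 0) (ha0π : residue A a0 = 0)
    [NeZero r] [HasPrim A r] [HasPrim Qbar r] {k : ℕ} {K : AddSubgroup (JZero N)}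
    (hK : IsRedKer N r A K) {x : JZero N} (hx : x ∈ K) {w : ℒ Qbar}
    (h : Rep N M A (r ^ k) x w) : ∃ J : ℕ, (Uend Qbar r ^ J) w ∈ MazR.PA A := by
  haveI : Fact r.Prime := ⟨hr⟩
  haveI := FrobDens.charP_residueField A hr hA
  have hmem := h.mem hNM
  have hn0 : 0 < r ^ k := Nat.pos_of_ne_zero (pow_ne_zero _ hr.ne_zero)
  obtain ⟨Dv, f, g, hxD, hf, hD, hg, hg0, e⟩ := h.ex
  rw [← hxD] at hx
  obtain ⟨c, z, hc, hz, hLR⟩ := Rep.red_f hr hA hn0 hK hx hf hD
  obtain ⟨c', y, hc', -, hy0, hLR'⟩ : ∃ (c' : Qbar) (y : ℒ (ResidueField A)), c' ≠ 0 ∧ True ∧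
      y ≠ 0 ∧ LR (residue A) (HahnSeries.C c' * g) y := by
    obtain ⟨c', hc', y, -, hy0, hLR'⟩ := scale_N (residue A) M residue_surjective hMK hMκ hg hg0
    exact ⟨c', y, hc', trivial, hy0, hLR'⟩
  obtain ⟨gb, hgb⟩ := red_pow hn0 h.PA (by rw [pow_coeff_zero h.nn, h.one, one_pow]) e hc hc'
    hz hy0 hLR hLR'
  exact contr_root (rankOne_Qbar hr hA) D ha0 ha0π (p := r) (k := k) h.nn h.one h.PA hmem hgb

end Fermat.Agent.MazR
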